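import Fermat.Agent.ES.CyclicInert

/-!
# Frobenius density theorem, finite level:
every cyclic subgroup of `Gal(L/ℚ)` is the decomposition group of an unramified place.
-/

set_option autoImplicit false

namespace Fermat.Agent.ES

open IsDedekindDomain NumberField Filter Topology Pointwise
open Fermat.Agent.S14 Fermat.Agent.S14.Dens Fermat.Agent.S14.KDaux

theorem prime_absNorm_rat (u : Pl ℚ) : (Ideal.absNorm u.asIdeal).Prime := by
  have := u.isMaximal
  obtain ⟨p, n, hn, hp, hpp, h⟩ := Ideal.exists_prime_and_absNorm_eq_pow u.asIdeal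
  have h1 : Ideal.absNorm u.asIdeal ∣ Ideal.absNorm (Ideal.span {(p : 𝓞 ℚ)}) :=
    Ideal.absNorm_dvd_absNorm_of_le ((Ideal.span_singleton_le_iff_mem _).mpr hp)
  rw [Ideal.absNorm_span_natCast, RingOfIntegers.rank, Module.finrank_self, pow_one] at h1
  rcases (Nat.dvd_prime hpp).mp h1 with h2 | h2
  · exact absurd h2 (resaux_one_lt_absNorm u).ne'
  · rw [h2]; exact hpp

section

variable {K : Type*} [Field K] [NumberField K]

theorem finite_absNorm_mem (S : Finset ℕ) : {v : Pl K | Ideal.absNorm v.asIdeal ∈ S}.Finite := by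
  have h1 : (⋃ n ∈ S, {I : Ideal (𝓞 K) | Ideal.absNorm I = n}).Finite :=
    Set.Finite.biUnion S.finite_toSet fun n _ ↦ Ideal.finite_setOfPred_absNorm_eq n
  refine (h1.preimage (asIdeal_injective (Z := K)).injOn).subset fun v hv ↦ ?_
  simp only [Set.mem_preimage, Set.mem_iUnion, Set.mem_ofPred_eq, exists_prop]
  exact ⟨_, hv, rfl⟩

theorem finite_below_preimage {Z : Type*} [Field Z] [NumberField Z] [Algebra K Z]
    {T : Set (Pl K)} (hT : T.Finite) : {w : Pl Z | below w ∈ T}.Finite :=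
  hT.preimage' fun v _ ↦ fiber_finite v

theorem card_stabilizer_gal {Z : Type*} [Field Z] [NumberField Z] [Algebra K Z]
    (G : Type*) [Group G] [Finite G] [MulSemiringAction G (𝓞 Z)] [IsGaloisGroup G (𝓞 K) (𝓞 Z)]
    (w : Pl Z) :
    Nat.card (MulAction.stabilizer G w.asIdeal) = ram K w * resdeg K w := by
  rw [Ideal.card_stabilizer_eq (below (K := K) w).asIdeal w.asIdeal,
    Ideal.ramificationIdxIn_eq_ramificationIdx _ w.asIdeal G,
    Ideal.inertiaDegIn_eq_inertiaDeg _ w.asIdeal G]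
  rfl

end

variable {L : Type*} [Field L] [NumberField L] [IsGalois ℚ L]

/-- **Frobenius density theorem** (existence form, finite level). -/
theorem exists_place_stabilizer_eq (g : L ≃ₐ[ℚ] L) (S : Finset ℕ) :
    ∃ w : Pl L, ram ℚ w = 1 ∧ Ideal.absNorm (below (K := ℚ) w).asIdeal ∉ S ∧
      MulAction.stabilizer (L ≃ₐ[ℚ] L) w.asIdeal = Subgroup.zpowers g := by
  set H : Subgroup (L ≃ₐ[ℚ] L) := Subgroup.zpowers g with hH
  set K : IntermediateField ℚ L := FixedPoints.intermediateField H with hK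
  have hHO : IsGaloisGroup H (𝓞 K) (𝓞 L) := IsGaloisGroup.of_isFractionRing H (𝓞 K) (𝓞 L) K L
  have hX := not_bdd_inert (K := K) (L := L) H
  have hY : Bdd (DS ({v : Pl K | 2 ≤ resdeg ℚ v} ∪ ({v : Pl K | ¬ IsUnram L v} ∪
      ({v : Pl K | below (K := ℚ) v ∈ {u : Pl ℚ | ¬ IsUnram L u}} ∪
        {v : Pl K | Ideal.absNorm v.asIdeal ∈ S})))) :=
    bdd_DS_union (bdd_resdeg_ge_two ℚ) (bdd_DS_finite (finite_not_isUnram.union
      ((finite_below_preimage finite_not_isUnram).union (finite_absNorm_mem S))))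
  obtain ⟨v, hvX, hvY⟩ := exists_mem_notMem hX hY
  simp only [Set.mem_union, not_or, Set.mem_ofPred_eq, not_not, not_le] at hvY
  obtain ⟨hv1, hv2, hv3, hv4⟩ := hvY
  obtain ⟨w, rfl⟩ := fiber_nonempty (Z := L) v
  have hb : below (K := ℚ) (below (K := K) w) = below (K := ℚ) w := below_below w
  have hram : ram ℚ w = 1 := hv3 w hb.symm
  have hramK : ram K w = 1 := hv2 w rfl
  have hdegv : resdeg ℚ (below (K := K) w) = 1 := by
    have := resdeg_pos (K := ℚ) (below (K := K) w)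
    omega
  have hidx := ncard_fiber_eq_index (K := K) H w
  rw [show {w' : Pl L | below w' = below (K := K) w}.ncard = 1 from hvX] at hidx
  have htop := Subgroup.index_eq_one.mp hidx.symm
  have hle : H ≤ MulAction.stabilizer (L ≃ₐ[ℚ] L) w.asIdeal := by
    intro h hh
    have h1 := htop ▸ Subgroup.mem_top (⟨h, hh⟩ : H)
    exact h1
  have hcH : Nat.card H = resdeg K w := by
    have h1 := card_stabilizer_gal (K := K) H w
    rw [htop, hramK, one_mul, Subgroup.card_top] at h1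
    exact h1
  have hcG : Nat.card (MulAction.stabilizer (L ≃ₐ[ℚ] L) w.asIdeal) = resdeg ℚ w := by
    have h1 := card_stabilizer_gal (K := ℚ) (L ≃ₐ[ℚ] L) w
    rw [hram, one_mul] at h1
    exact h1
  have htow : resdeg ℚ w = resdeg ℚ (below (K := K) w) * resdeg K w :=
    Ideal.inertiaDeg_tower (R := 𝓞 ℚ) (below (K := K) w).asIdeal w.asIdeal
  refine ⟨w, hram, ?_, ?_⟩
  · rw [absNorm_eq_pow_resdeg (K := ℚ), hdegv, pow_one, hb] at hv4
    exact hv4
  · symm
    refine Subgroup.eq_of_le_of_card_ge hle ?_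
    rw [hcG, htow, hdegv, one_mul, hcH]

omit [IsGalois ℚ L] in
theorem frob_pow_sub_mem (w : Pl L) (q : ℕ) (φ : L ≃ₐ[ℚ] L)
    (hφ : ∀ x : 𝓞 L, φ • x - x ^ q ∈ w.asIdeal) (i : ℕ) (x : 𝓞 L) :
    (φ ^ i) • x - x ^ (q ^ i) ∈ w.asIdeal := by
  induction i generalizing x with
  | zero => simp
  | succ i ih =>
    have h1 := ih (φ • x)
    have h2 : (φ • x) ^ (q ^ i) - (x ^ q) ^ (q ^ i) ∈ w.asIdeal :=
      Ideal.mem_of_dvd _ (sub_dvd_pow_sub_pow _ _ _) (hφ x)
    have h3 := Ideal.add_mem _ h1 h2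
    rw [pow_succ, mul_smul, pow_succ, mul_comm (q ^ i) q, pow_mul]
    convert h3 using 1
    ring

/-- at an unramified place, a Frobenius element generates the decomposition group -/
theorem zpowers_eq_stabilizer_of_frob (w : Pl L) (hram : ram ℚ w = 1) (φ : L ≃ₐ[ℚ] L)
    (hφ : ∀ x : 𝓞 L, φ • x - x ^ Ideal.absNorm (below (K := ℚ) w).asIdeal ∈ w.asIdeal) :
    Subgroup.zpowers φ = MulAction.stabilizer (L ≃ₐ[ℚ] L) w.asIdeal := by
  set q := Ideal.absNorm (below (K := ℚ) w).asIdeal with hq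
  have hq1 : 1 < q := resaux_one_lt_absNorm _
  have hmem : φ ∈ MulAction.stabilizer (L ≃ₐ[ℚ] L) w.asIdeal := by
    have hF : IsArithFrobAt (𝓞 ℚ) φ w.asIdeal := by
      intro x
      have h1 : Nat.card (𝓞 ℚ ⧸ w.asIdeal.under (𝓞 ℚ)) = q := resaux_card (below (K := ℚ) w)
      rw [h1]
      exact hφ x
    exact hF.mem_stabilizer
  have hcG : Nat.card (MulAction.stabilizer (L ≃ₐ[ℚ] L) w.asIdeal) = resdeg ℚ w := by
    have h1 := card_stabilizer_gal (K := ℚ) (L ≃ₐ[ℚ] L) w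
    rw [hram, one_mul] at h1
    exact h1
  refine Subgroup.eq_of_le_of_card_ge ((Subgroup.zpowers_le).mpr hmem) ?_
  rw [hcG, Nat.card_zpowers]
  set j := orderOf φ with hj
  have hj0 : 0 < j := orderOf_pos φ
  obtain ⟨u, -, hu⟩ := resaux_exists_gen w
  obtain ⟨x, hx⟩ := Ideal.Quotient.mk_surjective (u : 𝓞 L ⧸ w.asIdeal)
  have h1 := frob_pow_sub_mem w q φ hφ j x
  rw [hj, pow_orderOf_eq_one, one_smul, ← hj, ← Ideal.Quotient.mk_eq_mk_iff_sub_mem, map_pow,
    hx] at h1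
  have hqj : 0 < q ^ j := pow_pos (by omega) j
  have h2 : u ^ (q ^ j - 1) = 1 := by
    apply Units.ext
    have h3 : (u : 𝓞 L ⧸ w.asIdeal) * (u : 𝓞 L ⧸ w.asIdeal) ^ (q ^ j - 1)
        = (u : 𝓞 L ⧸ w.asIdeal) * 1 := by
      rw [← pow_succ', Nat.sub_add_cancel hqj, mul_one]
      exact h1.symm
    rw [Units.val_pow_eq_pow_val, Units.val_one]
    exact u.isUnit.mul_left_cancel h3
  have h4 := orderOf_dvd_of_pow_eq_one h2
  rw [hu, absNorm_eq_pow_resdeg (K := ℚ) w, ← hq] at h4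
  have h5 : 1 < q ^ j := Nat.one_lt_pow hj0.ne' hq1
  have h6 : q ^ resdeg ℚ w - 1 ≤ q ^ j - 1 := Nat.le_of_dvd (by omega) h4
  have h7 : q ^ resdeg ℚ w ≤ q ^ j := by omega
  exact (Nat.pow_le_pow_iff_right hq1).mp h7

end Fermat.Agent.ES
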