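import Fermat.Agent.S14.Ext
import Fermat.Agent.ES.FrobFinite

/-!
# Frobenius density, number field half (FD-a): interface
-/

set_option autoImplicit false

namespace Fermat.Agent.ES

open NumberField Pointwise

/-- **FD-a**: for every `g ∈ Gal(E/ℚ)` there is a place `w` of `E`, unramified over `ℚ`, fixed by `g`,
not dividing `M`. -/
theorem exists_fixed_place {E : Type*} [Field E] [NumberField E] [IsGalois ℚ E] (g : E ≃ₐ[ℚ] E)
    (M : ℕ) (hM : M ≠ 0) :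
    ∃ w : S14.Pl E, S14.ram ℚ w = 1 ∧ S14.gPl g w = w ∧ ((M : ℕ) : 𝓞 E) ∉ w.asIdeal := by
  obtain ⟨w, hram, hS, hstab⟩ := exists_place_stabilizer_eq g M.primeFactors
  refine ⟨w, hram, ?_, fun hMw ↦ hS ?_⟩
  · have h1 : g ∈ MulAction.stabilizer (E ≃ₐ[ℚ] E) w.asIdeal := hstab ▸ Subgroup.mem_zpowers g
    exact IsDedekindDomain.HeightOneSpectrum.ext (by rw [S14.gPl_asIdeal_eq_smul]; exact h1)
  · have h1 : ((M : ℕ) : 𝓞 ℚ) ∈ (S14.below (K := ℚ) w).asIdeal := by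
      show algebraMap (𝓞 ℚ) (𝓞 E) ((M : ℕ) : 𝓞 ℚ) ∈ w.asIdeal
      rw [map_natCast]
      exact hMw
    have h2 : Ideal.absNorm (S14.below (K := ℚ) w).asIdeal
        ∣ Ideal.absNorm (Ideal.span {((M : ℕ) : 𝓞 ℚ)}) :=
      Ideal.absNorm_dvd_absNorm_of_le ((Ideal.span_singleton_le_iff_mem _).mpr h1)
    rw [Ideal.absNorm_span_natCast, RingOfIntegers.rank, Module.finrank_self, pow_one] at h2
    exact Nat.mem_primeFactors.mpr ⟨prime_absNorm_rat _, h2, hM⟩

end Fermat.Agent.ES
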