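import Fermat.Agent.S14.BridgePlaces
import Fermat.Agent.ES.FrobNF

set_option autoImplicit false

namespace Fermat.Agent.ES

open NumberField IsDedekindDomain S14 S14.Br Polynomial

namespace FrobGlue

variable {E : Type*} [Field E] [NumberField E]

/-- the norm of a place of `ℚ` containing the prime `l` -/
theorem absNorm_of_mem {v : Pl ℚ} {l : ℕ} (hl : l.Prime) (h : (l : 𝓞 ℚ) ∈ v.asIdeal) :
    Ideal.absNorm v.asIdeal = l := by
  have h1 : Ideal.span {(l : 𝓞 ℚ)} ≤ v.asIdeal := by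
    rw [Ideal.span_le]; simpa using h
  have h2 : Ideal.absNorm v.asIdeal ∣ Ideal.absNorm (Ideal.span {(l : 𝓞 ℚ)}) :=
    Ideal.absNorm_dvd_absNorm_of_le h1
  have h3 : Ideal.absNorm (Ideal.span {(l : 𝓞 ℚ)}) = l := by
    rw [Ideal.absNorm_span_singleton]
    have : (l : 𝓞 ℚ) = algebraMap ℤ (𝓞 ℚ) (l : ℤ) := by simp
    rw [this, Algebra.norm_algebraMap]
    have hr : Module.finrank ℤ (𝓞 ℚ) = 1 := by
      rw [RingOfIntegers.rank]; simp
    rw [hr]; simp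
  rw [h3] at h2
  rcases (Nat.dvd_prime hl).mp h2 with h4 | h4
  · exfalso
    rw [Ideal.absNorm_eq_one_iff] at h4
    exact v.isPrime.ne_top h4
  · exact h4

theorem absNorm_eq_pow (w : Pl E) {l : ℕ} (hl : l.Prime) (h : (l : 𝓞 E) ∈ w.asIdeal) :
    Ideal.absNorm w.asIdeal = l ^ resdeg ℚ w := by
  rw [absNorm_eq_pow_resdeg (K := ℚ) w, absNorm_of_mem hl]
  show algebraMap (𝓞 ℚ) (𝓞 E) (l : 𝓞 ℚ) ∈ w.asIdeal
  simpa using h

theorem frob_iterate (w : Pl E) {l : ℕ} (φ : E ≃ₐ[ℚ] E)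
    (hφ : ∀ x : 𝓞 E, gOZ φ x - x ^ l ∈ w.asIdeal) (b : ℕ) (x : 𝓞 E) :
    gOZ (φ ^ b) x - x ^ (l ^ b) ∈ w.asIdeal := by
  induction b with
  | zero =>
    have : gOZ (φ ^ 0) x = x := RingOfIntegers.ext (by simp)
    rw [this]; simp
  | succ n ih =>
    set y := gOZ (φ ^ n) x with hy
    have h1 : gOZ (φ ^ (n + 1)) x = gOZ φ y := RingOfIntegers.ext (by
      rw [pow_succ']; simp [hy])
    have h2 : y ^ l - (x ^ (l ^ n)) ^ l ∈ w.asIdeal :=
      Ideal.mem_of_dvd _ (sub_dvd_pow_sub_pow _ _ _) ih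
    have h3 := w.asIdeal.add_mem (hφ y) h2
    rw [h1, pow_succ, pow_mul]
    convert h3 using 1
    ring

theorem gPl_frob (w : Pl E) {l : ℕ} (hl : l ≠ 0) (φ : E ≃ₐ[ℚ] E)
    (hφ : ∀ x : 𝓞 E, gOZ φ x - x ^ l ∈ w.asIdeal) : gPl φ w = w := by
  have h1 : w.asIdeal ≤ (gPl φ.symm w).asIdeal := by
    intro y hy
    rw [mem_gPl]
    have h2 : gOZ φ.symm.symm y = (gOZ φ y - y ^ l) + y ^ l := by
      rw [sub_add_cancel]; rfl
    rw [h2]
    exact w.asIdeal.add_mem (hφ y) (Ideal.pow_mem_of_mem _ hy _ (Nat.pos_of_ne_zero hl))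
  have h3 : w = gPl φ.symm w :=
    HeightOneSpectrum.ext (w.isMaximal.eq_of_le (gPl φ.symm w).isPrime.ne_top h1)
  have h4 : gPl φ (gPl φ.symm w) = w := by
    rw [← gPl_mul]
    have : φ * φ.symm = 1 := by ext x; simp
    rw [this, gPl_one]
  rw [← h3] at h4
  exact h4

theorem card_quot_le (w : Pl E) (n : ℕ) (hn : 1 < n) (h : ∀ x : 𝓞 E, x - x ^ n ∈ w.asIdeal) :
    Ideal.absNorm w.asIdeal ≤ n := by
  classical
  have hmax := w.isMaximal
  let _ : Field (𝓞 E ⧸ w.asIdeal) := Ideal.Quotient.field _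
  have : Finite (𝓞 E ⧸ w.asIdeal) := Ideal.finiteQuotientOfFreeOfNeBot _ w.ne_bot
  have := Fintype.ofFinite (𝓞 E ⧸ w.asIdeal)
  have hne : (X ^ n - X : (𝓞 E ⧸ w.asIdeal)[X]) ≠ 0 := by
    intro h0
    have := congrArg (fun p => coeff p 1) h0
    simp [coeff_X_pow, hn.ne] at this
  have h1 := card_le_degree_of_subset_roots (R := 𝓞 E ⧸ w.asIdeal) (p := X ^ n - X)
    (Z := Finset.univ) (fun a _ => by
      obtain ⟨x, rfl⟩ := Ideal.Quotient.mk_surjective a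
      rw [mem_roots hne, IsRoot, eval_sub, eval_pow, eval_X, ← map_pow, ← map_sub,
        Ideal.Quotient.eq_zero_iff_mem]
      have := w.asIdeal.neg_mem (h x)
      rwa [neg_sub] at this)
  have h2 : (X ^ n - X : (𝓞 E ⧸ w.asIdeal)[X]).natDegree = n := by
    rw [natDegree_sub_eq_left_of_natDegree_lt] <;> simp [hn]
  rw [h2, Finset.card_univ] at h1
  rw [Ideal.absNorm_apply, Submodule.cardQuot_apply, Nat.card_eq_fintype_card]
  exact h1

open Pointwise in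
theorem eq_pow_of_frob [IsGalois ℚ E] (w : Pl E) (hram : ram ℚ w = 1) {l : ℕ} (hl : l.Prime)
    (hlw : (l : 𝓞 E) ∈ w.asIdeal) (φ : E ≃ₐ[ℚ] E)
    (hφ : ∀ x : 𝓞 E, gOZ φ x - x ^ l ∈ w.asIdeal) (g : E ≃ₐ[ℚ] E) (hg : gPl g w = w) :
    ∃ b : ℕ, g = φ ^ b := by
  set m := orderOf φ with hm
  have hmpos : 0 < m := orderOf_pos φ
  have h1 : ∀ x : 𝓞 E, x - x ^ (l ^ m) ∈ w.asIdeal := by
    intro x
    have := frob_iterate w φ hφ m x
    rw [hm, pow_orderOf_eq_one] at this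
    have h2 : gOZ (1 : E ≃ₐ[ℚ] E) x = x := RingOfIntegers.ext (by simp)
    rwa [h2] at this
  have h2 := card_quot_le w (l ^ m) (Nat.one_lt_pow hmpos.ne' hl.one_lt) h1
  rw [absNorm_eq_pow w hl hlw] at h2
  have h3 : resdeg ℚ w ≤ m := (Nat.pow_le_pow_iff_right hl.one_lt).mp h2
  have h4 := card_stabilizer (K := ℚ) w
  rw [hram, one_mul] at h4
  have hstab : ∀ σ : E ≃ₐ[ℚ] E, σ ∈ MulAction.stabilizer (E ≃ₐ[ℚ] E) w.asIdeal ↔ gPl σ w = w := by
    intro σ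
    rw [MulAction.mem_stabilizer_iff, ← gPl_asIdeal_eq_smul]
    exact ⟨fun h => HeightOneSpectrum.ext h, fun h => by rw [h]⟩
  have h5 : Subgroup.zpowers φ ≤ MulAction.stabilizer (E ≃ₐ[ℚ] E) w.asIdeal := by
    rw [Subgroup.zpowers_le, hstab]
    exact gPl_frob w hl.ne_zero φ hφ
  have h6 : Subgroup.zpowers φ = MulAction.stabilizer (E ≃ₐ[ℚ] E) w.asIdeal := by
    apply Subgroup.eq_of_le_of_card_ge h5
    rw [h4, Nat.card_zpowers]
    exact h3
  have h7 : g ∈ Subgroup.zpowers φ := by rw [h6, hstab]; exact hg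
  rw [← (isOfFinOrder_of_finite φ).mem_powers_iff_mem_zpowers, Submonoid.mem_powers_iff] at h7
  obtain ⟨b, hb⟩ := h7
  exact ⟨b, hb.symm⟩

/-- A Frobenius lift satisfies the Frobenius congruence on `A`. -/
theorem frob_congr (A : ValuationSubring Qb) {σ : GQ} {l : ℕ} (h : A.IsFrobeniusAt σ l) {a : Qb}
    (ha : a ∈ A) : σ a - a ^ l ∈ A.nonunits := by
  obtain ⟨hσ, hfrob⟩ := h
  have h1 := hfrob (IsLocalRing.residue A ⟨a, ha⟩)
  rw [← IsLocalRing.ResidueField.residue_smul, ← map_pow, ← sub_eq_zero, ← map_sub,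
    IsLocalRing.residue_eq_zero_iff] at h1
  rw [ValuationSubring.mem_nonunits_iff_exists_mem_maximalIdeal]
  exact ⟨_, h1⟩

end FrobGlue

open FrobGlue in
/-- **Frobenius density, existence form** (for a finite *normal* subextension). -/
theorem exists_frobenius_pow_of_normal (E : IntermediateField ℚ Qb) [FiniteDimensional ℚ E]
    [Normal ℚ E] (M : ℕ) (hM : M ≠ 0) (g : GQ) :
    ∃ (l : ℕ) (A : ValuationSubring Qb) (σ : GQ) (b : ℕ),
      l.Prime ∧ ¬ l ∣ M ∧ A.LiesOverPrime l ∧ A.IsFrobeniusAt σ l ∧ ∀ x ∈ E, g x = (σ ^ b) x := by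
  have : NumberField E := { to_charZero := inferInstance, to_finiteDimensional := inferInstance }
  have : IsGalois ℚ E := {}
  set g₀ : E ≃ₐ[ℚ] E := AlgEquiv.restrictNormalHom E g with hg₀
  obtain ⟨w, hram, hgw, hMw⟩ := exists_fixed_place g₀ M hM
  obtain ⟨A, hA⟩ := exists_over E.val w
  obtain ⟨l, hl, hAl, hlw⟩ := hA.exists_prime
  obtain ⟨σ, hσ⟩ := Frob.exists_isFrobeniusAt A hl hAl
  set φ : E ≃ₐ[ℚ] E := AlgEquiv.restrictNormalHom E σ with hφ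
  have hfrob : ∀ x : 𝓞 E, gOZ φ x - x ^ l ∈ w.asIdeal := by
    intro x
    refine (hA _).mpr ?_
    change (((gOZ φ x - x ^ l : 𝓞 E) : E) : Qb) ∈ A.nonunits
    have h1 : (((gOZ φ x - x ^ l : 𝓞 E) : E) : Qb) = σ ((x : E) : Qb) - ((x : E) : Qb) ^ l := by
      have h2 : ((gOZ φ x - x ^ l : 𝓞 E) : E) = φ (x : E) - (x : E) ^ l := by
        simp
      rw [h2]
      push_cast
      congr 1
      exact AlgEquiv.restrictNormal_commutes σ E (x : E)
    rw [h1]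
    exact frob_congr A hσ (map_integer_mem (ι := E.val) A x)
  obtain ⟨b, hb⟩ := eq_pow_of_frob w hram hl hlw φ hfrob g₀ hgw
  refine ⟨l, A, σ, b, hl, ?_, hAl, hσ, ?_⟩
  · rintro ⟨c, rfl⟩
    apply hMw
    rw [Nat.cast_mul]
    exact Ideal.mul_mem_right _ _ hlw
  · intro x hx
    have h1 : g x = E.val (g₀ ⟨x, hx⟩) := (AlgEquiv.restrictNormal_commutes g E ⟨x, hx⟩).symm
    have h2 : (σ ^ b) x = E.val (AlgEquiv.restrictNormalHom E (σ ^ b) ⟨x, hx⟩) :=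
      (AlgEquiv.restrictNormal_commutes (σ ^ b) E ⟨x, hx⟩).symm
    rw [h1, h2, map_pow, ← hφ, hb]

/-- **Frobenius density, existence form.** -/
theorem exists_frobenius_pow (L : IntermediateField ℚ Qb) (hL : FiniteDimensional ℚ L)
    (M : ℕ) (hM : M ≠ 0) (g : GQ) :
    ∃ (l : ℕ) (A : ValuationSubring Qb) (σ : GQ) (b : ℕ),
      l.Prime ∧ ¬ l ∣ M ∧ A.LiesOverPrime l ∧ A.IsFrobeniusAt σ l ∧ ∀ x ∈ L, g x = (σ ^ b) x := by
  have hN : Normal ℚ Qb := Frob.isGaloisQbar.to_normal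
  have : Normal ℚ (IntermediateField.normalClosure ℚ L Qb) :=
    normalClosure.normal ℚ L Qb
  obtain ⟨l, A, σ, b, h1, h2, h3, h4, h5⟩ :=
    exists_frobenius_pow_of_normal (IntermediateField.normalClosure ℚ L Qb) M hM g
  exact ⟨l, A, σ, b, h1, h2, h3, h4, fun x hx => h5 x (IntermediateField.le_normalClosure L hx)⟩

end Fermat.Agent.ES
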