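import Fermat.Agent.ES.FrobFinite
import Fermat.Agent.Lib.Frobenius
import Fermat.Prelude.Def_GaloisRep_Residual

/-!
# Frobenius density theorem (existence form) for `Gal(ℚ̄/ℚ)`, in the language of the prelude.
-/

set_option autoImplicit false

namespace Fermat.Agent.ES.FrobDensity

open IsDedekindDomain NumberField Pointwise
open Fermat.Agent.S14 Fermat.Agent.ES

local notation "Qbar" => AlgebraicClosure ℚ
local notation "GQ" => (AlgebraicClosure ℚ ≃ₐ[ℚ] AlgebraicClosure ℚ)

section Bridge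

variable (L : IntermediateField ℚ Qbar) [NumberField L]

/-- a valuation subring of `ℚ̄` above a given place of `L` -/
theorem exists_valuationSubring_above (w : Pl L) :
    ∃ A : ValuationSubring Qbar, ∀ x : 𝓞 L, (((x : L) : Qbar) ∈ A.nonunits ↔ x ∈ w.asIdeal) := by
  let R := Localization.AtPrime w.asIdeal
  let g : 𝓞 L →+* Qbar := (algebraMap L Qbar).comp (algebraMap (𝓞 L) L)
  have hg : Function.Injective g :=
    (algebraMap L Qbar).injective.comp (RingOfIntegers.coe_injective)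
  let f : R →+* Qbar := IsLocalization.lift (M := w.asIdeal.primeCompl) (g := g) (by
      intro y
      apply IsUnit.mk0
      intro h0
      have : (y : 𝓞 L) = 0 := hg (h0.trans (map_zero _).symm)
      exact y.2 (this ▸ Ideal.zero_mem _))
  obtain ⟨A, h, hloc⟩ := IsLocalRing.exists_factor_valuationRing f
  refine ⟨A, fun x ↦ ?_⟩
  have hfx : f (algebraMap (𝓞 L) R x) = ((x : L) : Qbar) := by
    simp [f, g]
  have hmem : ((x : L) : Qbar) ∈ A := by
    rw [← hfx]; exact h _
  have hcod : f.codRestrict A.toSubring h (algebraMap (𝓞 L) R x) = ⟨((x : L) : Qbar), hmem⟩ :=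
    Subtype.ext hfx
  rw [ValuationSubring.mem_nonunits_iff_exists_mem_maximalIdeal]
  constructor
  · rintro ⟨_, h1⟩
    by_contra hx
    have hu : IsUnit (algebraMap (𝓞 L) R x) :=
      (IsLocalization.AtPrime.isUnit_to_map_iff R w.asIdeal x).mpr hx
    have hu2 := hu.map (f.codRestrict A.toSubring h)
    rw [hcod] at hu2
    rw [IsLocalRing.mem_maximalIdeal, mem_nonunits_iff] at h1
    exact h1 hu2
  · intro hx
    refine ⟨hmem, ?_⟩
    rw [IsLocalRing.mem_maximalIdeal, mem_nonunits_iff]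
    intro hu
    rw [← hcod] at hu
    have := hloc.map_nonunit _ hu
    exact (IsLocalization.AtPrime.isUnit_to_map_iff R w.asIdeal x).mp this hx

end Bridge

/-- the congruence satisfied by a Frobenius element -/
theorem sub_pow_mem_nonunits {A : ValuationSubring Qbar} {σ : GQ} {l : ℕ}
    (h : A.IsFrobeniusAt σ l) {a : Qbar} (ha : a ∈ A) : σ a - a ^ l ∈ A.nonunits := by
  have h1 := h.smul_residue_eq (IsLocalRing.residue A ⟨a, ha⟩)
  rw [← IsLocalRing.ResidueField.residue_smul, ← map_pow, ← sub_eq_zero, ← map_sub,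
    IsLocalRing.residue_eq_zero_iff] at h1
  rw [ValuationSubring.mem_nonunits_iff_exists_mem_maximalIdeal]
  exact ⟨_, h1⟩

theorem exists_frobenius_pow_of_isGalois (L : IntermediateField ℚ Qbar) [FiniteDimensional ℚ L]
    [IsGalois ℚ L] (S : Finset ℕ) (g : GQ) :
    ∃ (l : ℕ) (A : ValuationSubring Qbar) (σ : GQ) (b : ℕ), l.Prime ∧ l ∉ S ∧
      A.LiesOverPrime l ∧ A.IsFrobeniusAt σ l ∧ ∀ x ∈ L, g x = (σ ^ b) x := by
  have : NumberField L := { to_charZero := inferInstance, to_finiteDimensional := inferInstance }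
  obtain ⟨w, hram, hS, hstab⟩ := exists_place_stabilizer_eq (AlgEquiv.restrictNormalHom L g) S
  set l := Ideal.absNorm (below (K := ℚ) w).asIdeal with hl_def
  have hl : l.Prime := prime_absNorm_rat _
  obtain ⟨A, hA⟩ := exists_valuationSubring_above L w
  have hAl : A.LiesOverPrime l := by
    have h1 : (l : 𝓞 ℚ) ∈ (below (K := ℚ) w).asIdeal := Ideal.absNorm_mem _
    have h2 : (l : 𝓞 L) ∈ w.asIdeal := by
      have : algebraMap (𝓞 ℚ) (𝓞 L) (l : 𝓞 ℚ) ∈ w.asIdeal := h1
      simpa using this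
    have := (hA (l : 𝓞 L)).mpr h2
    simpa [ValuationSubring.LiesOverPrime] using this
  obtain ⟨σ, hσ⟩ := Frob.exists_isFrobeniusAt A hl hAl
  set φ := AlgEquiv.restrictNormalHom L σ with hφ_def
  have hφ : ∀ x : 𝓞 L, φ • x - x ^ l ∈ w.asIdeal := by
    intro x
    rw [← hA]
    have hxi : IsIntegral ℤ ((x : L) : Qbar) :=
      (RingOfIntegers.isIntegral_coe x).map (IsScalarTower.toAlgHom ℤ L Qbar)
    have hx : ((x : L) : Qbar) ∈ A := Frob.mem_of_isIntegral A hxi
    have h1 := sub_pow_mem_nonunits hσ hx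
    have h2 : (((φ • x - x ^ l : 𝓞 L) : L) : Qbar) = σ ((x : L) : Qbar) - ((x : L) : Qbar) ^ l := by
      have h3 := AlgEquiv.restrictNormal_commutes σ L (x : L)
      have h4 : ((φ • x : 𝓞 L) : L) = φ (x : L) := rfl
      have h5 : ((φ • x - x ^ l : 𝓞 L) : L) = φ (x : L) - (x : L) ^ l := by
        rw [← h4]; push_cast; rfl
      rw [h5]
      push_cast
      congr 1
    rw [h2]
    exact h1
  have hz := zpowers_eq_stabilizer_of_frob w hram φ hφ
  rw [hstab] at hz
  have hg : AlgEquiv.restrictNormalHom L g ∈ Subgroup.zpowers φ := hz ▸ Subgroup.mem_zpowers _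
  rw [← mem_powers_iff_mem_zpowers] at hg
  obtain ⟨b, hb⟩ := hg
  refine ⟨l, A, σ, b, hl, hS, hAl, hσ, fun x hx ↦ ?_⟩
  have h1 : AlgEquiv.restrictNormalHom L (σ ^ b) = AlgEquiv.restrictNormalHom L g := by
    rw [map_pow]; exact hb
  have h2 := AlgEquiv.restrictNormal_commutes g L ⟨x, hx⟩
  have h3 := AlgEquiv.restrictNormal_commutes (σ ^ b) L ⟨x, hx⟩
  have h4 : (σ ^ b).restrictNormal L = g.restrictNormal L := h1
  rw [h4, h2] at h3
  exact h3

/-- **Frobenius density theorem** (existence form): modulo any finite level `L`, every element of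
`Gal(ℚ̄/ℚ)` is a power of a Frobenius element at a prime outside any given finite set. -/
theorem exists_frobenius_pow (L : IntermediateField ℚ Qbar) [FiniteDimensional ℚ L]
    (S : Finset ℕ) (g : GQ) :
    ∃ (l : ℕ) (A : ValuationSubring Qbar) (σ : GQ) (b : ℕ), l.Prime ∧ l ∉ S ∧
      A.LiesOverPrime l ∧ A.IsFrobeniusAt σ l ∧ ∀ x ∈ L, g x = (σ ^ b) x := by
  have h1 : Normal ℚ Qbar := (Frob.isGaloisQbar).to_normal
  have h2 : Normal ℚ (IntermediateField.normalClosure ℚ L Qbar) := normalClosure.normal ℚ L Qbar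
  have hG : IsGalois ℚ (IntermediateField.normalClosure ℚ L Qbar) := ⟨⟩
  obtain ⟨l, A, σ, b, h1, h2, h3, h4, h5⟩ :=
    exists_frobenius_pow_of_isGalois (IntermediateField.normalClosure ℚ L Qbar) S g
  exact ⟨l, A, σ, b, h1, h2, h3, h4, fun x hx ↦ h5 x (L.le_normalClosure hx)⟩

/-- version for a homomorphism factoring through a finite level -/
theorem exists_frobenius_pow_of_factors {M : Type} [Monoid M] (ρ : GQ →* M)
    (hρ : GaloisFactorsThroughFiniteLevel ρ) (S : Finset ℕ) (g : GQ) :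
    ∃ (l : ℕ) (A : ValuationSubring Qbar) (σ : GQ) (b : ℕ), l.Prime ∧ l ∉ S ∧
      A.LiesOverPrime l ∧ A.IsFrobeniusAt σ l ∧ ρ g = ρ σ ^ b := by
  obtain ⟨L, hL, hker⟩ := hρ
  obtain ⟨l, A, σ, b, h1, h2, h3, h4, h5⟩ := exists_frobenius_pow L S g
  refine ⟨l, A, σ, b, h1, h2, h3, h4, ?_⟩
  have h6 : ρ ((σ ^ b)⁻¹ * g) = 1 := by
    refine hker _ fun x hx ↦ ?_
    rw [AlgEquiv.mul_apply, h5 x hx]
    exact (σ ^ b).symm_apply_apply x
  rw [← map_pow]
  have h7 : g = σ ^ b * ((σ ^ b)⁻¹ * g) := by group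
  rw [h7, map_mul, h6, mul_one]

end Fermat.Agent.ES.FrobDensity
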