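import Fermat.Agent.S29.Defs
import Fermat.Prelude.Def_ModularCurve_HeckeOperator

/-!
# ES/ALG : definitions

`F = FN N ⊆ ℚ̄((q))`.  The multiplicative Hecke operator
`Tl N ℓ u = Norm_{F_{Nℓ}/F_N} (u(q^ℓ))` (norm along the Prelude's `heckeAlphaBar`, pull-back along the
Prelude's `heckeBetaBar`), and the twist `q ↦ c q` on Laurent series.
-/

set_option autoImplicit false

open HahnSeries ModularCurve AlgebraicCurve Fermat.Agent.S24

noncomputable section

namespace Fermat.Agent.ES.Alg

section Twist

variable {R : Type*} [CommRing R]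

/-- the substitution `q ↦ c q` -/
def twistFun (c : Rˣ) (x : LaurentSeries R) : LaurentSeries R where
  coeff n := ((c ^ n : Rˣ) : R) * x.coeff n
  isPWO_support' := x.isPWO_support.mono (fun n hn h0 => hn (by
    show ((c ^ n : Rˣ) : R) * x.coeff n = 0
    rw [h0, mul_zero]))

@[simp]
theorem twistFun_coeff (c : Rˣ) (x : LaurentSeries R) (n : ℤ) :
    (twistFun c x).coeff n = ((c ^ n : Rˣ) : R) * x.coeff n := rfl

theorem support_twistFun (c : Rˣ) (x : LaurentSeries R) : (twistFun c x).support = x.support := by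
  ext n
  simp only [HahnSeries.mem_support, twistFun_coeff, ne_eq, Units.mul_right_eq_zero]

/-- the substitution `q ↦ c q`, as a ring homomorphism -/
def twist (c : Rˣ) : LaurentSeries R →+* LaurentSeries R where
  toFun := twistFun c
  map_zero' := by ext n; simp
  map_one' := by
    ext n
    rw [twistFun_coeff, HahnSeries.coeff_one]
    split_ifs with h
    · subst h; simp
    · simp
  map_add' x y := by ext n; simp [mul_add]
  map_mul' x y := by
    ext n
    rw [twistFun_coeff, HahnSeries.coeff_mul, HahnSeries.coeff_mul, Finset.mul_sum]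
    simp only [support_twistFun]
    refine Finset.sum_congr rfl fun ij hij => ?_
    have h := (Finset.mem_addAntidiagonal.mp hij).2.2
    rw [twistFun_coeff, twistFun_coeff, ← h, zpow_add, Units.val_mul]
    ring

@[simp]
theorem twist_coeff (c : Rˣ) (x : LaurentSeries R) (n : ℤ) :
    (twist c x).coeff n = ((c ^ n : Rˣ) : R) * x.coeff n := rfl

end Twist

variable (N ℓ : ℕ) [NeZero N] [NeZero ℓ]

/-- the norm `F_{Nℓ} → F_N` (along the inclusion `heckeAlphaBar`) -/
def normAlpha : FN (N * ℓ) →* FN N :=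
  letI := algebraAlong (heckeAlphaBar Kb N ℓ)
  Algebra.norm (FN N)

/-- the multiplicative Hecke operator `u ↦ Norm_{F_{Nℓ}/F_N} (u(q^ℓ))` -/
def Tl : FN N →* FN N :=
  (normAlpha N ℓ).comp ((heckeBetaBar Kb N ℓ : FN N →+* FN (N * ℓ)) : FN N →* FN (N * ℓ))

theorem Tl_apply (u : FN N) : Tl N ℓ u = normAlpha N ℓ (heckeBetaBar Kb N ℓ u) := rfl

end Fermat.Agent.ES.Alg
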