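import Fermat.Agent.ES.AlgDefs
import Fermat.Agent.S24.Orbits
import Fermat.Agent.S18.Descent

/-!
# ES/ALG-D : `[F_{Nℓ} : F_N] = ℓ + 1` for a prime `ℓ ∤ N`

`S24.finrank_FN : finrank ℚ̄(j) (FN M) = card (QN M)`, `S24.card_QN : card (QN M) = dedekindPsi M`,
tower `ℚ̄(j) ⊆ FN N ⊆ FN (N ℓ)`, `ψ(N ℓ) = (ℓ + 1) ψ(N)`.
-/

set_option autoImplicit false

open HahnSeries ModularCurve AlgebraicCurve Fermat.Agent.S24

noncomputable section

namespace Fermat.Agent.ES.Alg

variable (N ℓ : ℕ) [NeZero N] [NeZero ℓ]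

theorem finrankAlong_alpha_eq :
    finrankAlong Kb (heckeAlphaBar Kb N ℓ) =
      IntermediateField.relfinrank (modularFunctionFieldBar N) (modularFunctionFieldBar (N * ℓ)) := by
  rw [IntermediateField.relfinrank_eq_finrank_of_le (S18.Descent.bar_le (dvd_mul_right N ℓ))]
  rfl

theorem card_mul_finrankAlong_alpha :
    Nat.card (QN N) * finrankAlong Kb (heckeAlphaBar Kb N ℓ) = Nat.card (QN (N * ℓ)) := by
  rw [finrankAlong_alpha_eq]
  exact S18.Descent.relfinrank_mul (dvd_mul_right N ℓ)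

theorem finite_alpha : FiniteAlong Kb (heckeAlphaBar Kb N ℓ) := by
  have h1 := card_mul_finrankAlong_alpha N ℓ
  have h2 : 0 < finrankAlong Kb (heckeAlphaBar Kb N ℓ) := by
    rcases Nat.eq_zero_or_pos (finrankAlong Kb (heckeAlphaBar Kb N ℓ)) with h | h
    · rw [h, mul_zero] at h1
      exact absurd h1.symm (card_QN_pos (N * ℓ)).ne'
    · exact h
  exact @Module.finite_of_finrank_pos (FN N) (FN (N * ℓ)) _ _
    (algebraAlong (heckeAlphaBar Kb N ℓ)).toModule
    (@Module.Free.of_divisionRing (FN N) (FN (N * ℓ)) _ _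
      (algebraAlong (heckeAlphaBar Kb N ℓ)).toModule) _ h2

theorem finrank_alpha (hℓ : ℓ.Prime) (hℓN : ¬ ℓ ∣ N) :
    finrankAlong Kb (heckeAlphaBar Kb N ℓ) = ℓ + 1 := by
  have h1 := card_mul_finrankAlong_alpha N ℓ
  have hidx : Nat.card (QN (N * ℓ)) = (ℓ + 1) * Nat.card (QN N) := by
    have := Fermat.Agent.S20.Count.index_Gamma0_mul_prime (N := N) hℓ
      (Nat.pos_of_ne_zero (NeZero.ne N))
    rw [if_neg hℓN] at this
    exact this
  rw [hidx, mul_comm] at h1
  exact Nat.eq_of_mul_eq_mul_right (card_QN_pos N) h1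

end Fermat.Agent.ES.Alg
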