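import Fermat.Agent.ES.AlgDeg
import Fermat.Prelude.Thm_ModularCurve_coeffMap_qExpand

/-!
# ES/ALG-G : the Galois action on `FN N`

* `gal_Tl` : `gal N σ` commutes with `Tl` (`gal (N ℓ) σ` is a ring automorphism of `F_{Nℓ}` which restricts to `gal N σ`
  on `F_N` and commutes with `β` (`Thm_ModularCurve_coeffMap_qExpand`); norms commute with such pairs:
  Mathlib `Algebra.norm_eq_of_equiv_equiv` (or `Algebra.norm_eq_of_ringEquiv`)).
* `PDiv.gal` : Prelude `SemilinearAut` acts on `Place` with `ord_smul` (`Def_AlgebraicCurve_BaseChangeGalois`).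
* `exists_level` : every `u` is fixed by an open subgroup (`Subfield.closure_induction` via
  `mem_laurentBaseChange_iff`: constants `ℚ(a)`, generators `⊥`, otherwise compositum).
-/

set_option autoImplicit false

open HahnSeries ModularCurve AlgebraicCurve Fermat.Agent.S24 Fermat.Agent.S29

noncomputable section

namespace Fermat.Agent.ES.Alg

variable (N ℓ : ℕ) [NeZero N] [NeZero ℓ]

theorem gal_alpha (σ : GQ) (u : FN N) :
    gal (N * ℓ) σ (heckeAlphaBar Kb N ℓ u) = heckeAlphaBar Kb N ℓ (gal N σ u) := by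
  apply Subtype.ext
  rw [coe_arithmeticRingAut_apply, coe_heckeAlphaBar, coe_heckeAlphaBar, coe_arithmeticRingAut_apply]

omit [NeZero N] in
theorem gal_beta (σ : GQ) (u : FN N) :
    gal (N * ℓ) σ (heckeBetaBar Kb N ℓ u) = heckeBetaBar Kb N ℓ (gal N σ u) := by
  apply Subtype.ext
  rw [coe_arithmeticRingAut_apply, coe_heckeBetaBar, coe_heckeBetaBar, coe_arithmeticRingAut_apply,
    coeffMap_qExpand]

theorem gal_normAlpha (σ : GQ) (x : FN (N * ℓ)) :
    gal N σ (normAlpha N ℓ x) = normAlpha N ℓ (gal (N * ℓ) σ x) := by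
  let _ := algebraAlong (heckeAlphaBar Kb N ℓ)
  have h := Algebra.norm_eq_of_equiv_equiv (gal N σ) (gal (N * ℓ) σ)
    (RingHom.ext fun u => (gal_alpha N ℓ σ u).symm) x
  show gal N σ (Algebra.norm (FN N) x) = Algebra.norm (FN N) (gal (N * ℓ) σ x)
  rw [h, RingEquiv.apply_symm_apply]

theorem gal_Tl (σ : GQ) (u : FN N) : gal N σ (Tl N ℓ u) = Tl N ℓ (gal N σ u) := by
  rw [Tl_apply, Tl_apply, gal_normAlpha, gal_beta]

variable {N}

theorem PDiv.gal {m : ℕ} {u : FN N} (hu : PDiv Kb (FN N) m u) (σ : GQ) :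
    PDiv Kb (FN N) m (gal N σ u) := by
  refine ⟨by simpa using hu.1, fun v => ?_⟩
  set g := arithmeticGalois (modularFunctionFieldFull N) σ with hg
  have h := SemilinearAut.ord_smul g (g⁻¹ • v) u
  rw [smul_inv_smul] at h
  have h2 : g • u = Fermat.Agent.S29.gal N σ u := rfl
  rw [← h2, h]
  exact hu.2 _

theorem exists_level (u : FN N) : ∃ L : IntermediateField ℚ Qb, FiniteDimensional ℚ L ∧
    ∀ σ : GQ, (∀ x ∈ L, σ x = x) → gal N σ u = u := by
  obtain ⟨u, hu⟩ := u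
  suffices h : ∃ L : IntermediateField ℚ Qb, FiniteDimensional ℚ L ∧
      ∀ σ : GQ, (∀ x ∈ L, σ x = x) → coeffMap (σ : Qb →+* Qb) u = u by
    obtain ⟨L, hL, h⟩ := h
    exact ⟨L, hL, fun σ hσ => Subtype.ext (h σ hσ)⟩
  rw [mem_laurentBaseChange_iff] at hu
  induction hu using Subfield.closure_induction with
  | mem y hy =>
      rcases hy with ⟨a, rfl⟩ | ⟨z, hz, rfl⟩
      · refine ⟨IntermediateField.adjoin ℚ {a}, ?_, fun σ hσ => ?_⟩
        · exact IntermediateField.adjoin.finiteDimensional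
            ((AlgebraicClosure.isAlgebraic ℚ).isAlgebraic a).isIntegral
        · rw [coeffMap_algebraMap]
          congr 1
          exact hσ a (IntermediateField.mem_adjoin_simple_self ℚ a)
      · exact ⟨⊥, inferInstance, fun σ _ => coeffMap_coeffEmb σ z⟩
  | one => exact ⟨⊥, inferInstance, fun σ _ => map_one _⟩
  | add x y _ _ hx hy =>
      obtain ⟨L₁, h1, h1'⟩ := hx
      obtain ⟨L₂, h2, h2'⟩ := hy
      exact ⟨L₁ ⊔ L₂, IntermediateField.finiteDimensional_sup L₁ L₂, fun σ hσ => by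
        rw [map_add, h1' σ fun x hx => hσ x ((le_sup_left : L₁ ≤ L₁ ⊔ L₂) hx),
          h2' σ fun x hx => hσ x ((le_sup_right : L₂ ≤ L₁ ⊔ L₂) hx)]⟩
  | neg x _ hx =>
      obtain ⟨L₁, h1, h1'⟩ := hx
      exact ⟨L₁, h1, fun σ hσ => by rw [map_neg, h1' σ hσ]⟩
  | inv x _ hx =>
      obtain ⟨L₁, h1, h1'⟩ := hx
      exact ⟨L₁, h1, fun σ hσ => by rw [map_inv₀, h1' σ hσ]⟩
  | mul x y _ _ hx hy =>
      obtain ⟨L₁, h1, h1'⟩ := hx
      obtain ⟨L₂, h2, h2'⟩ := hy
      exact ⟨L₁ ⊔ L₂, IntermediateField.finiteDimensional_sup L₁ L₂, fun σ hσ => by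
        rw [map_mul, h1' σ fun x hx => hσ x ((le_sup_left : L₁ ≤ L₁ ⊔ L₂) hx),
          h2' σ fun x hx => hσ x ((le_sup_right : L₂ ≤ L₁ ⊔ L₂) hx)]⟩

end Fermat.Agent.ES.Alg
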