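import Fermat.Agent.ES.AlgDefs
import Fermat.Agent.S18.Glue
import Fermat.Agent.S18.KLGauss

/-!
# ES/ALG-K : congruence to `1`, the Gauss norm is attained, (KL) for a general exponent

`A` a valuation subring of `ℚ̄`, `F = FN N ⊆ ℚ̄((q))`.

* `Cong A N f` : `f = y₁ / y₂`, `yᵢ ∈ A((q)) ∩ F` with the same nonzero reduction ("`f ≡ 1`").
* `exists_scale` : every `x ≠ 0` in `F` is `c y₁ / y₂`, `c ∈ ℚ̄ˣ`, `yᵢ ∈ A((q)) ∩ F` with nonzero reductions.
  Proof.  `x = a / b`, `a b ∈ ℚ̄[j(q^d) : d ∣ N]` (`S24.adjoin_jF` / `IntermediateField.mem_adjoin_iff_div`), so it is enough to treat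
  `0 ≠ a ∈ Algebra.adjoin ℚ̄ {j(q^d)}`.  Claim: there is a finitely generated `ℤ`-submodule `Λ ⊆ ℚ̄` containing all
  coefficients of `a` (`Algebra.adjoin_induction`: generators have integer coefficients [`jq` has; see
  `Def_ModularCurve_JqCoeff` / `S24.phiS_jQ`, or use: coefficients of `j(q^d)` lie in `ℤ`], constants `Λ = ℤ c`, sums `Λ₁ + Λ₂`,
  products `Λ₁ Λ₂`).  `ℤ` is noetherian, so the `ℤ`-span of the coefficients `aₙ` is generated by finitely many `aₙ`,
  `n ∈ T`.  Let `c = a_{n₀}`, `n₀ ∈ T`, with `aₙ / c ∈ A` for all `n ∈ T` (`A` is a valuation ring: finite families have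
  a dominant element; helper18's `S18.KLGauss.exists_dominant`).  Then `aₙ / c ∈ A` for all `n` and `a_{n₀} / c = 1`.
* `exists_root_cong` : if `f ≡ 1` and `f = g ^ p`, then after multiplying `g` by a `p`-th root of unity `g ≡ 1`.
  Proof.  `g = c G₁ / G₂` (`exists_scale`); `c ^ p G₁ ^ p y₂ = G₂ ^ p y₁`; both `G₁ ^ p y₂`, `G₂ ^ p y₁` are in `A((q))` with nonzero
  reduction, so `c ^ p`, hence `c`, is a unit of `A`; absorb `c` in `G₁`.  Then `red G₁ ^ p = red G₂ ^ p` in the field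
  `k((q))`; `X ^ p - 1 = ∏ (X - ζ ^ i)` over `A`, so `red G₁ = red (ζ ^ i) red G₂` for some `i`.
* `KL_general` : induction on `m` (prime `p ∣ m`, `p ≠ ℓ`): `f = g ^ p`, `g ≡ 1`, `(m / p) ∣ div g`.
-/

set_option autoImplicit false
set_option synthInstance.maxHeartbeats 400000
set_option linter.unusedSectionVars false

open HahnSeries ModularCurve AlgebraicCurve Fermat.Agent.S24 Fermat.Agent.S29 Fermat.Agent.S18

noncomputable section

namespace Fermat.Agent.ES.Alg

namespace KLAux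

section General

variable {K : Type*} [Field K] (A : ValuationSubring K)

theorem coeffMap_subtype_injective : Function.Injective (coeffMap A.subtype) := by
  intro x y h
  ext n
  have := congrArg (fun s => s.coeff n) h
  simpa using this

/-- a series all of whose coefficients are integral -/
theorem exists_of_coeff_mem (x : LaurentSeries K) (h : ∀ n, x.coeff n ∈ A) :
    ∃ y : LaurentSeries A, coeffMap A.subtype y = x := by
  refine ⟨⟨fun n => ⟨x.coeff n, h n⟩, x.isPWO_support.mono fun n hn h0 => hn ?_⟩, ?_⟩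
  · exact Subtype.ext h0
  · ext n
    rfl

theorem algebraMap_mul_coeff (c : K) (x : LaurentSeries K) (n : ℤ) :
    (algebraMap K (LaurentSeries K) c * x).coeff n = c * x.coeff n := by
  rw [algebraMap_laurentSeries_eq_single, HahnSeries.coeff_single_zero_mul]

/-- the Gauss norm is attained on series with coefficients in a finitely generated group -/
theorem exists_scale_of_fg (x : LaurentSeries K) (hx : x ≠ 0) (Λ : Submodule ℤ K) (hΛ : Λ.FG)
    (h : ∀ n, x.coeff n ∈ Λ) :
    ∃ (c : K) (y : LaurentSeries A), c ≠ 0 ∧ coeffMap (IsLocalRing.residue A) y ≠ 0 ∧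
      x = algebraMap K (LaurentSeries K) c * coeffMap A.subtype y := by
  classical
  have hfg : (Submodule.span ℤ (Set.range x.coeff)).FG := by
    refine Submodule.FG.of_le hΛ ?_
    rw [Submodule.span_le]
    rintro _ ⟨n, rfl⟩
    exact h n
  obtain ⟨T, hT, hspan⟩ := (Submodule.fg_span_iff_fg_span_finset_subset _).mp hfg
  have hne : ∃ t ∈ T, (id t : K) ≠ 0 := by
    by_contra hcon
    push Not at hcon
    apply hx
    ext n
    have h1 : x.coeff n ∈ Submodule.span ℤ (T : Set K) := by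
      rw [← hspan]
      exact Submodule.subset_span ⟨n, rfl⟩
    have h2 : Submodule.span ℤ (T : Set K) ≤ ⊥ := by
      rw [Submodule.span_le]
      intro t ht
      exact hcon t ht
    simpa using h2 h1
  obtain ⟨c, hcT, hc0, hdiv⟩ := Fermat.Agent.S18.KLGauss.exists_dominant (A := A) T id hne
  simp only [id] at hc0 hdiv
  have hall' : ∀ u ∈ Submodule.span ℤ (T : Set K), u / c ∈ A := by
    intro u hu
    induction hu using Submodule.span_induction with
    | mem t ht =>
      obtain ⟨a, ha⟩ := hdiv t ht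
      rw [← ha]
      exact a.2
    | zero => simp [A.zero_mem]
    | add u v _ _ hu hv =>
      rw [add_div]
      exact A.add_mem _ _ hu hv
    | smul r u _ hu =>
      rw [zsmul_eq_mul, mul_div_assoc]
      exact A.mul_mem _ _ (intCast_mem A r) hu
  have hall : ∀ n, x.coeff n / c ∈ A := by
    intro n
    apply hall'
    rw [← hspan]
    exact Submodule.subset_span ⟨n, rfl⟩
  obtain ⟨y, hy⟩ := exists_of_coeff_mem A (algebraMap K (LaurentSeries K) c⁻¹ * x) (fun n => by
    rw [algebraMap_mul_coeff, mul_comm, ← div_eq_mul_inv]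
    exact hall n)
  refine ⟨c, y, hc0, ?_, ?_⟩
  · obtain ⟨n0, hn0⟩ := hT hcT
    intro h0
    have h1 := congrArg (fun s => s.coeff n0) h0
    simp only [coeffMap_coeff, HahnSeries.coeff_zero] at h1
    have h2 : y.coeff n0 = 1 := by
      apply Subtype.ext
      have h3 := congrArg (fun s => s.coeff n0) hy
      simp only [coeffMap_coeff, algebraMap_mul_coeff, hn0] at h3
      rw [inv_mul_cancel₀ hc0] at h3
      exact h3
    rw [h2, map_one] at h1
    exact one_ne_zero h1
  · rw [hy, ← mul_assoc, ← map_mul, mul_inv_cancel₀ hc0, map_one, one_mul]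

end General

section Modular

variable (N : ℕ) [NeZero N]

/-- all coefficients lie in a finitely generated group -/
def FGCoeff (x : LaurentSeries Kb) : Prop :=
  ∃ Λ : Submodule ℤ Kb, Λ.FG ∧ ∀ n, x.coeff n ∈ Λ

omit [NeZero N] in
theorem fgCoeff_jF (d : ℕ) [NeZero d] (hd : d ∣ N) :
    FGCoeff ((jF N d hd : FN N) : LaurentSeries Kb) := by
  have e : ((jF N d hd : FN N) : LaurentSeries Kb)
      = coeffMap (Int.castRingHom Kb) (qExpand ℤ d (jqModC ℤ)) := by
    show coeffEmb Kb (qExpand ℚ d jq) = _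
    rw [coeffEmb, coeffMap_qExpand, ← jqModC_rat, coeffMap_jqModC, coeffMap_qExpand,
      coeffMap_jqModC]
  refine ⟨Submodule.span ℤ {1}, Submodule.fg_span_singleton 1, fun n => ?_⟩
  rw [e, coeffMap_coeff, Submodule.mem_span_singleton]
  exact ⟨((qExpand ℤ d) (jqModC ℤ)).coeff n, by simp⟩

theorem fgCoeff_algebraMap (c : Kb) : FGCoeff (algebraMap Kb (LaurentSeries Kb) c) := by
  refine ⟨Submodule.span ℤ {c}, Submodule.fg_span_singleton c, fun n => ?_⟩
  rw [algebraMap_laurentSeries_eq_single]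
  by_cases hn : n = 0
  · subst hn
    rw [HahnSeries.coeff_single_same]
    exact Submodule.mem_span_singleton_self c
  · rw [HahnSeries.coeff_single_of_ne hn]
    exact zero_mem _

theorem FGCoeff.add {x y : LaurentSeries Kb} (hx : FGCoeff x) (hy : FGCoeff y) :
    FGCoeff (x + y) := by
  obtain ⟨Λ₁, h₁, hx⟩ := hx
  obtain ⟨Λ₂, h₂, hy⟩ := hy
  refine ⟨Λ₁ ⊔ Λ₂, h₁.sup h₂, fun n => ?_⟩
  rw [HahnSeries.coeff_add]
  exact Submodule.add_mem_sup (hx n) (hy n)

theorem FGCoeff.mul {x y : LaurentSeries Kb} (hx : FGCoeff x) (hy : FGCoeff y) :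
    FGCoeff (x * y) := by
  obtain ⟨Λ₁, h₁, hx⟩ := hx
  obtain ⟨Λ₂, h₂, hy⟩ := hy
  refine ⟨Λ₁ * Λ₂, h₁.mul h₂, fun n => ?_⟩
  rw [HahnSeries.coeff_mul]
  exact Submodule.sum_mem _ fun ij _ => Submodule.mul_mem_mul (hx _) (hy _)

theorem fgCoeff_of_mem_adjoin (r : FN N)
    (hr : r ∈ Algebra.adjoin Kb {x : FN N | ∃ (d : ℕ) (_ : NeZero d) (hd : d ∣ N), x = jF N d hd}) :
    FGCoeff (r : LaurentSeries Kb) := by
  induction hr using Algebra.adjoin_induction with
  | mem x hx =>
    obtain ⟨d, _, hd, rfl⟩ := hx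
    exact fgCoeff_jF N d hd
  | algebraMap c => exact fgCoeff_algebraMap c
  | add x y _ _ hx hy => exact hx.add hy
  | mul x y _ _ hx hy => exact hx.mul hy

end Modular

end KLAux

open KLAux

variable (A : ValuationSubring Kb) (N : ℕ) [NeZero N]

/-- `y ∈ A((q)) ∩ F_N` -/
def MemF (y : LaurentSeries A) : Prop := coeffMap A.subtype y ∈ modularFunctionFieldBar N

/-- reduction of the coefficients -/
abbrev red : LaurentSeries A →+* LaurentSeries (IsLocalRing.ResidueField A) :=
  coeffMap (IsLocalRing.residue A)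

/-- `f ≡ 1` modulo the maximal ideal of `A` -/
def Cong (f : FN N) : Prop :=
  ∃ y1 y2 : LaurentSeries A, MemF A N y1 ∧ MemF A N y2 ∧
    (f : LaurentSeries Kb) * coeffMap A.subtype y2 = coeffMap A.subtype y1 ∧
    red A y1 = red A y2 ∧ red A y2 ≠ 0

variable {A N}

theorem ne_zero_of_red_ne_zero {y : LaurentSeries A} (h : red A y ≠ 0) :
    coeffMap A.subtype y ≠ 0 := by
  intro h0
  have h1 : y = 0 := coeffMap_subtype_injective A (by rw [h0, map_zero])
  exact h (by rw [h1, map_zero])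

theorem Cong.ne_zero {f : FN N} (hf : Cong A N f) : f ≠ 0 := by
  obtain ⟨y1, y2, -, -, h, h12, h2⟩ := hf
  rintro rfl
  rw [← h12] at h2
  apply ne_zero_of_red_ne_zero h2
  rw [← h]
  simp

theorem Cong.one : Cong A N 1 := by
  refine ⟨1, 1, ?_, ?_, by simp, rfl, ?_⟩
  · show coeffMap A.subtype 1 ∈ _
    rw [map_one]; exact one_mem _
  · show coeffMap A.subtype 1 ∈ _
    rw [map_one]; exact one_mem _
  · rw [map_one]; exact one_ne_zero

theorem Cong.mul {f g : FN N} (hf : Cong A N f) (hg : Cong A N g) : Cong A N (f * g) := by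
  obtain ⟨y1, y2, m1, m2, h, h12, h2⟩ := hf
  obtain ⟨z1, z2, n1, n2, h', h12', h2'⟩ := hg
  refine ⟨y1 * z1, y2 * z2, ?_, ?_, ?_, ?_, ?_⟩
  · show coeffMap A.subtype (y1 * z1) ∈ _
    rw [map_mul]; exact mul_mem m1 n1
  · show coeffMap A.subtype (y2 * z2) ∈ _
    rw [map_mul]; exact mul_mem m2 n2
  · rw [map_mul, map_mul, ← h, ← h']
    push_cast
    ring
  · rw [map_mul, map_mul, h12, h12']
  · rw [map_mul]; exact mul_ne_zero h2 h2'

theorem Cong.inv {f : FN N} (hf : Cong A N f) : Cong A N f⁻¹ := by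
  have hf0 := hf.ne_zero
  obtain ⟨y1, y2, m1, m2, h, h12, h2⟩ := hf
  refine ⟨y2, y1, m2, m1, ?_, h12.symm, h12 ▸ h2⟩
  have hf0' : (f : LaurentSeries Kb) ≠ 0 := fun h0 => hf0 (Subtype.ext h0)
  rw [← h]
  push_cast
  rw [← mul_assoc, inv_mul_cancel₀ hf0', one_mul]

theorem Cong.pow {f : FN N} (hf : Cong A N f) (n : ℕ) : Cong A N (f ^ n) := by
  induction n with
  | zero => rw [pow_zero]; exact Cong.one
  | succ n ih => rw [pow_succ]; exact ih.mul hf

variable (A)

/-- the Gauss norm is attained -/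
theorem exists_scale (x : FN N) (hx : x ≠ 0) :
    ∃ (c : Kb) (y1 y2 : LaurentSeries A), c ≠ 0 ∧ MemF A N y1 ∧ MemF A N y2 ∧
      red A y1 ≠ 0 ∧ red A y2 ≠ 0 ∧
      (x : LaurentSeries Kb) * coeffMap A.subtype y2 =
        algebraMap Kb (LaurentSeries Kb) c * coeffMap A.subtype y1 := by
  have hx' : x ∈ IntermediateField.adjoin Kb
      {x : FN N | ∃ (d : ℕ) (_ : NeZero d) (hd : d ∣ N), x = jF N d hd} := by
    rw [adjoin_jF]; trivial
  obtain ⟨r, hr, s, hs, hrs⟩ := IntermediateField.mem_adjoin_iff_div.mp hx'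
  have hs0 : s ≠ 0 := by
    rintro rfl
    rw [div_zero] at hrs
    exact hx hrs
  have hr0 : r ≠ 0 := by
    rintro rfl
    rw [zero_div] at hrs
    exact hx hrs
  have hs0' : (s : LaurentSeries Kb) ≠ 0 := fun h0 => hs0 (Subtype.ext h0)
  have hr0' : (r : LaurentSeries Kb) ≠ 0 := fun h0 => hr0 (Subtype.ext h0)
  obtain ⟨Λr, hΛr, hr1⟩ := fgCoeff_of_mem_adjoin N r hr
  obtain ⟨Λs, hΛs, hs1⟩ := fgCoeff_of_mem_adjoin N s hs
  obtain ⟨cr, yr, hcr, hyr, er⟩ := exists_scale_of_fg A _ hr0' Λr hΛr hr1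
  obtain ⟨cs, ys, hcs, hys, es⟩ := exists_scale_of_fg A _ hs0' Λs hΛs hs1
  have hmem : ∀ (c : Kb) (t : FN N) (y : LaurentSeries A), c ≠ 0 →
      (t : LaurentSeries Kb) = algebraMap Kb (LaurentSeries Kb) c * coeffMap A.subtype y →
      MemF A N y := by
    intro c t y hc e
    have h1 : coeffMap A.subtype y = algebraMap Kb (LaurentSeries Kb) c⁻¹ * (t : LaurentSeries Kb) := by
      rw [e, ← mul_assoc, ← map_mul, inv_mul_cancel₀ hc, map_one, one_mul]
    show coeffMap A.subtype y ∈ _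
    rw [h1]
    exact mul_mem ((modularFunctionFieldBar N).algebraMap_mem _) t.2
  refine ⟨cr / cs, yr, ys, div_ne_zero hcr hcs, hmem cr r yr hcr er, hmem cs s ys hcs es, hyr, hys, ?_⟩
  have h2 : (x : LaurentSeries Kb) * (s : LaurentSeries Kb) = (r : LaurentSeries Kb) := by
    rw [hrs]
    push_cast
    exact div_mul_cancel₀ _ hs0'
  have h3 : algebraMap Kb (LaurentSeries Kb) cs ≠ 0 := by
    rw [Ne, map_eq_zero]; exact hcs
  apply mul_left_cancel₀ h3
  calc algebraMap Kb (LaurentSeries Kb) cs * ((x : LaurentSeries Kb) * coeffMap A.subtype ys)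
      = (x : LaurentSeries Kb) * (s : LaurentSeries Kb) := by rw [es]; ring
    _ = algebraMap Kb (LaurentSeries Kb) cr * coeffMap A.subtype yr := by rw [h2, er]
    _ = algebraMap Kb (LaurentSeries Kb) cs *
        (algebraMap Kb (LaurentSeries Kb) (cr / cs) * coeffMap A.subtype yr) := by
      rw [← mul_assoc, ← map_mul, mul_div_cancel₀ _ hcs]

variable {A}

/-- if `e U = V` with `U`, `V` integral and `U` of nonzero reduction, then `e` is integral -/
theorem mem_of_mul_eq {e : Kb} {U V : LaurentSeries A} (hU : red A U ≠ 0)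
    (h : algebraMap Kb (LaurentSeries Kb) e * coeffMap A.subtype U = coeffMap A.subtype V) :
    e ∈ A := by
  obtain ⟨n, hn⟩ : ∃ n, (red A U).coeff n ≠ 0 := by
    by_contra hcon
    push Not at hcon
    exact hU (HahnSeries.ext (funext hcon))
  rw [coeffMap_coeff, IsLocalRing.residue_ne_zero_iff_isUnit] at hn
  obtain ⟨u, hu⟩ := hn
  have h1 := congrArg (fun s => s.coeff n) h
  simp only [algebraMap_mul_coeff, coeffMap_coeff, ← hu] at h1
  have h2 : ((u : A) : Kb) * ((u⁻¹ : Aˣ) : A) = 1 := by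
    have h6 : ((u : A) * ((u⁻¹ : Aˣ) : A) : A) = 1 := u.mul_inv
    have h7 := congrArg (Subtype.val) h6
    exact h7
  have h3 : e = ((V.coeff n * ((u⁻¹ : Aˣ) : A) : A) : Kb) := by
    push_cast
    have h4 : A.subtype (V.coeff n) = (V.coeff n : Kb) := rfl
    have h5 : A.subtype (u : A) = ((u : A) : Kb) := rfl
    rw [h4, h5] at h1
    rw [← h1, mul_assoc, h2, mul_one]
  rw [h3]
  exact Subtype.property _

theorem mem_of_pow_mem {c : Kb} {p : ℕ} (hp : p ≠ 0) (h : c ^ p ∈ A) : c ∈ A := by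
  rcases A.mem_or_inv_mem c with h1 | h1
  · exact h1
  · by_cases hc : c = 0
    · rw [hc]; exact A.zero_mem
    have h2 : c = c ^ p * c⁻¹ ^ (p - 1) := by
      obtain ⟨k, rfl⟩ := Nat.exists_eq_succ_of_ne_zero hp
      rw [Nat.succ_sub_one, pow_succ, inv_pow]
      field_simp
    rw [h2]
    exact A.mul_mem _ _ h (pow_mem h1 _)

theorem coeffMap_subtype_single (a : A) :
    coeffMap A.subtype (HahnSeries.single 0 a) = algebraMap Kb (LaurentSeries Kb) (a : Kb) := by
  rw [coeffMap_single, algebraMap_laurentSeries_eq_single]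
  rfl

theorem red_single (a : A) :
    red A (HahnSeries.single 0 a) = algebraMap (IsLocalRing.ResidueField A)
      (LaurentSeries (IsLocalRing.ResidueField A)) (IsLocalRing.residue A a) := by
  rw [coeffMap_single, algebraMap_laurentSeries_eq_single]

theorem exists_root_cong {p : ℕ} (hp : p.Prime) {f g : FN N} (hf : Cong A N f) (hg : g ^ p = f) :
    ∃ g' : FN N, g' ^ p = f ∧ Cong A N g' := by
  have hf0 := hf.ne_zero
  have hg0 : g ≠ 0 := by
    rintro rfl
    rw [zero_pow hp.ne_zero] at hg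
    exact hf0 hg.symm
  obtain ⟨y1, y2, m1, m2, h, h12, h2⟩ := hf
  obtain ⟨c, G1, G2, hc, n1, n2, r1, r2, hG⟩ := exists_scale A g hg0
  have key : algebraMap Kb (LaurentSeries Kb) (c ^ p) * coeffMap A.subtype (G1 ^ p * y2)
      = coeffMap A.subtype (G2 ^ p * y1) := by
    rw [map_mul, map_mul, map_pow, map_pow, map_pow, ← h, ← hg]
    push_cast
    calc algebraMap Kb (LaurentSeries Kb) c ^ p * (coeffMap A.subtype G1 ^ p * coeffMap A.subtype y2)
        = (algebraMap Kb (LaurentSeries Kb) c * coeffMap A.subtype G1) ^ p * coeffMap A.subtype y2 := by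
          ring
      _ = ((g : LaurentSeries Kb) * coeffMap A.subtype G2) ^ p * coeffMap A.subtype y2 := by rw [hG]
      _ = _ := by ring
  have hU : red A (G1 ^ p * y2) ≠ 0 := by
    rw [map_mul, map_pow]; exact mul_ne_zero (pow_ne_zero _ r1) h2
  have hV : red A (G2 ^ p * y1) ≠ 0 := by
    rw [map_mul, map_pow, h12]; exact mul_ne_zero (pow_ne_zero _ r2) h2
  have hcA : c ∈ A := mem_of_pow_mem hp.ne_zero (mem_of_mul_eq hU key)
  have hcA' : c⁻¹ ∈ A := by
    refine mem_of_pow_mem hp.ne_zero (mem_of_mul_eq hV (V := G1 ^ p * y2) ?_)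
    rw [← key, ← mul_assoc, ← map_mul, inv_pow, inv_mul_cancel₀ (pow_ne_zero _ hc), map_one, one_mul]
  -- absorb `c`
  set G1' : LaurentSeries A := HahnSeries.single 0 (⟨c, hcA⟩ : A) * G1 with hG1'
  have eG1' : coeffMap A.subtype G1' = algebraMap Kb (LaurentSeries Kb) c * coeffMap A.subtype G1 := by
    rw [hG1', map_mul, coeffMap_subtype_single]
  have hG' : (g : LaurentSeries Kb) * coeffMap A.subtype G2 = coeffMap A.subtype G1' := by
    rw [eG1', hG]
  have hpow : G1' ^ p * y2 = G2 ^ p * y1 := by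
    apply coeffMap_subtype_injective A
    rw [← key, map_mul, map_mul, map_pow, map_pow, eG1', map_pow]
    ring
  have hredpow : red A G1' ^ p = red A G2 ^ p := by
    have h3 := congrArg (red A) hpow
    rw [map_mul, map_mul, map_pow, map_pow, h12] at h3
    exact mul_right_cancel₀ h2 h3
  -- roots of unity
  have : NeZero p := ⟨hp.ne_zero⟩
  obtain ⟨ζ, hζ⟩ := HasEnoughRootsOfUnity.exists_primitiveRoot Kb p
  have hζA : ζ ∈ A := mem_of_pow_mem (p := p) hp.ne_zero (by rw [hζ.pow_eq_one]; exact A.one_mem)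
  have hζ' : IsPrimitiveRoot (⟨ζ, hζA⟩ : A) p :=
    IsPrimitiveRoot.of_map_of_injective (f := A.subtype) hζ Subtype.val_injective
  have hprod := Polynomial.X_pow_sub_one_eq_prod hp.pos hζ'
  let φ : A →+* LaurentSeries (IsLocalRing.ResidueField A) :=
    (algebraMap (IsLocalRing.ResidueField A) (LaurentSeries (IsLocalRing.ResidueField A))).comp
      (IsLocalRing.residue A)
  have hev := congrArg (Polynomial.eval₂ φ (red A G1' / red A G2)) hprod
  rw [Polynomial.eval₂_sub, Polynomial.eval₂_pow, Polynomial.eval₂_X, Polynomial.eval₂_one, div_pow,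
    hredpow, div_self (pow_ne_zero _ r2), sub_self, Polynomial.eval₂_finsetProd] at hev
  obtain ⟨z, hz, hz0⟩ := Finset.prod_eq_zero_iff.mp hev.symm
  rw [Polynomial.eval₂_sub, Polynomial.eval₂_X, Polynomial.eval₂_C, sub_eq_zero,
    div_eq_iff r2] at hz0
  rw [Polynomial.mem_nthRootsFinset hp.pos] at hz
  have hz' : ((z : A) : Kb) ^ p = 1 := by
    have := congrArg Subtype.val hz
    simpa using this
  have hz1 : z ^ (p - 1) * z = 1 := by
    rw [← pow_succ, Nat.sub_add_cancel hp.one_le, hz]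
  have hz1' : ((z : A) : Kb) ^ (p - 1) * ((z : A) : Kb) = 1 := by
    rw [← pow_succ, Nat.sub_add_cancel hp.one_le, hz']
  refine ⟨algebraMap Kb (FN N) (((z : A) : Kb) ^ (p - 1)) * g, ?_,
    HahnSeries.single 0 (z ^ (p - 1)) * G1', G2, ?_, n2, ?_, ?_, r2⟩
  · rw [mul_pow, hg, ← map_pow, ← pow_mul, mul_comm (p - 1) p, pow_mul, hz', one_pow, map_one,
      one_mul]
  · show coeffMap A.subtype _ ∈ _
    rw [map_mul, coeffMap_subtype_single, eG1']
    exact mul_mem ((modularFunctionFieldBar N).algebraMap_mem _)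
      (mul_mem ((modularFunctionFieldBar N).algebraMap_mem _) n1)
  · rw [map_mul, coeffMap_subtype_single, ← hG']
    push_cast
    rw [mul_assoc]
  · rw [map_mul, red_single, hz0]
    show φ (z ^ (p - 1)) * (φ z * _) = _
    rw [← mul_assoc, ← map_mul, hz1, map_one, one_mul]

theorem KL_aux {ℓ : ℕ} (hKL : KLStatement N ℓ A) (m : ℕ) : ¬ ℓ ∣ m → ∀ f : FN N,
    PDiv Kb (FN N) m f → Cong A N f → ∃ g : FN N, g ^ m = f := by
  induction m using induction_on_primes with
  | zero => intro h; exact absurd (dvd_zero ℓ) h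
  | one => intro _ f _ _; exact ⟨f, pow_one f⟩
  | prime_mul p a hp ih =>
    intro hm f hf hcf
    have hpℓ : p ≠ ℓ := by
      rintro rfl
      exact hm (dvd_mul_right _ _)
    have ha : ¬ ℓ ∣ a := fun h => hm (h.mul_left p)
    obtain ⟨y1, y2, m1, m2, h, h12, h2⟩ := id hcf
    obtain ⟨g0, hg0⟩ := hKL p hp hpℓ f hf.1
      (fun P => (Dvd.intro _ (by push_cast; rfl)).trans (hf.2 P)) y1 y2 m1 m2 h h12 h2
    obtain ⟨g1, hg1, hcg1⟩ := exists_root_cong hp hcf hg0
    have hdiv : PDiv Kb (FN N) a g1 := by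
      refine ⟨hcg1.ne_zero, fun P => ?_⟩
      have h3 := hf.2 P
      rw [← hg1, ord_pow'] at h3
      push_cast at h3
      exact (mul_dvd_mul_iff_left (by exact_mod_cast hp.ne_zero)).mp h3
    obtain ⟨g, hg⟩ := ih ha g1 hdiv hcg1
    exact ⟨g, by rw [mul_comm, pow_mul, hg, hg1]⟩

/-- (KL) for a general exponent prime to `ℓ`, up to a constant -/
theorem KL_general {ℓ : ℕ} (hKL : KLStatement N ℓ A) (m : ℕ) (hm : ¬ ℓ ∣ m) (f : FN N)
    (hf : PDiv Kb (FN N) m f) (c : Kb) (hc : c ≠ 0)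
    (hcf : Cong A N (algebraMap Kb (FN N) c * f)) : ∃ g : FN N, g ^ m = f := by
  have hm0 : m ≠ 0 := by
    rintro rfl
    exact hm (dvd_zero ℓ)
  have hc' : algebraMap Kb (FN N) c ≠ 0 := by
    rw [Ne, map_eq_zero]; exact hc
  have hdiv : PDiv Kb (FN N) m (algebraMap Kb (FN N) c * f) := by
    refine ⟨mul_ne_zero hc' hf.1, fun P => ?_⟩
    rw [P.ord_mul hc' hf.1, Diff.ord_algebraMap, zero_add]
    exact hf.2 P
  obtain ⟨g, hg⟩ := KL_aux hKL m hm _ hdiv hcf
  obtain ⟨e, he⟩ := IsAlgClosed.exists_pow_nat_eq c⁻¹ (Nat.pos_of_ne_zero hm0)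
  refine ⟨algebraMap Kb (FN N) e * g, ?_⟩
  rw [mul_pow, hg, ← map_pow, he, ← mul_assoc, ← map_mul, inv_mul_cancel₀ hc, map_one, one_mul]

end Fermat.Agent.ES.Alg
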