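import Mathlib
import Fermat.Agent.S24.PlacesCore

/-!
# ES/ALG-O : auxiliary lemmas (helper18)

Norms preserve "`m` divides the divisor".
-/

set_option autoImplicit false
set_option linter.unusedSectionVars false

open AlgebraicCurve IsDedekindDomain

noncomputable section

namespace Fermat.Agent.ES.Alg.OrdAux

section Abstract

variable (A : Type*) {B : Type*} [CommRing A] [CommRing B] [Algebra A B] [IsDedekindDomain A]
  [IsDedekindDomain B] [IsPrincipalIdealRing A] [Module.Finite A B] [Module.IsTorsionFree A B]

open scoped Classical in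
theorem exists_associated_intNorm (m : ℕ) (b : B) (hb : b ≠ 0)
    (h : ∀ w : HeightOneSpectrum B,
      m ∣ (Associates.mk w.asIdeal).count (Associates.mk (Ideal.span {b})).factors) :
    ∃ a : A, Associated (Algebra.intNorm A B b) (a ^ m) := by
  have hI0 : Ideal.span {b} ≠ 0 := by simpa using hb
  obtain ⟨u, hu⟩ := Multiset.exists_smul_of_dvd_count
    (UniqueFactorizationMonoid.normalizedFactors (Ideal.span {b})) (k := m) (fun P hP => by
      have hPp := UniqueFactorizationMonoid.prime_of_normalized_factor P hP
      have h1 := h ⟨P, Ideal.isPrime_of_prime hPp, hPp.ne_zero⟩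
      rwa [Ideal.count_associates_factors_eq hI0 (Ideal.isPrime_of_prime hPp) hPp.ne_zero] at h1)
  have h2 : Ideal.span {b} = u.prod ^ m := by
    rw [← Multiset.prod_nsmul, ← hu, Ideal.prod_normalizedFactors_eq_self hI0]
  obtain ⟨a, ha⟩ := (IsPrincipalIdealRing.principal (Ideal.relNorm A u.prod)).principal
  refine ⟨a, ?_⟩
  rw [← Ideal.span_singleton_eq_span_singleton, ← Ideal.relNorm_singleton, h2, map_pow, ha,
    ← Ideal.span_singleton_pow]

end Abstract

section Ord

variable {K F : Type*} [Field K] [Field F] [Algebra K F]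
variable {R : Type*} [CommRing R] [IsDedekindDomain R] [Algebra R F] [IsFractionRing R F]
  [Algebra K R] [IsScalarTower K R F]

open scoped Classical in
theorem ord_eq_count (w : HeightOneSpectrum R) {b : R} (hb : b ≠ 0) :
    (Place.ofHeightOneSpectrum (K := K) (F := F) w).ord (algebraMap R F b) =
      ((Associates.mk w.asIdeal).count (Associates.mk (Ideal.span {b})).factors : ℤ) := by
  rw [Fermat.Agent.S24.ord_ofHeightOneSpectrum, HeightOneSpectrum.valuation_of_algebraMap,
    w.intValuation_if_neg hb, WithZero.log_exp, neg_neg]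

theorem ord_pow (v : Place K F) (f : F) (n : ℕ) : v.ord (f ^ n) = n * v.ord f := by
  rw [← zpow_natCast, v.ord_zpow]

end Ord

section Norm

variable {K F F' : Type*} [Field K] [Field F] [Field F'] [Algebra K F] [Algebra K F']
  [Algebra F F'] [IsScalarTower K F F'] [FiniteDimensional F F'] [Algebra.IsSeparable F F']

theorem dvd_ord_norm_of_pos {m : ℕ} (hm : 0 < m) {x : F'} (hx0 : x ≠ 0)
    (hx : ∀ w : Place K F', (m : ℤ) ∣ w.ord x) (v : Place K F) :
    (m : ℤ) ∣ v.ord (Algebra.norm F x) := by
  let O := v.toValuationSubring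
  let _ : Algebra O F' := ((algebraMap F F').comp (algebraMap O F)).toAlgebra
  have : IsScalarTower O F F' := .of_algebraMap_eq' rfl
  have : IsScalarTower K O F' := .of_algebraMap_eq fun a => by
    rw [IsScalarTower.algebraMap_apply K F F']
    rfl
  have : IsFractionRing (integralClosure O F') F' :=
    integralClosure.isFractionRing_of_finite_extension F F'
  have : IsDedekindDomain (integralClosure O F') := integralClosure.isDedekindDomain O F F'
  have : Module.Finite O (integralClosure O F') :=
    IsIntegralClosure.finite O F F' (integralClosure O F')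
  have : FaithfulSMul O F' := (faithfulSMul_iff_algebraMap_injective _ _).mpr
    ((algebraMap F F').injective.comp (IsFractionRing.injective O F))
  have : Module.IsTorsionFree O (integralClosure O F') :=
    Fermat.Agent.S24.isTorsionFree_of_tower (F := F') (A := O) _
  -- clear denominators
  have halg : IsAlgebraic O x :=
    (IsFractionRing.isAlgebraic_iff O F F').mpr (Algebra.IsAlgebraic.isAlgebraic x)
  obtain ⟨s, hs0, hs⟩ := halg.exists_integral_multiple
  have hsF : (algebraMap O F s) ≠ 0 := by
    simpa using hs0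
  have hsF' : (algebraMap O F' s) ≠ 0 := by
    rw [IsScalarTower.algebraMap_apply O F F']
    simpa using hs0
  have hint : IsIntegral O ((algebraMap O F' s) ^ m * x) := by
    obtain ⟨k, rfl⟩ : ∃ k, m = k + 1 := ⟨m - 1, by omega⟩
    rw [pow_succ, mul_assoc, ← Algebra.smul_def s x]
    exact (isIntegral_algebraMap.pow k).mul hs
  let b : integralClosure O F' := ⟨_, hint⟩
  have hbx : algebraMap (integralClosure O F') F' b = (algebraMap O F' s) ^ m * x := rfl
  have hb0 : b ≠ 0 := by
    intro h
    have h1 := hbx
    rw [h, map_zero] at h1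
    exact mul_ne_zero (pow_ne_zero m hsF') hx0 h1.symm
  obtain ⟨a, u, hu⟩ := exists_associated_intNorm O m b hb0 (fun w => by
    have h1 := ord_eq_count (K := K) (F := F') w hb0
    rw [hbx, Place.ord_mul _ (pow_ne_zero m hsF') hx0, ord_pow] at h1
    have h2 := hx (Place.ofHeightOneSpectrum (K := K) (F := F') w)
    have h3 : (m : ℤ) ∣ ((Associates.mk w.asIdeal).count
        (Associates.mk (Ideal.span {b})).factors : ℤ) := by
      rw [← h1]
      exact dvd_add (Dvd.intro _ rfl) h2
    exact_mod_cast h3)
  have h4 : algebraMap O F (Algebra.intNorm O (integralClosure O F') b) =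
      Algebra.norm F (algebraMap (integralClosure O F') F' b) :=
    Algebra.algebraMap_intNorm (A := O) (K := F) (L := F') (B := integralClosure O F') b
  have hn0 : Algebra.norm F x ≠ 0 := Algebra.norm_ne_zero_iff.mpr hx0
  have h5 : Algebra.norm F (algebraMap (integralClosure O F') F' b) =
      (algebraMap O F s) ^ (Module.finrank F F' * m) * Algebra.norm F x := by
    rw [hbx, map_mul, map_pow, IsScalarTower.algebraMap_apply O F F', Algebra.norm_algebraMap,
      ← pow_mul]
  have h6 : algebraMap O F (Algebra.intNorm O (integralClosure O F') b) *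
      algebraMap O F (u : O) = (algebraMap O F a) ^ m := by
    rw [← map_mul, hu, map_pow]
  have ha0 : algebraMap O F a ≠ 0 := by
    intro h
    rw [h, zero_pow hm.ne', h4, h5] at h6
    have hu0 : algebraMap O F (u : O) ≠ 0 := by simp
    exact mul_ne_zero (mul_ne_zero (pow_ne_zero _ hsF) hn0) hu0 h6
  have h7 := congrArg v.ord h6
  have hu0 : algebraMap O F (u : O) ≠ 0 := by simp
  rw [h4, h5, v.ord_mul (mul_ne_zero (pow_ne_zero _ hsF) hn0) hu0,
    v.ord_mul (pow_ne_zero _ hsF) hn0, ord_pow, ord_pow] at h7
  have h8 : v.ord (algebraMap O F (u : O)) = 0 := v.ord_coe_unit u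
  rw [h8] at h7
  refine ⟨v.ord (algebraMap O F a) - Module.finrank F F' * v.ord (algebraMap O F s), ?_⟩
  push_cast at h7
  linear_combination h7

theorem dvd_ord_norm {m : ℕ} {x : F'} (hx0 : x ≠ 0)
    (hx : ∀ w : Place K F', (m : ℤ) ∣ w.ord x) (v : Place K F) :
    (m : ℤ) ∣ v.ord (Algebra.norm F x) := by
  rcases Nat.eq_zero_or_pos m with rfl | hm
  · have h0 : ∀ w : Place K F', w.ord x = 0 := fun w => by simpa using hx w
    have h1 := dvd_ord_norm_of_pos (K := K) (F := F)
      (m := (v.ord (Algebra.norm F x)).natAbs + 1) (Nat.succ_pos _) hx0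
      (fun w => by rw [h0 w]; exact dvd_zero _) v
    have h2 : v.ord (Algebra.norm F x) = 0 := by
      refine Int.eq_zero_of_dvd_of_natAbs_lt_natAbs h1 ?_
      rw [Int.natAbs_natCast]
      exact Nat.lt_succ_self _
    rw [h2]
    exact dvd_zero _
  · exact dvd_ord_norm_of_pos hm hx0 hx v

end Norm

section Integral

open IntermediateField

variable {K F F' : Type*} [Field K] [Field F] [Field F'] [Algebra K F] [Algebra K F']

/-- a `K`-embedding of function fields of transcendence degree one is integral -/
theorem isIntegral_of_transcendental (β : F →ₐ[K] F') (j : F)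
    (hfin : FiniteDimensional K⟮β j⟯ F') : β.toRingHom.IsIntegral := by
  have hle : K⟮β j⟯ ≤ β.fieldRange := by
    rw [adjoin_simple_le_iff]
    exact ⟨j, rfl⟩
  intro y
  obtain ⟨p, hp, hpy⟩ : IsIntegral K⟮β j⟯ y := Algebra.IsIntegral.isIntegral y
  have hle' : ∀ c : K⟮β j⟯, algebraMap K⟮β j⟯ F' c ∈ β.range := fun c => by
    obtain ⟨z, hz⟩ := hle c.2
    exact ⟨z, hz⟩
  let ι : K⟮β j⟯ →+* β.range := (algebraMap K⟮β j⟯ F').codRestrict β.range hle'
  let g : K⟮β j⟯ →+* F := ((AlgEquiv.ofInjectiveField β).symm : β.range →+* F).comp ι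
  have hg : β.toRingHom.comp g = algebraMap K⟮β j⟯ F' := by
    ext c
    have h1 : β ((AlgEquiv.ofInjectiveField β).symm (ι c)) =
        ((AlgEquiv.ofInjectiveField β) ((AlgEquiv.ofInjectiveField β).symm (ι c)) : F') := rfl
    rw [AlgEquiv.apply_symm_apply] at h1
    exact h1
  refine ⟨p.map g, hp.map g, ?_⟩
  rw [Polynomial.eval₂_map, hg]
  exact hpy

end Integral

end Fermat.Agent.ES.Alg.OrdAux
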