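import Fermat.Agent.ES.AlgDeg
import Fermat.Agent.ES.AlgOrdAux
import Fermat.Agent.S24.DiffCore

/-!
# ES/ALG-O : norms and pull-backs preserve "`m` divides the divisor"

* pull-back: Prelude `Place.ord_restrict`.
* norm: `F'/F` finite separable, `v` a place of `F`, `O = v.toValuationSubring` (a DVR),
  `B` = integral closure of `O` in `F'` (Dedekind, finite over `O`).  Multiply `x` by `s ^ m`, `s ∈ O`, to get
  `x ∈ B`.  Every height one prime `𝔓` of `B` gives a place `w` of `F'`
  (`S24.PlacesCore`: `ofHeightOneSpectrum`, `ord_ofHeightOneSpectrum`), so `m ∣ v_𝔓(x)` for all `𝔓`,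
  so `(x) = I ^ m`, `span {norm x} = relNorm (x) = (relNorm I) ^ m` (Mathlib `Ideal.relNorm_singleton`,
  `map_pow`) and `relNorm I = (π ^ c)`: `ord_v (norm x) = m c`.
-/

set_option autoImplicit false

open HahnSeries ModularCurve AlgebraicCurve Fermat.Agent.S24 Fermat.Agent.S29

noncomputable section

namespace Fermat.Agent.ES.Alg

theorem PDiv.algebraMap {K F F' : Type*} [Field K] [Field F] [Field F'] [Algebra K F] [Algebra K F']
    [Algebra F F'] [IsScalarTower K F F'] [Algebra.IsIntegral F F'] {m : ℕ} {u : F}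
    (hu : PDiv K F m u) : PDiv K F' m (algebraMap F F' u) := by
  refine ⟨by simpa using hu.1, fun w => ?_⟩
  rw [w.ord_restrict u]
  exact Dvd.dvd.mul_left (hu.2 _) _

theorem PDiv.norm {K F F' : Type*} [Field K] [Field F] [Field F'] [Algebra K F] [Algebra K F']
    [Algebra F F'] [IsScalarTower K F F'] [FiniteDimensional F F'] [Algebra.IsSeparable F F']
    {m : ℕ} {x : F'} (hx : PDiv K F' m x) : PDiv K F m (Algebra.norm F x) :=
  ⟨Algebra.norm_ne_zero_iff.mpr hx.1, fun v => OrdAux.dvd_ord_norm hx.1 hx.2 v⟩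

theorem integral_beta (N ℓ : ℕ) [NeZero N] [NeZero ℓ] : HeckeBetaBarIntegral Kb N ℓ := by
  have hf : Transcendental Kb (heckeBetaBar Kb N ℓ (jN N)) := fun h =>
    transcendental_jN N
      ((isAlgebraic_algHom_iff (heckeBetaBar Kb N ℓ) (heckeBetaBar Kb N ℓ).injective).mp h)
  exact OrdAux.isIntegral_of_transcendental (heckeBetaBar Kb N ℓ) (jN N)
    (Fermat.Agent.S24.Diff.finiteDimensional_adjoin_of_transcendental (jN (N * ℓ)) (finiteDimensional_FN (N * ℓ))
      _ hf)

theorem PDiv.Tl (N ℓ : ℕ) [NeZero N] [NeZero ℓ] {m : ℕ} {u : FN N} (hu : PDiv Kb (FN N) m u) :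
    PDiv Kb (FN N) m (Tl N ℓ u) := by
  have h1 : PDiv Kb (FN (N * ℓ)) m (heckeBetaBar Kb N ℓ u) := by
    let _ := algebraAlong (heckeBetaBar Kb N ℓ)
    have := isScalarTower_along (heckeBetaBar Kb N ℓ)
    have := isIntegral_along (heckeBetaBar Kb N ℓ) (integral_beta N ℓ)
    exact PDiv.algebraMap (F := FN N) (F' := FN (N * ℓ)) hu
  let _ := algebraAlong (heckeAlphaBar Kb N ℓ)
  have := isScalarTower_along (heckeAlphaBar Kb N ℓ)
  have : FiniteDimensional (FN N) (FN (N * ℓ)) := finite_alpha N ℓ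
  have : CharZero (FN N) := charZero_of_injective_algebraMap (Algebra.algebraMap (R := Kb) (A := FN N)).injective
  exact PDiv.norm (F := FN N) (F' := FN (N * ℓ)) h1

end Fermat.Agent.ES.Alg
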