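import Fermat.Agent.ES.AlgES
import Fermat.Agent.ES.AlgOrd

/-!
# ES/ALG : the Kummer module `W_m`, Galois action, Hecke operators, Eichler–Shimura relation

`Um N m = {u ∈ F_Nˣ : m ∣ ord_v u for all v}`, `Wm N m = Um / (F_Nˣ)^m` (written additively),
`cls : Um → Wm`, `act : G_ℚ →* End Wm`, `T ℓ : End Wm`.

* `T_eq` : `T ℓ = act τ + ℓ act τ⁻¹` for a Frobenius lift `τ` at `A ∣ ℓ`, `ℓ ∤ N m`, given `KLStatement N ℓ A`;
* `ES1` : `act τ * act τ - T ℓ * act τ + ℓ = 0`;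
* `ES2` : inertia acts trivially;
* `act_comm_T`, `T_comm`, `exists_level_cls`, `smul_eq_zero`.
-/

set_option autoImplicit false
set_option synthInstance.maxHeartbeats 400000

open HahnSeries ModularCurve AlgebraicCurve Fermat.Agent.S24 Fermat.Agent.S29 Fermat.Agent.S18

noncomputable section

namespace Fermat.Agent.ES.Alg

variable (N m : ℕ) [NeZero N]

/-- units whose divisor is divisible by `m` -/
def Um : Subgroup (FN N)ˣ where
  carrier := {u | ∀ v : Place Kb (FN N), (m : ℤ) ∣ v.ord (u : FN N)}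
  one_mem' := fun v => by simp
  mul_mem' := fun {a b} ha hb v => by
    rw [Units.val_mul, v.ord_mul a.ne_zero b.ne_zero]
    exact dvd_add (ha v) (hb v)
  inv_mem' := fun {a} ha v => by
    rw [Units.val_inv_eq_inv_val, v.ord_inv]
    exact (dvd_neg).mpr (ha v)

variable {N m}

theorem mem_Um_iff {u : (FN N)ˣ} : u ∈ Um N m ↔ PDiv Kb (FN N) m (u : FN N) :=
  ⟨fun h => ⟨u.ne_zero, h⟩, fun h => h.2⟩

variable (N m)

/-- the `m`-th powers -/
def Pm : Subgroup (Um N m) := ((powMonoidHom m : (FN N)ˣ →* (FN N)ˣ).range).subgroupOf (Um N m)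

/-- the Kummer module -/
def Wm : Type := Additive (Um N m ⧸ Pm N m)

instance : AddCommGroup (Wm N m) := inferInstanceAs (AddCommGroup (Additive (Um N m ⧸ Pm N m)))

variable {N m}

/-- the class of a unit -/
def cls (u : Um N m) : Wm N m := Additive.ofMul (QuotientGroup.mk u)

theorem cls_surjective : Function.Surjective (cls (N := N) (m := m)) := by
  intro w
  obtain ⟨u, hu⟩ := QuotientGroup.mk_surjective (Additive.toMul w : Um N m ⧸ Pm N m)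
  exact ⟨u, by rw [cls, hu]; rfl⟩

theorem cls_mul (u u' : Um N m) : cls (u * u') = cls u + cls u' := rfl

theorem cls_one : cls (1 : Um N m) = 0 := rfl

theorem cls_inv (u : Um N m) : cls u⁻¹ = - cls u := rfl

theorem cls_pow (u : Um N m) (n : ℕ) : cls (u ^ n) = n • cls u := rfl

theorem cls_eq_zero_iff (u : Um N m) : cls u = 0 ↔ ∃ r : (FN N)ˣ, r ^ m = (u : (FN N)ˣ) := by
  have h1 : cls u = 0 ↔ (QuotientGroup.mk u : Um N m ⧸ Pm N m) = 1 := Iff.rfl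
  rw [h1, QuotientGroup.eq_one_iff, Pm, Subgroup.mem_subgroupOf, MonoidHom.mem_range]
  rfl

theorem cls_eq_iff (u u' : Um N m) :
    cls u = cls u' ↔ ∃ r : (FN N)ˣ, (u : (FN N)ˣ) = u' * r ^ m := by
  have h1 : cls u = cls u' ↔ cls (u'⁻¹ * u) = 0 := by
    rw [cls_mul, cls_inv, neg_add_eq_zero, eq_comm]
  rw [h1, cls_eq_zero_iff]
  constructor
  · rintro ⟨r, hr⟩
    refine ⟨r, ?_⟩
    rw [hr]
    simp
  · rintro ⟨r, hr⟩
    refine ⟨r, ?_⟩
    simp [hr]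

theorem smul_eq_zero' (w : Wm N m) : m • w = 0 := by
  obtain ⟨u, rfl⟩ := cls_surjective w
  rw [← cls_pow, cls_eq_zero_iff]
  exact ⟨u, rfl⟩

/-! ### induced endomorphisms -/

/-- the endomorphism of `Um` induced by an endomorphism of `F_Nˣ` -/
def resU (φ : (FN N)ˣ →* (FN N)ˣ) (hφ : ∀ u ∈ Um N m, φ u ∈ Um N m) : Um N m →* Um N m :=
  (φ.comp (Um N m).subtype).codRestrict (Um N m) (fun u => hφ u u.2)

/-- the endomorphism of `Wm` induced by an endomorphism of `F_Nˣ` -/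
def ind (φ : (FN N)ˣ →* (FN N)ˣ) (hφ : ∀ u ∈ Um N m, φ u ∈ Um N m) : AddMonoid.End (Wm N m) :=
  MonoidHom.toAdditive (QuotientGroup.map (Pm N m) (Pm N m) (resU φ hφ) (by
    rintro u hu
    rw [Pm, Subgroup.mem_subgroupOf, MonoidHom.mem_range] at hu
    obtain ⟨r, hr⟩ := hu
    rw [Subgroup.mem_comap, Pm, Subgroup.mem_subgroupOf, MonoidHom.mem_range]
    refine ⟨φ r, ?_⟩
    show (φ r) ^ m = φ (u : (FN N)ˣ)
    rw [← map_pow]
    exact congrArg φ hr))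

theorem ind_cls (φ : (FN N)ˣ →* (FN N)ˣ) (hφ : ∀ u ∈ Um N m, φ u ∈ Um N m) (u : Um N m) :
    ind φ hφ (cls u) = cls ⟨φ u, hφ u u.2⟩ := rfl

theorem end_mul_apply (f g : AddMonoid.End (Wm N m)) (w : Wm N m) : (f * g) w = f (g w) := rfl

theorem end_add_apply (f g : AddMonoid.End (Wm N m)) (w : Wm N m) : (f + g) w = f w + g w := rfl

theorem end_one_apply (w : Wm N m) : (1 : AddMonoid.End (Wm N m)) w = w := rfl

theorem end_ext {f g : AddMonoid.End (Wm N m)} (h : ∀ u, f (cls u) = g (cls u)) : f = g := by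
  ext w
  obtain ⟨u, rfl⟩ := cls_surjective w
  exact h u

/-! ### Galois action and Hecke operators -/

theorem gal_mem_Um (σ : GQ) (u : (FN N)ˣ) (hu : u ∈ Um N m) :
    Units.map ((gal N σ : FN N →+* FN N) : FN N →* FN N) u ∈ Um N m :=
  mem_Um_iff.mpr (PDiv.gal (mem_Um_iff.mp hu) σ)

theorem Tl_mem_Um (ℓ : ℕ) [NeZero ℓ] (u : (FN N)ˣ) (hu : u ∈ Um N m) :
    Units.map (Tl N ℓ) u ∈ Um N m :=
  mem_Um_iff.mpr (PDiv.Tl N ℓ (mem_Um_iff.mp hu))

variable (N m)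

/-- the Galois action on `Wm` -/
def act : GQ →* AddMonoid.End (Wm N m) where
  toFun σ := ind _ (gal_mem_Um σ)
  map_one' := by
    apply end_ext
    intro u
    rw [ind_cls]
    congr 1
  map_mul' σ τ := by
    apply end_ext
    intro u
    rw [end_mul_apply, ind_cls, ind_cls, ind_cls]
    congr 1

/-- the Hecke operator on `Wm` -/
def T (ℓ : ℕ) [NeZero ℓ] : AddMonoid.End (Wm N m) := ind _ (Tl_mem_Um ℓ)

variable {N m}

/-- `σ u` as an element of `Um` -/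
def galU (σ : GQ) : Um N m →* Um N m := resU _ (gal_mem_Um σ)

/-- `Tl u` as an element of `Um` -/
def TlU (ℓ : ℕ) [NeZero ℓ] : Um N m →* Um N m := resU _ (Tl_mem_Um ℓ)

theorem act_cls (σ : GQ) (u : Um N m) : act N m σ (cls u) = cls (galU σ u) := rfl

theorem T_cls (ℓ : ℕ) [NeZero ℓ] (u : Um N m) : T N m ℓ (cls u) = cls (TlU ℓ u) := rfl

theorem coe_galU (σ : GQ) (u : Um N m) : (((galU σ u : Um N m) : (FN N)ˣ) : FN N) =
    gal N σ ((u : (FN N)ˣ) : FN N) := rfl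

theorem coe_TlU (ℓ : ℕ) [NeZero ℓ] (u : Um N m) : (((TlU ℓ u : Um N m) : (FN N)ˣ) : FN N) =
    Tl N ℓ ((u : (FN N)ˣ) : FN N) := rfl

theorem act_comm_T (ℓ : ℕ) [NeZero ℓ] (σ : GQ) :
    act N m σ * T N m ℓ = T N m ℓ * act N m σ := by
  apply end_ext
  intro u
  rw [end_mul_apply, end_mul_apply, T_cls, act_cls, act_cls, T_cls]
  congr 1
  apply Subtype.ext
  apply Units.ext
  exact gal_Tl N ℓ σ _

theorem exists_level_cls (w : Wm N m) : ∃ L : IntermediateField ℚ Qb, FiniteDimensional ℚ L ∧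
    ∀ σ : GQ, (∀ x ∈ L, σ x = x) → act N m σ w = w := by
  obtain ⟨u, rfl⟩ := cls_surjective w
  obtain ⟨L, hL, h⟩ := exists_level ((u : (FN N)ˣ) : FN N)
  refine ⟨L, hL, fun σ hσ => ?_⟩
  rw [act_cls]
  congr 1
  apply Subtype.ext
  apply Units.ext
  exact h σ hσ

/-- a unit of `Um` which is congruent to a constant is an `m`-th power -/
theorem cls_eq_zero_of_cong {ℓ : ℕ} {A : ValuationSubring Kb} (hKL : KLStatement N ℓ A)
    (hm : ¬ ℓ ∣ m) (u : Um N m) (c : Kb) (hc : c ≠ 0)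
    (h : Cong A N (algebraMap Kb (FN N) c * ((u : (FN N)ˣ) : FN N))) : cls u = 0 := by
  obtain ⟨g, hg⟩ := KL_general hKL m hm _ (mem_Um_iff.mp u.2) c hc h
  have hm0 : m ≠ 0 := fun h0 => hm (h0 ▸ dvd_zero ℓ)
  have hg0 : g ≠ 0 := by
    rintro rfl
    rw [zero_pow hm0] at hg
    exact (u : (FN N)ˣ).ne_zero hg.symm
  rw [cls_eq_zero_iff]
  exact ⟨Units.mk0 g hg0, Units.ext hg⟩

/-- **Eichler–Shimura**: `T_ℓ = Frob + ℓ Frob⁻¹` on `Wm` -/
theorem T_eq {ℓ : ℕ} [NeZero ℓ] (hℓ : ℓ.Prime) (hℓN : ¬ ℓ ∣ N) (hm : ¬ ℓ ∣ m)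
    {A : ValuationSubring Kb} (hA : A.LiesOverPrime ℓ) (hKL : KLStatement N ℓ A)
    {τ : GQ} (hτ : A.IsFrobeniusAt τ ℓ) :
    T N m ℓ = act N m τ + (ℓ : AddMonoid.End (Wm N m)) * act N m τ⁻¹ := by
  apply end_ext
  intro u
  rw [end_add_apply, end_mul_apply, AddMonoid.End.natCast_apply, T_cls,
    act_cls, act_cls, ← cls_pow, ← cls_mul, ← sub_eq_zero, sub_eq_add_neg, ← cls_inv, ← cls_mul]
  obtain ⟨c, hc, h⟩ := cong_frob hℓ hℓN hA hτ ((u : (FN N)ˣ) : FN N) (u : (FN N)ˣ).ne_zero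
  refine cls_eq_zero_of_cong hKL hm _ c hc ?_
  convert h using 2
  push_cast
  rw [coe_TlU, mul_inv, mul_assoc]
  rfl

theorem ES1 {ℓ : ℕ} [NeZero ℓ] (hℓ : ℓ.Prime) (hℓN : ¬ ℓ ∣ N) (hm : ¬ ℓ ∣ m)
    {A : ValuationSubring Kb} (hA : A.LiesOverPrime ℓ) (hKL : KLStatement N ℓ A)
    {τ : GQ} (hτ : A.IsFrobeniusAt τ ℓ) :
    act N m τ * act N m τ - T N m ℓ * act N m τ + (ℓ : AddMonoid.End (Wm N m)) = 0 := by
  have h1 : act N m τ⁻¹ * act N m τ = 1 := by rw [← map_mul, inv_mul_cancel, map_one]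
  rw [T_eq hℓ hℓN hm hA hKL hτ, add_mul, mul_assoc, h1, mul_one]
  abel

theorem ES2 {ℓ : ℕ} (hm : ¬ ℓ ∣ m) {A : ValuationSubring Kb} (hKL : KLStatement N ℓ A)
    {σ : GQ} (hσ : σ ∈ A.inertiaSubgroupIn ℚ) : act N m σ = 1 := by
  apply end_ext
  intro u
  rw [end_one_apply, act_cls, ← sub_eq_zero, sub_eq_add_neg, ← cls_inv, ← cls_mul]
  obtain ⟨c, hc, h⟩ := cong_inertia hσ ((u : (FN N)ˣ) : FN N) (u : (FN N)ˣ).ne_zero
  refine cls_eq_zero_of_cong hKL hm _ c hc ?_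
  convert h using 2
  push_cast
  rfl

theorem T_comm {ℓ ℓ' : ℕ} [NeZero ℓ] [NeZero ℓ'] (hℓ : ℓ.Prime) (hℓN : ¬ ℓ ∣ N) (hm : ¬ ℓ ∣ m)
    (hKL : ∀ A : ValuationSubring Kb, A.LiesOverPrime ℓ → KLStatement N ℓ A) :
    T N m ℓ * T N m ℓ' = T N m ℓ' * T N m ℓ := by
  obtain ⟨A, hA⟩ := Frob.exists_liesOverPrime hℓ
  obtain ⟨τ, hτ⟩ := Frob.exists_isFrobeniusAt A hℓ hA
  rw [T_eq hℓ hℓN hm hA (hKL A hA) hτ, add_mul, mul_add, mul_assoc, act_comm_T, act_comm_T,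
    ← mul_assoc, ← mul_assoc, (Nat.cast_commute ℓ (T N m ℓ')).eq]

end Fermat.Agent.ES.Alg
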