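import Fermat.Agent.S24.Interior
import Fermat.Prelude.Def_ModularCurve_HeckeOperator
import Fermat.Prelude.Thm_ModularCurve_coeffMap_qExpand

/-!
# The Atkin–Lehner involution of `F_{Nℓ}`, `ℓ` coprime to `N`   (helper14; keys S37/AL, ES/ALG-W)
-/

set_option autoImplicit false
set_option linter.unusedSectionVars false

open UpperHalfPlane ModularForm WithZero ModularCurve AlgebraicCurve
open IntermediateField Fermat.Agent.S24
open scoped MatrixGroups Manifold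

noncomputable section

namespace Fermat.Agent.ES.AL

/-- composition with a surjective holomorphic self map of `ℍ` is injective on `Hol` -/
theorem holComp_injective (φ : ℍ → ℍ) (hφ : MDiff φ) (hs : Function.Surjective φ) :
    Function.Injective (holComp φ hφ).toRingHom := by
  intro f g h
  ext τ
  obtain ⟨τ', rfl⟩ := hs τ
  exact congrFun (congrArg Subtype.val h) τ'

/-- composition with a surjective holomorphic self map of `ℍ`, on `Mer` -/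
def merComp (φ : ℍ → ℍ) (hφ : MDiff φ) (hs : Function.Surjective φ) : Mer →+* Mer :=
  IsFractionRing.map (holComp_injective φ hφ hs)

theorem merComp_algebraMap (φ : ℍ → ℍ) (hφ : MDiff φ) (hs : Function.Surjective φ) (f : Hol) :
    merComp φ hφ hs (algebraMap Hol Mer f) = algebraMap Hol Mer (holComp φ hφ f) :=
  IsLocalization.map_eq (M := nonZeroDivisors Hol) (T := nonZeroDivisors Hol) (S := Mer) (Q := Mer)
    (nonZeroDivisors_le_comap_nonZeroDivisors_of_injective _ (holComp_injective φ hφ hs)) f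

theorem merComp_const (φ : ℍ → ℍ) (hφ : MDiff φ) (hs : Function.Surjective φ) (c : ℂ) :
    merComp φ hφ hs (algebraMap ℂ Mer c) = algebraMap ℂ Mer c := by
  rw [IsScalarTower.algebraMap_apply ℂ Hol Mer, merComp_algebraMap, AlgHom.commutes]

theorem scaleH_surjective (d : ℕ) [NeZero d] : Function.Surjective (scaleH d) := by
  intro τ
  have hd : (0 : ℝ) < d := by exact_mod_cast Nat.pos_of_ne_zero (NeZero.ne d)
  refine ⟨⟨(τ : ℂ) / d, ?_⟩, ?_⟩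
  · have : ((τ : ℂ) / (d : ℂ)).im = τ.im / d := by
      rw [show ((d : ℂ)) = ((d : ℝ) : ℂ) by simp, Complex.div_ofReal_im]; rfl
    rw [this]; exact div_pos τ.im_pos hd
  · apply UpperHalfPlane.ext
    show (d : ℂ) * ((τ : ℂ) / d) = τ
    have : (d : ℂ) ≠ 0 := by exact_mod_cast NeZero.ne d
    field_simp

/-- the map `τ ↦ γ (ℓ τ)` -/
def phi (γ : SL(2, ℤ)) (ℓ : ℕ) [NeZero ℓ] (τ : ℍ) : ℍ := γ • scaleH ℓ τ

theorem mdiff_phi (γ : SL(2, ℤ)) (ℓ : ℕ) [NeZero ℓ] : MDiff (phi γ ℓ) :=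
  (mdiff_SL_smul γ).comp (mdiff_scaleH ℓ)

theorem phi_surjective (γ : SL(2, ℤ)) (ℓ : ℕ) [NeZero ℓ] : Function.Surjective (phi γ ℓ) := by
  intro τ
  obtain ⟨τ', hτ'⟩ := scaleH_surjective ℓ (γ⁻¹ • τ)
  exact ⟨τ', by rw [phi, hτ', smul_inv_smul]⟩

/-- the key matrix identity, on points -/
theorem scaleH_phi (a b c d : ℤ) (e e' f f' : ℕ) [NeZero e] [NeZero f] [NeZero f']
    [NeZero (f * f')] [NeZero (e * f)] [NeZero (e * f')]
    (γ γ' : SL(2, ℤ))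
    (h00 : γ 0 0 = a) (h01 : γ 0 1 = b) (h10 : γ 1 0 = (e * e' : ℕ) * c)
    (h11 : γ 1 1 = (f * f' : ℕ) * d)
    (k00 : γ' 0 0 = a * f) (k01 : γ' 0 1 = e * b) (k10 : γ' 1 0 = e' * c) (k11 : γ' 1 1 = f' * d)
    (τ : ℍ) :
    scaleH (e * f) (phi γ (f * f') τ) = γ' • scaleH (e * f') τ := by
  apply UpperHalfPlane.ext
  have hden := UpperHalfPlane.denom_ne_zero (γ : GL (Fin 2) ℝ) (scaleH (f * f') τ)
  have hden' := UpperHalfPlane.denom_ne_zero (γ' : GL (Fin 2) ℝ) (scaleH (e * f') τ)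
  rw [coe_scaleH, phi, coe_specialLinearGroup_apply, coe_specialLinearGroup_apply, coe_scaleH,
    coe_scaleH, h00, h01, h10, h11, k00, k01, k10, k11]
  have hf : (f : ℂ) ≠ 0 := by exact_mod_cast NeZero.ne f
  have hf' : (f' : ℂ) ≠ 0 := by exact_mod_cast NeZero.ne f'
  simp only [UpperHalfPlane.denom, coe_scaleH] at hden hden'
  have e1 : ((γ : GL (Fin 2) ℝ) 1 0 : ℝ) = ((γ 1 0 : ℤ) : ℝ) := by simp
  have e2 : ((γ : GL (Fin 2) ℝ) 1 1 : ℝ) = ((γ 1 1 : ℤ) : ℝ) := by simp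
  have e3 : ((γ' : GL (Fin 2) ℝ) 1 0 : ℝ) = ((γ' 1 0 : ℤ) : ℝ) := by simp
  have e4 : ((γ' : GL (Fin 2) ℝ) 1 1 : ℝ) = ((γ' 1 1 : ℤ) : ℝ) := by simp
  rw [e1, e2, h10, h11] at hden
  rw [e3, e4, k10, k11] at hden'
  push_cast at hden hden' ⊢
  simp only [algebraMap_int_eq, eq_intCast] 
  push_cast
  rw [mul_div_assoc', div_eq_div_iff hden hden']
  ring

theorem jF_congr (N : ℕ) {d d' : ℕ} [NeZero d] [NeZero d'] (h : d = d') (hd : d ∣ N)
    (hd' : d' ∣ N) : jF N d hd = jF N d' hd' := by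
  subst h
  rfl

/-- Bezout data for the Atkin–Lehner matrix -/
structure Data (N ℓ : ℕ) where
  a : ℤ
  b : ℤ
  c : ℤ
  d : ℤ
  det : a * (ℓ * d) - b * (N * c) = 1

theorem exists_data (N ℓ : ℕ) (h : Nat.Coprime ℓ N) : Nonempty (Data N ℓ) := by
  have h1 : IsCoprime (ℓ : ℤ) (N : ℤ) := Nat.isCoprime_iff_coprime.mpr h
  obtain ⟨x, y, hxy⟩ := h1
  exact ⟨⟨1, -1, y, x, by linarith⟩⟩

namespace Data

variable {N ℓ : ℕ} (D : Data N ℓ)

/-- the matrix `γ₀ ∈ Γ₀(N)` -/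
def gam : SL(2, ℤ) := ⟨!![D.a, D.b; N * D.c, ℓ * D.d], by
  rw [Matrix.det_fin_two_of]; exact D.det⟩

/-- the auxiliary matrices -/
def gam' (e e' f f' : ℕ) (he : e * e' = N) (hf : f * f' = ℓ) : SL(2, ℤ) :=
  ⟨!![D.a * f, e * D.b; e' * D.c, f' * D.d], by
    rw [Matrix.det_fin_two_of]
    have := D.det
    have h1 : (N : ℤ) = e * e' := by rw [← he]; push_cast; ring
    have h2 : (ℓ : ℤ) = f * f' := by rw [← hf]; push_cast; ring
    rw [h1, h2] at this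
    linarith⟩

theorem holComp_jHd [NeZero ℓ] (e e' f f' : ℕ) (he : e * e' = N) (hf : f * f' = ℓ)
    [NeZero (e * f)] [NeZero (e * f')] :
    holComp (phi D.gam ℓ) (mdiff_phi D.gam ℓ) (jHd (e * f)) = jHd (e * f') := by
  subst he hf
  have : NeZero e := ⟨fun h => NeZero.ne (e * f) (by rw [h, zero_mul])⟩
  have : NeZero f := ⟨fun h => NeZero.ne (e * f) (by rw [h, mul_zero])⟩
  have : NeZero f' := ⟨fun h => NeZero.ne (e * f') (by rw [h, mul_zero])⟩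
  ext τ
  show JFun.jFun (scaleH (e * f) (phi D.gam (f * f') τ)) = JFun.jFun (scaleH (e * f') τ)
  rw [scaleH_phi D.a D.b D.c D.d e e' f f' D.gam (D.gam' e e' f f' rfl rfl) rfl rfl rfl rfl
    rfl rfl rfl rfl τ, JFun.jFun_smul]

variable [NeZero N] [NeZero ℓ]

/-- composition with `τ ↦ γ₀ (ℓ τ)` on `Mer` -/
def comp : Mer →+* Mer := merComp (phi D.gam ℓ) (mdiff_phi D.gam ℓ) (phi_surjective D.gam ℓ)

theorem comp_iota_jF (e e' f f' : ℕ) (he : e * e' = N) (hf : f * f' = ℓ)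
    [NeZero (e * f)] [NeZero (e * f')] (h1 : e * f ∣ N * ℓ) (h2 : e * f' ∣ N * ℓ) :
    D.comp (iota (N * ℓ) (jF (N * ℓ) (e * f) h1)) = iota (N * ℓ) (jF (N * ℓ) (e * f') h2) := by
  rw [iota_jF, iota_jF, comp, merComp_algebraMap, D.holComp_jHd e e' f f' he hf]

theorem comp_iota_mem (θ : FN (N * ℓ)) : D.comp (iota (N * ℓ) θ) ∈ (iota (N * ℓ)).fieldRange := by
  have hθ : θ ∈ IntermediateField.adjoin Kb
      {x : FN (N * ℓ) | ∃ (d : ℕ) (_ : NeZero d) (hd : d ∣ N * ℓ), x = jF (N * ℓ) d hd} := by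
    rw [adjoin_jF]; trivial
  induction hθ using IntermediateField.adjoin_induction with
  | mem x hx =>
    obtain ⟨d, hd0, hd, rfl⟩ := hx
    obtain ⟨e, f, ⟨e', he⟩, ⟨f', hf⟩, rfl⟩ := (Nat.dvd_mul).mp hd
    have hN0 := NeZero.ne N
    have hℓ0 := NeZero.ne ℓ
    have : NeZero (e * f') := ⟨by
      intro h
      rcases Nat.mul_eq_zero.mp h with h | h
      · apply hN0; rw [he, h, zero_mul]
      · apply hℓ0; rw [hf, h, mul_zero]⟩
    have h2 : e * f' ∣ N * ℓ := mul_dvd_mul ⟨e', he⟩ ⟨f, by rw [hf, mul_comm]⟩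
    rw [D.comp_iota_jF e e' f f' he.symm hf.symm hd h2]
    exact RingHom.mem_fieldRange.mpr ⟨_, rfl⟩
  | algebraMap a =>
    rw [iota_algebraMap, comp, merComp_const, ← iota_algebraMap (N * ℓ)]
    exact RingHom.mem_fieldRange.mpr ⟨_, rfl⟩
  | add x y _ _ hx hy =>
    rw [RingHom.map_add (iota (N * ℓ)), RingHom.map_add D.comp]; exact add_mem hx hy
  | inv x _ hx => rw [map_inv₀ (iota (N * ℓ)), map_inv₀ D.comp]; exact inv_mem hx
  | mul x y _ _ hx hy =>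
    rw [RingHom.map_mul (iota (N * ℓ)), RingHom.map_mul D.comp]; exact mul_mem hx hy

/-- the Atkin–Lehner endomorphism, as a ring homomorphism -/
def wHom : FN (N * ℓ) →+* FN (N * ℓ) :=
  ((iota (N * ℓ)).rangeRestrictFieldEquiv.symm : (iota (N * ℓ)).fieldRange →+* FN (N * ℓ)).comp
    ((D.comp.comp (iota (N * ℓ))).codRestrict (iota (N * ℓ)).fieldRange D.comp_iota_mem)

theorem iota_wHom (θ : FN (N * ℓ)) : iota (N * ℓ) (D.wHom θ) = D.comp (iota (N * ℓ) θ) :=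
  RingHom.rangeRestrictFieldEquiv_apply_symm_apply (iota (N * ℓ))
    ⟨D.comp (iota (N * ℓ) θ), D.comp_iota_mem θ⟩

theorem wHom_algebraMap (a : Kb) :
    D.wHom (algebraMap Kb (FN (N * ℓ)) a) = algebraMap Kb (FN (N * ℓ)) a := by
  apply (iota (N * ℓ)).injective
  rw [iota_wHom, iota_algebraMap, comp, merComp_const]

theorem wHom_jF (e e' f f' : ℕ) (he : e * e' = N) (hf : f * f' = ℓ)
    [NeZero (e * f)] [NeZero (e * f')] (h1 : e * f ∣ N * ℓ) (h2 : e * f' ∣ N * ℓ) :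
    D.wHom (jF (N * ℓ) (e * f) h1) = jF (N * ℓ) (e * f') h2 := by
  apply (iota (N * ℓ)).injective
  rw [iota_wHom, D.comp_iota_jF e e' f f' he hf h1 h2]

/-- the Atkin–Lehner endomorphism, as an algebra homomorphism -/
def wAlg : FN (N * ℓ) →ₐ[Kb] FN (N * ℓ) :=
  { D.wHom with commutes' := D.wHom_algebraMap }

theorem wAlg_apply (θ : FN (N * ℓ)) : D.wAlg θ = D.wHom θ := rfl

theorem wHom_wHom (θ : FN (N * ℓ)) : D.wHom (D.wHom θ) = θ := by
  have hθ : θ ∈ IntermediateField.adjoin Kb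
      {x : FN (N * ℓ) | ∃ (d : ℕ) (_ : NeZero d) (hd : d ∣ N * ℓ), x = jF (N * ℓ) d hd} := by
    rw [adjoin_jF]; trivial
  induction hθ using IntermediateField.adjoin_induction with
  | mem x hx =>
    obtain ⟨d, hd0, hd, rfl⟩ := hx
    obtain ⟨e, f, ⟨e', he⟩, ⟨f', hf⟩, rfl⟩ := (Nat.dvd_mul).mp hd
    have hN0 := NeZero.ne N
    have hℓ0 := NeZero.ne ℓ
    have : NeZero (e * f') := ⟨by
      intro h
      rcases Nat.mul_eq_zero.mp h with h | h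
      · apply hN0; rw [he, h, zero_mul]
      · apply hℓ0; rw [hf, h, mul_zero]⟩
    have h2 : e * f' ∣ N * ℓ := mul_dvd_mul ⟨e', he⟩ ⟨f, by rw [hf, mul_comm]⟩
    rw [D.wHom_jF e e' f f' he.symm hf.symm hd h2,
      D.wHom_jF e e' f' f he.symm (by rw [hf, mul_comm]) h2 hd]
  | algebraMap a => rw [wHom_algebraMap, wHom_algebraMap]
  | add x y _ _ hx hy => rw [map_add, map_add, hx, hy]
  | inv x _ hx => rw [map_inv₀, map_inv₀, hx]
  | mul x y _ _ hx hy => rw [map_mul, map_mul, hx, hy]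

/-- the Atkin–Lehner involution -/
def W : FN (N * ℓ) ≃ₐ[Kb] FN (N * ℓ) :=
  AlgEquiv.ofAlgHom D.wAlg D.wAlg (AlgHom.ext D.wHom_wHom) (AlgHom.ext D.wHom_wHom)

theorem W_apply (θ : FN (N * ℓ)) : D.W θ = D.wHom θ := rfl

theorem alpha_jF (e : ℕ) [NeZero e] (he : e ∣ N) (h1 : e ∣ N * ℓ) :
    heckeAlphaBar Kb N ℓ (jF N e he) = jF (N * ℓ) e h1 := rfl

theorem beta_jF (e : ℕ) [NeZero e] [NeZero (e * ℓ)] (he : e ∣ N) (h1 : e * ℓ ∣ N * ℓ) :
    heckeBetaBar Kb N ℓ (jF N e he) = jF (N * ℓ) (e * ℓ) h1 := by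
  apply Subtype.ext
  show qExpand Kb ℓ (coeffEmb Kb (qExpand ℚ e jq)) = coeffEmb Kb (qExpand ℚ (e * ℓ) jq)
  have : NeZero (ℓ * e) := ⟨by rw [mul_comm]; exact NeZero.ne _⟩
  have h : ∀ (n m : ℕ) [NeZero n] [NeZero m], n = m → qExpand ℚ n jq = qExpand ℚ m jq := by
    intro n m _ _ hnm
    subst hnm
    rfl
  rw [h (e * ℓ) (ℓ * e) (mul_comm e ℓ), ← qExpand_qExpand]
  exact (coeffMap_qExpand _ ℓ _).symm

theorem wHom_alpha_beta (u : FN N) :
    D.wHom (heckeAlphaBar Kb N ℓ u) = heckeBetaBar Kb N ℓ u ∧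
      D.wHom (heckeBetaBar Kb N ℓ u) = heckeAlphaBar Kb N ℓ u := by
  have hu : u ∈ IntermediateField.adjoin Kb
      {x : FN N | ∃ (d : ℕ) (_ : NeZero d) (hd : d ∣ N), x = jF N d hd} := by
    rw [adjoin_jF]; trivial
  induction hu using IntermediateField.adjoin_induction with
  | mem x hx =>
    obtain ⟨e, he0, ⟨e', he⟩, rfl⟩ := hx
    have : NeZero (e * ℓ) := ⟨mul_ne_zero (NeZero.ne e) (NeZero.ne ℓ)⟩
    have : NeZero (e * 1) := ⟨by rw [mul_one]; exact NeZero.ne e⟩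
    have h1 : e ∣ N * ℓ := Dvd.dvd.mul_right ⟨e', he⟩ ℓ
    have h1' : e * 1 ∣ N * ℓ := by rw [mul_one]; exact h1
    have h2 : e * ℓ ∣ N * ℓ := mul_dvd_mul_right ⟨e', he⟩ ℓ
    rw [alpha_jF e _ h1, beta_jF e _ h2, jF_congr (N * ℓ) (mul_one e).symm h1 h1']
    exact ⟨D.wHom_jF e e' 1 ℓ he.symm (one_mul ℓ) h1' h2,
      D.wHom_jF e e' ℓ 1 he.symm (mul_one ℓ) h2 h1'⟩
  | algebraMap a =>
    rw [AlgHom.commutes, AlgHom.commutes, wHom_algebraMap]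
    exact ⟨rfl, rfl⟩
  | add x y _ _ hx hy =>
    rw [map_add (heckeAlphaBar Kb N ℓ), map_add (heckeBetaBar Kb N ℓ), RingHom.map_add,
      RingHom.map_add, hx.1, hx.2, hy.1, hy.2]
    exact ⟨rfl, rfl⟩
  | inv x _ hx =>
    rw [map_inv₀ (heckeAlphaBar Kb N ℓ), map_inv₀ (heckeBetaBar Kb N ℓ), map_inv₀ D.wHom,
      map_inv₀ D.wHom, hx.1, hx.2]
    exact ⟨rfl, rfl⟩
  | mul x y _ _ hx hy =>
    rw [map_mul (heckeAlphaBar Kb N ℓ), map_mul (heckeBetaBar Kb N ℓ), RingHom.map_mul,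
      RingHom.map_mul, hx.1, hx.2, hy.1, hy.2]
    exact ⟨rfl, rfl⟩

end Data

end Fermat.Agent.ES.AL

namespace Fermat.Agent.ES

open AL in
/-- **Atkin–Lehner**: for `ℓ` coprime to `N` there is an involution `W` of `F_{Nℓ}` over `ℚ̄`
exchanging the two degeneracy maps; analytically it is `f ↦ f ∘ (τ ↦ γ (ℓ τ))`, for some `γ ∈ SL(2,ℤ)`
with lower left entry divisible by `N` and lower right entry divisible by `ℓ`. -/
theorem exists_atkinLehner (N ℓ : ℕ) [NeZero N] [NeZero ℓ] (h : Nat.Coprime ℓ N) :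
    ∃ W : FN (N * ℓ) ≃ₐ[Kb] FN (N * ℓ),
      (∀ f : FN N, W (heckeAlphaBar Kb N ℓ f) = heckeBetaBar Kb N ℓ f) ∧
      (∀ f : FN N, W (heckeBetaBar Kb N ℓ f) = heckeAlphaBar Kb N ℓ f) ∧
      (∀ x, W (W x) = x) ∧
      ∃ γ : SL(2, ℤ), (N : ℤ) ∣ γ 1 0 ∧ (ℓ : ℤ) ∣ γ 1 1 ∧ ∀ x, iota (N * ℓ) (W x) =
        merComp (phi γ ℓ) (mdiff_phi γ ℓ) (phi_surjective γ ℓ) (iota (N * ℓ) x) := by
  obtain ⟨D⟩ := exists_data N ℓ h
  exact ⟨D.W, fun f => (D.wHom_alpha_beta f).1, fun f => (D.wHom_alpha_beta f).2, D.wHom_wHom,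
    D.gam, ⟨D.c, rfl⟩, ⟨D.d, rfl⟩, D.iota_wHom⟩

end Fermat.Agent.ES
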