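import Fermat.Agent.ES.AlgDefs
import Fermat.Agent.ES.AtkinLehner

/-!
# ES/ALG-W : the Atkin–Lehner symmetry of `F_{Nℓ}` exchanging the two degeneracy maps

`ℓ` coprime to `N`.  There is a ring endomorphism `w` of `F' = FN (N * ℓ)` with `w ∘ α = β`,
`w ∘ β = α` (`α = heckeAlphaBar` the inclusion, `β = heckeBetaBar` : `q ↦ q ^ ℓ`).

Proof.  Choose `a b c d : ℤ` with `a ℓ d - b N c = 1` (Bezout), `γ₀ = [[a, b], [N c, ℓ d]] ∈ Γ₀(N)`.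
Let `Vℓ : Mer →+* Mer` be induced by `holComp (scaleH ℓ)` (injective on `Hol`), and
`C := Vℓ ∘ merAct γ₀⁻¹` i.e. `f ↦ (z ↦ f (γ₀ (ℓ z)))`.  On the generators:
* `C (jHd e) = jHd (e ℓ)` for `e ∣ N` (`holAct_jHd`: `γ₀ ∈ Γ₀(N)`),
* `C (jHd (e ℓ)) = jHd e` for `e ∣ N` : `e ℓ γ₀(ℓ z) = γ₁ (e z)`, `γ₁ = [[ℓ a, e b], [(N/e) c, d]] ∈ SL₂(ℤ)`,
* `C` fixes the constants.
So `{θ : F' | C (iota θ) ∈ range iota}` is a subfield containing `ℚ̄` and the generators `jF (Nℓ) e'`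
(`e' ∣ N ℓ` is `e` or `e ℓ`, `e ∣ N`), hence everything (`S24.adjoin_jF`, `S24.mem_of_FN`);
`w := iota⁻¹ ∘ C ∘ iota`.  The two identities hold on `ℚ̄` and on the generators `jF N e` of `FN N`.
-/

set_option autoImplicit false

open HahnSeries ModularCurve AlgebraicCurve Fermat.Agent.S24

noncomputable section

namespace Fermat.Agent.ES.Alg

theorem exists_w (N ℓ : ℕ) [NeZero N] [NeZero ℓ] (h : Nat.Coprime ℓ N) :
    ∃ w : FN (N * ℓ) →+* FN (N * ℓ),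
      (∀ u : FN N, w (heckeAlphaBar Kb N ℓ u) = heckeBetaBar Kb N ℓ u) ∧
      (∀ u : FN N, w (heckeBetaBar Kb N ℓ u) = heckeAlphaBar Kb N ℓ u) := by
  obtain ⟨W, h1, h2, -⟩ := Fermat.Agent.ES.exists_atkinLehner N ℓ h
  exact ⟨(W : FN (N * ℓ) →+* FN (N * ℓ)), h1, h2⟩

end Fermat.Agent.ES.Alg
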