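import Fermat.Agent.ES.AlgSeries
import Fermat.Agent.ES.AlgW
import Fermat.Agent.ES.AlgDeg
import Fermat.Agent.S24.Embed

/-!
# ES/ALG-N : the `q`-expansion of `Tl u`

`(Tl u)(x ^ ℓ) = u(x ^ (ℓ ^ 2)) * ∏_{j < ℓ} u(ζ ^ j x)`.
The `ℓ + 1` embeddings of `F_{Nℓ}` into `ℚ̄((x))` over `F_N` (embedded by `q ↦ x ^ ℓ`) are
`q ↦ x ^ ℓ` and `(x ↦ ζ ^ j x) ∘ w`, `w` the Atkin–Lehner symmetry.
-/

set_option autoImplicit false
set_option synthInstance.maxHeartbeats 400000

open HahnSeries ModularCurve AlgebraicCurve Fermat.Agent.S24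

noncomputable section

namespace Fermat.Agent.ES.Alg

variable (N ℓ : ℕ) [NeZero N] [NeZero ℓ]

/-- the inclusion of the function field in the field of Laurent series -/
def inc (M : ℕ) : FN M →+* LaurentSeries Kb := (modularFunctionFieldBar M).val.toRingHom

theorem inc_apply (M : ℕ) (x : FN M) : inc M x = (x : LaurentSeries Kb) := rfl

theorem coeff_jN_neg_one : (jN N : LaurentSeries Kb).coeff (-1) = 1 := by
  show (coeffEmb Kb (qExpand ℚ 1 jq)).coeff (-1) = 1
  rw [qExpand_one_apply, coeffEmb_coeff, coeff_jq_neg_one, map_one]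

theorem qExpand_Tl (hℓ : ℓ.Prime) (hℓN : ¬ ℓ ∣ N) (ζ : Kbˣ) (hζ : IsPrimitiveRoot ζ ℓ) (u : FN N) :
    qExpand Kb ℓ (Tl N ℓ u : LaurentSeries Kb) =
      qExpand Kb ℓ (qExpand Kb ℓ (u : LaurentSeries Kb)) *
        ∏ j ∈ Finset.range ℓ, twist (ζ ^ j) (u : LaurentSeries Kb) := by
  obtain ⟨w, hwα, hwβ⟩ := exists_w N ℓ ((Nat.Prime.coprime_iff_not_dvd hℓ).mpr hℓN)
  letI := algebraAlong (heckeAlphaBar Kb N ℓ)
  haveI : FiniteDimensional (FN N) (FN (N * ℓ)) := finite_alpha N ℓ
  haveI : Algebra.IsSeparable (FN N) (FN (N * ℓ)) := inferInstance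
  let σ : Option (Fin ℓ) → FN (N * ℓ) →+* LaurentSeries Kb := fun o =>
    match o with
    | none => (qExpand Kb ℓ).comp (inc (N * ℓ))
    | some j => (twist (ζ ^ (j : ℕ))).comp ((inc (N * ℓ)).comp w)
  have hnone : ∀ x, σ none x = qExpand Kb ℓ (x : LaurentSeries Kb) := fun _ => rfl
  have hsome : ∀ (j : Fin ℓ) x, σ (some j) x = twist (ζ ^ (j : ℕ)) (w x : LaurentSeries Kb) :=
    fun _ _ => rfl
  have hα : ∀ (o : Option (Fin ℓ)) (a : FN N),
      σ o (heckeAlphaBar Kb N ℓ a) = qExpand Kb ℓ (a : LaurentSeries Kb) := by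
    intro o a
    cases o with
    | none => rw [hnone, coe_heckeAlphaBar]
    | some j =>
      rw [hsome, hwα, coe_heckeBetaBar]
      exact twist_qExpand ℓ _ (by rw [← pow_mul, mul_comm, pow_mul, hζ.pow_eq_one, one_pow]) _
  have hβ : ∀ (j : Fin ℓ) (a : FN N),
      σ (some j) (heckeBetaBar Kb N ℓ a) = twist (ζ ^ (j : ℕ)) (a : LaurentSeries Kb) := by
    intro j a
    rw [hsome, hwβ, coe_heckeAlphaBar]
  have hinj : Function.Injective σ := by
    have hl1 : ¬ (ℓ : ℤ) ∣ -1 := by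
      intro hd
      have := Int.natAbs_dvd_natAbs.mpr hd
      simp at this
      exact hℓ.one_lt.ne' this
    have c0 : (σ none (heckeBetaBar Kb N ℓ (jN N))).coeff (-1) = 0 := by
      rw [hnone]
      exact qExpand_coeff_of_not_dvd ℓ _ hl1
    have c1 : ∀ j : Fin ℓ, (σ (some j) (heckeBetaBar Kb N ℓ (jN N))).coeff (-1) =
        (((ζ ^ (j : ℕ)) ^ (-1 : ℤ) : Kbˣ) : Kb) := by
      intro j
      rw [hβ, twist_coeff, coeff_jN_neg_one, mul_one]
    intro o o' h
    have h' := congrArg (fun f : FN (N * ℓ) →+* LaurentSeries Kb =>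
      (f (heckeBetaBar Kb N ℓ (jN N))).coeff (-1)) h
    cases o with
    | none =>
      cases o' with
      | none => rfl
      | some j =>
        rw [c0, c1] at h'
        exact absurd h'.symm (Units.ne_zero _)
    | some i =>
      cases o' with
      | none =>
        rw [c0, c1] at h'
        exact absurd h' (Units.ne_zero _)
      | some j =>
        rw [c1, c1] at h'
        have h2 : ζ ^ (i : ℕ) = ζ ^ (j : ℕ) := by
          have := Units.ext h'
          simpa using this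
        have := hζ.pow_inj i.2 j.2 h2
        rw [Fin.ext this]
  have hcard : Fintype.card (Option (Fin ℓ)) = Module.finrank (FN N) (FN (N * ℓ)) := by
    rw [Fintype.card_option, Fintype.card_fin]
    exact (finrank_alpha N ℓ hℓ hℓN).symm
  have key := norm_eq_prod_of_card (E := FN N) (F := FN (N * ℓ)) σ hinj hcard
    (fun i j a => by
      show σ i (heckeAlphaBar Kb N ℓ a) = σ j (heckeAlphaBar Kb N ℓ a)
      rw [hα, hα]) none (heckeBetaBar Kb N ℓ u)
  have e1 : σ none (algebraMap (FN N) (FN (N * ℓ))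
      (Algebra.norm (FN N) (heckeBetaBar Kb N ℓ u))) =
      qExpand Kb ℓ (Tl N ℓ u : LaurentSeries Kb) := hα none _
  rw [← e1, key, Fintype.prod_option, hnone, coe_heckeBetaBar]
  congr 1
  rw [Finset.prod_range]
  exact Finset.prod_congr rfl fun j _ => hβ j u

end Fermat.Agent.ES.Alg
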