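import Fermat.Agent.ES.AlgDefs
import Fermat.Prelude.Thm_ModularCurve_coeffMap_qExpand

/-!
# ES/ALG-S : formal facts on Laurent series (Mathlib + Prelude only)

* `twist c` (`q ↦ c q`) commutes with `coeffMap`, fixes `qExpand ℓ x` when `c ^ ℓ = 1`.
* in characteristic `ℓ`: `x ^ ℓ = qExpand ℓ (coeffMap frobenius x)`.
  Proof: both sides are ring homomorphisms `Φ₁ Φ₂` of `x`; they agree on `single n a`; write
  `x = (finite sum of singles) + single M 1 * z`, `z` of order `≥ 0` (e.g. `z` = image of a power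
  series); `Φᵢ (single M 1 * z) = single (ℓ M) 1 * Φᵢ z` has no coefficient below `ℓ M`; so the
  coefficients of index `< ℓ M` agree, for every `M`.
-/

set_option autoImplicit false

open HahnSeries ModularCurve

noncomputable section

namespace Fermat.Agent.ES.Alg

variable {R S : Type*} [CommRing R] [CommRing S]

theorem coeffMap_twist (f : R →+* S) (c : Rˣ) (x : LaurentSeries R) :
    coeffMap f (twist c x) = twist (Units.map (f : R →* S) c) (coeffMap f x) := by
  ext n
  rw [coeffMap_coeff, twist_coeff, twist_coeff, coeffMap_coeff, map_mul, ← map_zpow]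
  rfl

theorem twist_one (x : LaurentSeries R) : twist (1 : Rˣ) x = x := by
  ext n
  rw [twist_coeff, one_zpow, Units.val_one, one_mul]

theorem twist_mul (c d : Rˣ) (x : LaurentSeries R) : twist (c * d) x = twist c (twist d x) := by
  ext n
  rw [twist_coeff, twist_coeff, twist_coeff, mul_zpow, Units.val_mul, mul_assoc]

theorem twist_qExpand (ℓ : ℕ) [NeZero ℓ] (c : Rˣ) (hc : c ^ ℓ = 1) (x : LaurentSeries R) :
    twist c (qExpand R ℓ x) = qExpand R ℓ x := by
  ext n
  rw [twist_coeff]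
  by_cases hn : (ℓ : ℤ) ∣ n
  · obtain ⟨m, rfl⟩ := hn
    rw [zpow_mul, zpow_natCast, hc, one_zpow, Units.val_one, one_mul]
  · rw [qExpand_coeff_of_not_dvd ℓ x hn, mul_zero]

theorem twist_injective (c : Rˣ) : Function.Injective (twist c) := by
  intro x y h
  ext n
  have h1 := congrArg (fun z : LaurentSeries R => z.coeff n) h
  simp only [twist_coeff] at h1
  exact (Units.mul_right_inj _).mp h1

namespace SeriesAux

theorem coeff_ofPS_nat (p : PowerSeries R) (n : ℕ) :
    (HahnSeries.ofPowerSeries ℤ R p).coeff (n : ℤ) = PowerSeries.coeff n p := by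
  simp

theorem coeff_ofPS_neg (p : PowerSeries R) {k : ℤ} (hk : k < 0) :
    (HahnSeries.ofPowerSeries ℤ R p).coeff k = 0 := by
  rw [HahnSeries.ofPowerSeries_apply]
  apply HahnSeries.embDomain_of_notMem_range
  rintro ⟨n, hn⟩
  simp at hn
  omega

theorem qExpand_coeffMap_ofPS (ℓ : ℕ) [NeZero ℓ] (f : R →+* S) (p : PowerSeries R) :
    qExpand S ℓ (coeffMap f (HahnSeries.ofPowerSeries ℤ R p)) =
      HahnSeries.ofPowerSeries ℤ S (PowerSeries.map f (PowerSeries.expand ℓ (NeZero.ne ℓ) p)) := by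
  have hℓ : (0 : ℤ) < ℓ := by exact_mod_cast Nat.pos_of_ne_zero (NeZero.ne ℓ)
  ext k
  by_cases hk : (ℓ : ℤ) ∣ k
  · obtain ⟨m, rfl⟩ := hk
    rw [qExpand_coeff_mul, coeffMap_coeff]
    rcases lt_or_ge m 0 with hm | hm
    · rw [coeff_ofPS_neg p hm, map_zero, coeff_ofPS_neg _ (mul_neg_of_pos_of_neg hℓ hm)]
    · obtain ⟨n, rfl⟩ := Int.eq_ofNat_of_zero_le hm
      rw [coeff_ofPS_nat, show (ℓ : ℤ) * (n : ℤ) = ((ℓ * n : ℕ) : ℤ) by push_cast; ring,
        coeff_ofPS_nat, PowerSeries.coeff_map, PowerSeries.coeff_expand_mul]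
  · rw [qExpand_coeff_of_not_dvd ℓ _ hk]
    rcases lt_or_ge k 0 with hm | hm
    · rw [coeff_ofPS_neg _ hm]
    · obtain ⟨n, rfl⟩ := Int.eq_ofNat_of_zero_le hm
      rw [coeff_ofPS_nat, PowerSeries.coeff_map, PowerSeries.coeff_expand_of_not_dvd, map_zero]
      intro h
      exact hk (by exact_mod_cast h)

theorem powerSeries_pow_char (ℓ : ℕ) [hℓ : Fact ℓ.Prime] [CharP R ℓ] (p : PowerSeries R) :
    PowerSeries.map (frobenius R ℓ) (PowerSeries.expand ℓ hℓ.out.ne_zero p) = p ^ ℓ :=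
  MvPowerSeries.map_frobenius_expand ℓ hℓ.out.ne_zero

end SeriesAux

/-- Frobenius on Laurent series in characteristic `ℓ` -/
theorem pow_char_eq_qExpand (ℓ : ℕ) [hℓ : Fact ℓ.Prime] [CharP R ℓ] (x : LaurentSeries R) :
    haveI : NeZero ℓ := ⟨hℓ.out.ne_zero⟩
    x ^ ℓ = qExpand R ℓ (coeffMap (frobenius R ℓ) x) := by
  have : NeZero ℓ := ⟨hℓ.out.ne_zero⟩
  conv_rhs => rw [← LaurentSeries.single_order_mul_powerSeriesPart x]
  conv_lhs => rw [← LaurentSeries.single_order_mul_powerSeriesPart x]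
  rw [map_mul, map_mul, coeffMap_single, qExpand_single, map_one (frobenius R ℓ), mul_pow,
    HahnSeries.single_pow, one_pow, nsmul_eq_mul]
  congr 1
  have h := SeriesAux.qExpand_coeffMap_ofPS ℓ (frobenius R ℓ) x.powerSeriesPart
  rw [SeriesAux.powerSeries_pow_char, map_pow] at h
  exact h.symm

end Fermat.Agent.ES.Alg
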