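import Fermat.Agent.ES.SplitDens

/-!
# Places with a given decomposition group in a cyclic extension of number fields
-/

set_option autoImplicit false

namespace Fermat.Agent.ES

open IsDedekindDomain NumberField Filter Topology Pointwise
open Fermat.Agent.S14 Fermat.Agent.S14.Dens Fermat.Agent.S14.KDaux

section Group

variable {G : Type*} [Group G] [Finite G] [IsCyclic G]

omit [Finite G] in
theorem cyc_mul_comm (a b : G) : a * b = b * a := (IsCyclic.commGroup (α := G)).mul_comm a b

omit [Finite G] in
theorem cyc_normal (N : Subgroup G) : N.Normal :=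
  ⟨fun n hn g ↦ by rw [cyc_mul_comm g n, mul_assoc, mul_inv_cancel, mul_one]; exact hn⟩

theorem cyc_le_of_card_dvd {D N : Subgroup G} (h : Nat.card D ∣ Nat.card N) : D ≤ N := by
  classical
  have := Fintype.ofFinite G
  set m := Nat.card N with hm
  have hm0 : 0 < m := Nat.card_pos
  have h1 := IsCyclic.card_pow_eq_one_le (α := G) hm0
  have hsub : (Finset.univ.filter fun x : G ↦ x ∈ N) ⊆ Finset.univ.filter fun x : G ↦ x ^ m = 1 := by
    intro x hx
    simp only [Finset.mem_filter, Finset.mem_univ, true_and] at hx ⊢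
    have := pow_card_eq_one' (G := N) (x := ⟨x, hx⟩)
    exact congrArg Subtype.val this
  have hcard : (Finset.univ.filter fun x : G ↦ x ∈ N).card = m := by
    rw [hm, Nat.card_eq_fintype_card, Fintype.card_subtype]
  have heq := Finset.eq_of_subset_of_card_le hsub (by rw [hcard]; exact h1)
  intro x hx
  have hx1 : x ^ m = 1 := by
    obtain ⟨c, hc⟩ := h
    have := pow_card_eq_one' (G := D) (x := ⟨x, hx⟩)
    have h2 : x ^ Nat.card D = 1 := congrArg Subtype.val this
    rw [hc, pow_mul, h2, one_pow]
  have : x ∈ Finset.univ.filter fun x : G ↦ x ∈ N := by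
    rw [heq]; simp [hx1]
  simpa using this

theorem cyc_le_iff_card_dvd {D N : Subgroup G} : D ≤ N ↔ Nat.card D ∣ Nat.card N :=
  ⟨Subgroup.card_dvd_of_le, cyc_le_of_card_dvd⟩

theorem cyc_exists_card {m : ℕ} (hm : m ∣ Nat.card G) : ∃ N : Subgroup G, Nat.card N = m := by
  obtain ⟨g, hg⟩ := IsCyclic.exists_generator (α := G)
  have hn : orderOf g = Nat.card G := orderOf_eq_card_of_forall_mem_zpowers hg
  have hn0 : 0 < Nat.card G := Nat.card_pos
  obtain ⟨c, hc⟩ := hm
  have hc0 : c ≠ 0 := by
    rintro rfl
    simp at hc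
    omega
  refine ⟨Subgroup.zpowers (g ^ c), ?_⟩
  rw [Nat.card_zpowers, orderOf_pow_of_dvd hc0 (by rw [hn, hc]; exact dvd_mul_left _ _), hn, hc]
  exact Nat.mul_div_cancel _ (Nat.pos_of_ne_zero hc0)

end Group

section Count

variable {K L : Type*} [Field K] [NumberField K] [Field L] [NumberField L] [Algebra K L]

theorem ncard_fiber_eq_index (G : Type*) [Group G] [Finite G] [MulSemiringAction G (𝓞 L)]
    [IsGaloisGroup G (𝓞 K) (𝓞 L)] (w : Pl L) :
    {w' : Pl L | below w' = below (K := K) w}.ncard
      = (MulAction.stabilizer G w.asIdeal).index := by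
  rw [ncard_fiber, MulAction.index_stabilizer,
    Algebra.IsInvariant.orbit_eq_primesOver (𝓞 K) (𝓞 L) G (below (K := K) w).asIdeal w.asIdeal]

theorem below_below {M : Type*} [Field M] [NumberField M] [Algebra K M] [Algebra M L]
    [IsScalarTower K M L] (w : Pl L) :
    below (K := K) (below (K := M) w) = below (K := K) w := by
  apply HeightOneSpectrum.ext
  show (w.asIdeal.comap (algebraMap (𝓞 M) (𝓞 L))).comap (algebraMap (𝓞 K) (𝓞 M))
    = w.asIdeal.comap (algebraMap (𝓞 K) (𝓞 L))
  rw [Ideal.comap_comap, ← IsScalarTower.algebraMap_eq]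

variable (G : Type*) [Group G] [Finite G] [MulSemiringAction G L] [IsGaloisGroup G K L]

omit [NumberField L] [Finite G] in
theorem stabilizer_subgroup (N : Subgroup G) (P : Ideal (𝓞 L)) :
    MulAction.stabilizer N P = (MulAction.stabilizer G P).subgroupOf N := by
  simp [Subgroup.ext_iff, Subgroup.mem_subgroupOf]

omit [NumberField K] [NumberField L] in
theorem finrank_fixed (N : Subgroup G) [N.Normal] :
    Module.finrank K (FixedPoints.intermediateField N : IntermediateField K L) = N.index := by
  rw [← IsGaloisGroup.card_eq_finrank (G ⧸ N) K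
    (FixedPoints.intermediateField N : IntermediateField K L)]
  rfl

omit [NumberField K] [NumberField L] in
theorem isGalois_fixed (N : Subgroup G) [N.Normal] :
    IsGalois K (FixedPoints.intermediateField N : IntermediateField K L) :=
  IsGaloisGroup.isGalois (G ⧸ N) K _

/-- a place splits completely in the fixed field of `N` iff its decomposition group is
contained in `N` -/
theorem isSplit_fixed_iff (N : Subgroup G) [N.Normal] (w : Pl L) :
    IsSplit (FixedPoints.intermediateField N : IntermediateField K L) (below (K := K) w) ↔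
      MulAction.stabilizer G w.asIdeal ≤ N := by
  set M := (FixedPoints.intermediateField N : IntermediateField K L) with hM
  have hN : IsGaloisGroup N (𝓞 M) (𝓞 L) := IsGaloisGroup.of_isFractionRing N (𝓞 M) (𝓞 L) M L
  set D := MulAction.stabilizer G w.asIdeal with hD
  have huv : below (K := K) (below (K := M) w) = below (K := K) w := below_below w
  have h1 : {w' : Pl L | below w' = below (K := K) w}.ncard = D.index :=
    ncard_fiber_eq_index G w
  have h2 : {w' : Pl L | below w' = below (K := M) w}.ncard = D.relIndex N := by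
    rw [ncard_fiber_eq_index N w]
    exact congrArg Subgroup.index (stabilizer_subgroup G N w.asIdeal)
  have h3 : {u : Pl M | below u = below (K := K) w}.ncard
      * {w' : Pl L | below w' = below (K := M) w}.ncard
      = {w' : Pl L | below w' = below (K := K) w}.ncard := by
    have : (below (K := M) w).asIdeal.LiesOver (below (K := K) w).asIdeal :=
      (below_eq_iff _ _).mp huv
    rw [ncard_fiber, ncard_fiber, ncard_fiber]
    exact Ideal.ncard_primesOver_mul_ncard_primesOver (p := (below (K := K) w).asIdeal)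
      (below (K := M) w).asIdeal (G ⧸ N) (𝓞 L) G
  have h4 : Module.finrank K M = N.index := finrank_fixed G N
  have hr : D.relIndex N ≠ 0 := Subgroup.index_ne_zero_of_finite
  unfold IsSplit
  rw [h4]
  rw [h1, h2] at h3
  constructor
  · intro h
    rw [h] at h3
    have h5 := Subgroup.relIndex_mul_index (inf_le_right : D ⊓ N ≤ N)
    rw [Subgroup.inf_relIndex_right, mul_comm, h3] at h5
    have h6 := Subgroup.card_mul_index D
    have h7 := Subgroup.card_mul_index (D ⊓ N)
    rw [← h5, ← h6] at h7
    have h8 : Nat.card (D ⊓ N : Subgroup G) = Nat.card D :=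
      Nat.eq_of_mul_eq_mul_right (Nat.pos_of_ne_zero Subgroup.index_ne_zero_of_finite) h7
    have h9 : D ⊓ N = D := Subgroup.eq_of_le_of_card_ge inf_le_left h8.ge
    exact h9 ▸ inf_le_right
  · intro h
    have h5 := Subgroup.relIndex_mul_index h
    rw [← h3, mul_comm] at h5
    exact (Nat.eq_of_mul_eq_mul_right (Nat.pos_of_ne_zero hr) h5).symm

end Count

section Cyclic

variable {K : Type*} [Field K] [NumberField K]

/-- places of `K` with exactly `n / f` places of `L` above them
(i.e. whose decomposition group has order `f` if `L/K` is Galois of degree `n`) -/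
def decSet (L : Type*) [Field L] [NumberField L] [Algebra K L] (n f : ℕ) : Set (Pl K) :=
  {v | {w : Pl L | below w = v}.ncard * f = n}

variable {L : Type*} [Field L] [NumberField L] [Algebra K L]
  (G : Type*) [Group G] [Finite G] [MulSemiringAction G L] [IsGaloisGroup G K L]

theorem mem_decSet_iff (w : Pl L) (f : ℕ) :
    below (K := K) w ∈ decSet L (Nat.card G) f ↔
      f = Nat.card (MulAction.stabilizer G w.asIdeal) := by
  unfold decSet
  rw [Set.mem_ofPred_eq, ncard_fiber_eq_index G w,
    ← Subgroup.card_mul_index (MulAction.stabilizer G w.asIdeal), mul_comm]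
  constructor
  · intro h
    exact Nat.eq_of_mul_eq_mul_right (Nat.pos_of_ne_zero Subgroup.index_ne_zero_of_finite) h
  · rintro rfl
    rfl

variable [IsCyclic G]

theorem DS_split_eq_sum (N : Subgroup G) [N.Normal] {s : ℝ} (hs : 1 < s) :
    DS {v : Pl K | IsSplit (FixedPoints.intermediateField N : IntermediateField K L) v} s
      = ∑ f ∈ (Nat.card N).divisors, DS (decSet (K := K) L (Nat.card G) f) s := by
  classical
  unfold DS
  rw [← Summable.tsum_finsetSum fun f _ ↦ summable_ind hs _]
  congr 1
  funext v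
  obtain ⟨w, rfl⟩ := fiber_nonempty (Z := L) v
  have hm0 : Nat.card N ≠ 0 := Nat.card_pos.ne'
  by_cases h : Nat.card (MulAction.stabilizer G w.asIdeal) ∣ Nat.card N
  · rw [Set.indicator_of_mem (show below (K := K) w ∈ {v : Pl K | IsSplit _ v} from
      (isSplit_fixed_iff G N w).mpr (cyc_le_of_card_dvd h)),
      Finset.sum_eq_single (Nat.card (MulAction.stabilizer G w.asIdeal))]
    · rw [Set.indicator_of_mem ((mem_decSet_iff G w _).mpr rfl)]
    · intro f _ hf
      exact Set.indicator_of_notMem (fun hh ↦ hf ((mem_decSet_iff G w f).mp hh)) _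
    · intro hh
      exact absurd (Nat.mem_divisors.mpr ⟨h, hm0⟩) hh
  · rw [Set.indicator_of_notMem (show below (K := K) w ∉ {v : Pl K | IsSplit _ v} from
      fun hh ↦ h (Subgroup.card_dvd_of_le ((isSplit_fixed_iff G N w).mp hh)))]
    symm
    refine Finset.sum_eq_zero fun f hf ↦ Set.indicator_of_notMem (fun hh ↦ h ?_) _
    rw [← (mem_decSet_iff G w f).mp hh]
    exact (Nat.mem_divisors.mp hf).1

/-- **Frobenius density** for a cyclic extension:
`n ∑_{v : |D_v| = f} Nv^{-s} = φ(f) log (1/(s-1)) + O(1)`. -/
theorem bdd_decSet (f : ℕ) (hf : f ∣ Nat.card G) :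
    Bdd (fun s ↦ (Nat.card G : ℝ) * DS (decSet (K := K) L (Nat.card G) f) s
      - (Nat.totient f : ℝ) * Lam s) := by
  induction f using Nat.strong_induction_on with
  | _ m ih =>
    obtain ⟨N, hN⟩ := cyc_exists_card hf
    have := cyc_normal N
    have := isGalois_fixed (K := K) (L := L) G N
    have hm0 : m ≠ 0 := by
      rw [← hN]; exact Nat.card_pos.ne'
    have h1 := (bdd_split_sub_Lam (K := K)
      (Z := (FixedPoints.intermediateField N : IntermediateField K L))).const_mul (m : ℝ)
    rw [finrank_fixed G N] at h1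
    have h3 : Bdd (fun s ↦ ∑ f ∈ m.properDivisors,
        ((Nat.card G : ℝ) * DS (decSet (K := K) L (Nat.card G) f) s
          - (Nat.totient f : ℝ) * Lam s)) :=
      Bdd.sum _ fun f hf' ↦ ih f (Nat.mem_properDivisors.mp hf').2
        ((Nat.mem_properDivisors.mp hf').1.trans hf)
    refine (h1.sub h3).congr' fun s hs ↦ ?_
    have h4 : (m : ℝ) * (N.index : ℝ) = (Nat.card G : ℝ) := by
      rw [← hN]; exact_mod_cast Subgroup.card_mul_index N
    have h5 : (m : ℝ) = ∑ f ∈ m.divisors, (Nat.totient f : ℝ) := by
      exact_mod_cast (Nat.sum_totient m).symm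
    rw [DS_split_eq_sum G N hs, hN, mul_sub, ← mul_assoc, h4, Finset.sum_sub_distrib,
      ← Finset.mul_sum, ← Finset.sum_mul]
    conv_lhs => rw [h5]
    rw [← Nat.insert_self_properDivisors hm0,
      Finset.sum_insert Nat.self_notMem_properDivisors,
      Finset.sum_insert Nat.self_notMem_properDivisors]
    ring

include G in
/-- the places of `K` with a unique place of `L` above them have an unbounded Dirichlet series -/
theorem not_bdd_inert : ¬ Bdd (DS {v : Pl K | {w : Pl L | below w = v}.ncard = 1}) := by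
  intro h
  have hn0 : 0 < Nat.card G := Nat.card_pos
  have h1 := bdd_decSet (K := K) (L := L) G (Nat.card G) dvd_rfl
  have h2 : decSet (K := K) L (Nat.card G) (Nat.card G)
      = {v : Pl K | {w : Pl L | below w = v}.ncard = 1} := by
    ext v
    unfold decSet
    simp only [Set.mem_ofPred_eq]
    constructor
    · intro hh
      exact Nat.eq_of_mul_eq_mul_right hn0 (by rw [hh, one_mul])
    · intro hh
      rw [hh, one_mul]
  rw [h2] at h1
  have h3 : Bdd (fun s ↦ (Nat.totient (Nat.card G) : ℝ) * Lam s) :=
    ((h.const_mul (Nat.card G : ℝ)).sub h1).congr' fun s _ ↦ by ring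
  exact not_bdd_Lam (h3.of_const_mul (by exact_mod_cast (Nat.totient_pos.mpr hn0).ne'))

end Cyclic

section Pick

variable {K : Type*} [Field K] [NumberField K]

theorem bdd_DS_mono {A B : Set (Pl K)} (h : A ⊆ B) (hB : Bdd (DS B)) : Bdd (DS A) := by
  rw [bdd_iff] at hB ⊢
  obtain ⟨C, hC⟩ := hB
  refine ⟨C, ?_⟩
  filter_upwards [hC, self_mem_nhdsWithin] with s hs hs1
  rw [abs_of_nonneg (DS_nonneg _ _)] at hs ⊢
  exact (DS_mono hs1 h).trans hs

theorem bdd_DS_union {A B : Set (Pl K)} (hA : Bdd (DS A)) (hB : Bdd (DS B)) :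
    Bdd (DS (A ∪ B)) := by
  have h := hA.add hB
  rw [bdd_iff] at h ⊢
  obtain ⟨C, hC⟩ := h
  refine ⟨C, ?_⟩
  filter_upwards [hC, self_mem_nhdsWithin] with s hs hs1
  have hs1' : 1 < s := hs1
  rw [abs_of_nonneg (add_nonneg (DS_nonneg _ _) (DS_nonneg _ _))] at hs
  rw [abs_of_nonneg (DS_nonneg _ _)]
  refine le_trans ?_ hs
  unfold DS
  rw [← (summable_ind hs1' A).tsum_add (summable_ind hs1' B)]
  refine (summable_ind hs1' _).tsum_le_tsum (fun v ↦ ?_)
    ((summable_ind hs1' A).add (summable_ind hs1' B))
  have h0 := wt_nonneg s v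
  by_cases hA' : v ∈ A <;> by_cases hB' : v ∈ B <;>
    simp [Set.indicator, hA', hB', h0]

theorem exists_mem_notMem {X Y : Set (Pl K)} (hX : ¬ Bdd (DS X)) (hY : Bdd (DS Y)) :
    ∃ v ∈ X, v ∉ Y := by
  by_contra h
  push Not at h
  exact hX (bdd_DS_mono h hY)

end Pick

end Fermat.Agent.ES
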