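import Mathlib

/-!
# ES cluster: the extraction lemma

If every `ρ g` kills a quadratic polynomial `X² - t X + χ g` (`χ` a character), then there is a
two-dimensional representation `ρ'` with `det ρ' = χ` such that `ρ' g` has characteristic polynomial
`X² - t X + χ g` whenever `ρ g` kills that polynomial.
-/

set_option autoImplicit false

open Polynomial Module

namespace Fermat.Agent.ES

namespace ExtractAux

section Rel

variable {k : Type*} [Field k] {G : Type*} [Group G] {W : Type*} [AddCommGroup W] [Module k W]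

/-- the quadratic relation `x² - t x + c = 0` -/
def QRel (x : Module.End k W) (t c : k) : Prop := x * x - t • x + c • (1 : Module.End k W) = 0

theorem QRel.pow {x : Module.End k W} {t c : k} (h : QRel x t c) (b : ℕ) :
    ∃ t' : k, QRel (x ^ b) t' (c ^ b) := by
  unfold QRel at h
  set y : Module.End k W := t • 1 - x with hy
  have hxy : x * y = c • 1 := by
    rw [hy, mul_sub, mul_smul_comm, mul_one]
    linear_combination (norm := module) (-1 : k) • h
  have hcomm : Commute x y := by
    rw [hy]
    exact ((Commute.one_right x).smul_right t).sub_right (Commute.refl x)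
  have hsum : x + y = t • 1 := by rw [hy]; abel
  -- `x^b + y^b` is a scalar
  have key : ∀ b : ℕ, (∃ s : k, x ^ b + y ^ b = s • 1) ∧ (∃ s : k, x ^ (b + 1) + y ^ (b + 1) = s • 1) := by
    intro b
    induction b with
    | zero => exact ⟨⟨2, by simp [two_smul]⟩, ⟨t, by simpa using hsum⟩⟩
    | succ n ih =>
      obtain ⟨⟨s₀, h0⟩, ⟨s₁, h1⟩⟩ := ih
      refine ⟨⟨s₁, h1⟩, ⟨s₁ * t - c * s₀, ?_⟩⟩
      have e : x ^ (n + 1 + 1) + y ^ (n + 1 + 1)
          = (x ^ (n + 1) + y ^ (n + 1)) * (x + y) - (x * y) * (x ^ n + y ^ n) := by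
        have c1 : y ^ (n + 1) * x = (x * y) * y ^ n := by
          rw [pow_succ', mul_assoc, ← (hcomm.pow_right n).eq, ← mul_assoc, hcomm.eq]
        have c2 : x ^ (n + 1) * y = (x * y) * x ^ n := by
          rw [pow_succ', mul_assoc, (hcomm.pow_left n).eq, ← mul_assoc]
        rw [add_mul, mul_add, mul_add, mul_add, c1, c2, pow_succ x (n + 1), pow_succ y (n + 1)]
        abel
      rw [e, h0, h1, hsum, hxy]
      simp only [mul_smul_comm, mul_one, smul_smul, sub_smul]
      rw [mul_comm s₀ c, mul_comm t s₁]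
  obtain ⟨s, hs⟩ := (key b).1
  refine ⟨s, ?_⟩
  unfold QRel
  have h1 : x ^ b * y ^ b = c ^ b • 1 := by
    rw [← hcomm.mul_pow, hxy, _root_.smul_pow, one_pow]
  have h2 : x ^ b * (x ^ b + y ^ b) = s • x ^ b := by rw [hs, mul_smul_comm, mul_one]
  rw [mul_add, h1] at h2
  rw [← h2]; abel

variable (ρ : G →* Module.End k W) (χ : G →* kˣ) (t : G → k)

theorem pair_rel (h : ∀ g, QRel (ρ g) (t g) (χ g : k)) (g₁ g₂ : G) :
    ρ g₁ * ρ g₂ + ρ g₂ * ρ g₁ - t g₂ • ρ g₁ - t g₁ • ρ g₂
      = (t (g₁ * g₂) - t g₁ * t g₂) • (1 : Module.End k W) := by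
  set a := ρ g₁ with ha
  set b := ρ g₂ with hb
  have h1 : a * a - t g₁ • a + (χ g₁ : k) • (1 : Module.End k W) = 0 := h g₁
  have h2 : b * b - t g₂ • b + (χ g₂ : k) • (1 : Module.End k W) = 0 := h g₂
  have h3 : (a * b) * (a * b) - t (g₁ * g₂) • (a * b)
      + ((χ g₁ : k) * (χ g₂ : k)) • (1 : Module.End k W) = 0 := by
    have := h (g₁ * g₂)
    unfold QRel at this
    rw [map_mul, map_mul] at this
    simpa using this
  -- `a * (t₁ - a) = χ₁`, etc.
  have e1 : a * (t g₁ • 1 - a) = (χ g₁ : k) • (1 : Module.End k W) := by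
    have : a * (t g₁ • 1 - a) = - (a * a - t g₁ • a) := by
      rw [mul_sub, mul_smul_comm, mul_one]; abel
    rw [this]
    linear_combination (norm := module) (-1 : k) • h1
  have e2 : b * (t g₂ • 1 - b) = (χ g₂ : k) • (1 : Module.End k W) := by
    have : b * (t g₂ • 1 - b) = - (b * b - t g₂ • b) := by
      rw [mul_sub, mul_smul_comm, mul_one]; abel
    rw [this]
    linear_combination (norm := module) (-1 : k) • h2
  have e3 : (a * b) * (t (g₁ * g₂) • 1 - a * b)
      = ((χ g₁ : k) * (χ g₂ : k)) • (1 : Module.End k W) := by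
    have : (a * b) * (t (g₁ * g₂) • 1 - a * b)
        = - ((a * b) * (a * b) - t (g₁ * g₂) • (a * b)) := by
      rw [mul_sub, mul_smul_comm, mul_one]; abel
    rw [this]
    linear_combination (norm := module) (-1 : k) • h3
  have e4 : (a * b) * ((t g₂ • 1 - b) * (t g₁ • 1 - a))
      = ((χ g₁ : k) * (χ g₂ : k)) • (1 : Module.End k W) := by
    calc (a * b) * ((t g₂ • 1 - b) * (t g₁ • 1 - a))
        = a * (b * (t g₂ • 1 - b)) * (t g₁ • 1 - a) := by simp only [mul_assoc]
      _ = (χ g₂ : k) • (a * (t g₁ • 1 - a)) := by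
          rw [e2, mul_smul_comm, mul_one, smul_mul_assoc]
      _ = _ := by rw [e1, smul_smul, mul_comm]
  -- cancel `a * b`
  have hinv : ρ (g₁ * g₂)⁻¹ * (a * b) = 1 := by
    rw [ha, hb, ← map_mul, ← map_mul, inv_mul_cancel, map_one]
  have e5 : t (g₁ * g₂) • (1 : Module.End k W) - a * b = (t g₂ • 1 - b) * (t g₁ • 1 - a) := by
    have := congrArg (fun x => ρ (g₁ * g₂)⁻¹ * x) (e3.trans e4.symm)
    simpa only [← mul_assoc, hinv, one_mul] using this
  have e6 : (t g₂ • (1 : Module.End k W) - b) * (t g₁ • 1 - a)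
      = (t g₁ * t g₂) • 1 - t g₂ • a - t g₁ • b + b * a := by
    rw [sub_mul, mul_sub, mul_sub, smul_mul_assoc, smul_mul_assoc, one_mul, one_mul,
      mul_smul_comm, mul_one, smul_smul, mul_comm (t g₂)]
    abel
  rw [e6] at e5
  rw [sub_smul]
  linear_combination (norm := module) (-1 : k) • e5

/-- the span of the pairs `(ρ g, t g)` -/
def pairSpan : Submodule k (Module.End k W × k) :=
  Submodule.span k (Set.range fun g : G => (ρ g, t g))

theorem pairSpan_bilin (h : ∀ g, QRel (ρ g) (t g) (χ g : k))
    (p q : Module.End k W × k) (hp : p ∈ pairSpan ρ t) (hq : q ∈ pairSpan ρ t) :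
    ∃ c : k, p.1 * q.1 + q.1 * p.1 - q.2 • p.1 - p.2 • q.1 = c • (1 : Module.End k W) := by
  unfold pairSpan at hp hq
  induction hp using Submodule.span_induction with
  | mem x hx =>
    obtain ⟨g₁, rfl⟩ := hx
    induction hq using Submodule.span_induction with
    | mem y hy =>
      obtain ⟨g₂, rfl⟩ := hy
      exact ⟨_, pair_rel ρ χ t h g₁ g₂⟩
    | zero => exact ⟨0, by simp⟩
    | add y z _ _ hy hz =>
      obtain ⟨c, hc⟩ := hy
      obtain ⟨d, hd⟩ := hz
      refine ⟨c + d, ?_⟩
      rw [add_smul, ← hc, ← hd]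
      simp only [Prod.fst_add, Prod.snd_add, mul_add, add_mul, add_smul, smul_add]
      abel
    | smul a y _ hy =>
      obtain ⟨c, hc⟩ := hy
      refine ⟨a * c, ?_⟩
      rw [mul_smul, ← hc]
      simp only [Prod.smul_fst, Prod.smul_snd, mul_smul_comm, smul_mul_assoc, smul_sub, smul_add,
        smul_eq_mul, mul_smul, smul_comm a]
  | zero => exact ⟨0, by simp⟩
  | add y z _ _ hy hz =>
    obtain ⟨c, hc⟩ := hy
    obtain ⟨d, hd⟩ := hz
    refine ⟨c + d, ?_⟩
    rw [add_smul, ← hc, ← hd]
    simp only [Prod.fst_add, Prod.snd_add, mul_add, add_mul, add_smul, smul_add]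
    abel
  | smul a y _ hy =>
    obtain ⟨c, hc⟩ := hy
    refine ⟨a * c, ?_⟩
    rw [mul_smul, ← hc]
    simp only [Prod.smul_fst, Prod.smul_snd, mul_smul_comm, smul_mul_assoc, smul_sub, smul_add,
      smul_eq_mul, mul_smul, smul_comm a]

theorem pairSpan_quad (h : ∀ g, QRel (ρ g) (t g) (χ g : k))
    (p : Module.End k W × k) (hp : p ∈ pairSpan ρ t) :
    ∃ c : k, p.1 * p.1 - p.2 • p.1 = c • (1 : Module.End k W) := by
  have hp' := hp
  unfold pairSpan at hp'
  induction hp' using Submodule.span_induction with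
  | mem x hx =>
    obtain ⟨g, rfl⟩ := hx
    refine ⟨-(χ g : k), ?_⟩
    have := h g
    unfold QRel at this
    simp only
    linear_combination (norm := module) this
  | zero => exact ⟨0, by simp⟩
  | add y z hy' hz' hy hz =>
    obtain ⟨c, hc⟩ := hy hy'
    obtain ⟨d, hd⟩ := hz hz'
    obtain ⟨e, he⟩ := pairSpan_bilin ρ χ t h y z hy' hz'
    refine ⟨c + d + e, ?_⟩
    rw [add_smul, add_smul, ← hc, ← hd, ← he]
    simp only [Prod.fst_add, Prod.snd_add, mul_add, add_mul, add_smul, smul_add]
    abel
  | smul a y hy' hy =>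
    obtain ⟨c, hc⟩ := hy hy'
    refine ⟨a * a * c, ?_⟩
    rw [mul_smul, mul_smul, ← hc]
    simp only [Prod.smul_fst, Prod.smul_snd, mul_smul_comm, smul_mul_assoc, smul_eq_mul]
    module

theorem span_quad (h : ∀ g, QRel (ρ g) (t g) (χ g : k))
    (x : Module.End k W) (hx : x ∈ Submodule.span k (Set.range ρ)) :
    ∃ s c : k, x * x = s • x + c • (1 : Module.End k W) := by
  have h1 : Submodule.span k (Set.range ρ)
      = (pairSpan ρ t).map (LinearMap.fst k (Module.End k W) k) := by
    unfold pairSpan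
    rw [Submodule.map_span, ← Set.range_comp]
    rfl
  rw [h1] at hx
  obtain ⟨p, hp, rfl⟩ := hx
  obtain ⟨c, hc⟩ := pairSpan_quad ρ χ t h p hp
  refine ⟨p.2, c, ?_⟩
  simp only [LinearMap.fst_apply]
  rw [← hc]; abel

end Rel
section Dens

variable {k : Type*} [Field k] {G : Type*} [Group G] {W : Type*} [AddCommGroup W] [Module k W]

/-- irreducibility -/
def Irr (ρ : G →* Module.End k W) : Prop :=
  Nontrivial W ∧ ∀ U : Submodule k W, (∀ g, ∀ x ∈ U, ρ g x ∈ U) → U = ⊥ ∨ U = ⊤

theorem adjoin_eq_span (ρ : G →* Module.End k W) :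
    Subalgebra.toSubmodule (Algebra.adjoin k (Set.range ρ)) = Submodule.span k (Set.range ρ) := by
  rw [Algebra.adjoin_eq_span]
  congr 1
  have : Set.range ρ = (MonoidHom.mrange ρ : Set (Module.End k W)) := (MonoidHom.coe_mrange ρ).symm
  rw [this, Submonoid.closure_eq]

theorem density [IsAlgClosed k] [FiniteDimensional k W] (ρ : G →* Module.End k W) (hirr : Irr ρ)
    (f : Module.End k W) (s : Finset W) :
    ∃ x ∈ Submodule.span k (Set.range ρ), ∀ m ∈ s, f m = x m := by
  set R := Algebra.adjoin k (Set.range ρ) with hR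
  have hnt : Nontrivial W := hirr.1
  have hsimple : IsSimpleModule R W := by
    rw [isSimpleModule_iff]
    refine { exists_pair_ne := ⟨⊥, ⊤, ?_⟩, eq_bot_or_eq_top := ?_ }
    · exact bot_ne_top
    · intro U
      rcases hirr.2 (U.restrictScalars k) (fun g x hx => by
        have : (⟨ρ g, Algebra.subset_adjoin ⟨g, rfl⟩⟩ : R) • x ∈ U := U.smul_mem _ hx
        exact this) with h | h
      · left
        rw [Submodule.restrictScalars_eq_bot_iff] at h
        exact h
      · right
        rw [Submodule.restrictScalars_eq_top_iff] at h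
        exact h
  have hschur := (IsSimpleModule.algebraMap_end_bijective_of_isAlgClosed (A := R) (V := W) k).2
  let F : Module.End (Module.End R W) W :=
    { toFun := f
      map_add' := fun x y => map_add f x y
      map_smul' := fun φ m => by
        obtain ⟨c, rfl⟩ := hschur φ
        simp }
  obtain ⟨r, hr⟩ := jacobson_density F s
  refine ⟨(r : Module.End k W), ?_, fun m hm => hr m hm⟩
  rw [← adjoin_eq_span]
  exact r.2

end Dens

section Dim

variable {k : Type*} [Field k] {G : Type*} [Group G] {W : Type*} [AddCommGroup W] [Module k W]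

theorem finrank_le_two [IsAlgClosed k] [FiniteDimensional k W] (ρ : G →* Module.End k W)
    (χ : G →* kˣ) (t : G → k) (h : ∀ g, QRel (ρ g) (t g) (χ g : k)) (hirr : Irr ρ) :
    Module.finrank k W ≤ 2 := by
  by_contra hn
  push Not at hn
  let b := Module.finBasis k W
  let i0 : Fin (Module.finrank k W) := ⟨0, by omega⟩
  let i1 : Fin (Module.finrank k W) := ⟨1, by omega⟩
  let i2 : Fin (Module.finrank k W) := ⟨2, by omega⟩
  have h01 : i0 ≠ i1 := by simp [i0, i1, Fin.ext_iff]
  have h02 : i0 ≠ i2 := by simp [i0, i2, Fin.ext_iff]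
  have h12 : i1 ≠ i2 := by simp [i1, i2, Fin.ext_iff]
  let f : Module.End k W := b.constr k (fun i => if i = i0 then b i1 else if i = i1 then b i2 else 0)
  have hf0 : f (b i0) = b i1 := by
    simp only [f]; rw [Basis.constr_basis, if_pos rfl]
  have hf1 : f (b i1) = b i2 := by
    simp only [f]; rw [Basis.constr_basis, if_neg h01.symm, if_pos rfl]
  classical
  obtain ⟨x, hx, hxs⟩ := density ρ hirr f {b i0, b i1}
  have hx0 : x (b i0) = b i1 := by rw [← hxs _ (by simp), hf0]
  have hx1 : x (b i1) = b i2 := by rw [← hxs _ (by simp), hf1]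
  obtain ⟨s, c, hsc⟩ := span_quad ρ χ t h x hx
  have h3 := congrArg (fun y : Module.End k W => y (b i0)) hsc
  simp only [Module.End.mul_apply, LinearMap.add_apply, LinearMap.smul_apply, Module.End.one_apply,
    hx0, hx1] at h3
  have h4 := congrArg (fun w => b.repr w i2) h3
  simp [h12, h02] at h4

/-- the characteristic polynomial in dimension two -/
theorem charpoly_eq [FiniteDimensional k W] (h2 : Module.finrank k W = 2) (x : Module.End k W) :
    x.charpoly = X ^ 2 + C (x.charpoly.coeff 1) * X + C (LinearMap.det x) := by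
  have hdeg : x.charpoly.natDegree = 2 := by rw [LinearMap.charpoly_natDegree, h2]
  have h1 := eq_quadratic_of_degree_le_two (p := x.charpoly)
    (by rw [Polynomial.degree_eq_natDegree x.charpoly_monic.ne_zero, hdeg]; rfl)
  have h3 : x.charpoly.coeff 2 = 1 := by
    have := x.charpoly_monic.coeff_natDegree
    rwa [hdeg] at this
  have h4 : LinearMap.det x = x.charpoly.coeff 0 := by
    rw [LinearMap.det_eq_sign_charpoly_coeff, h2]; simp
  rw [h4]
  conv_lhs => rw [h1, h3]
  simp

theorem cayley [FiniteDimensional k W] (h2 : Module.finrank k W = 2) (x : Module.End k W) :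
    x * x + (x.charpoly.coeff 1) • x + (LinearMap.det x) • (1 : Module.End k W) = 0 := by
  have := x.aeval_self_charpoly
  rw [charpoly_eq h2 x] at this
  simpa [pow_two, Algebra.smul_def] using this

theorem charpoly_of_det [FiniteDimensional k W] (h2 : Module.finrank k W = 2) (x : Module.End k W)
    (hx : x ≠ 0) {t c : k} (hdet : LinearMap.det x = c) (h : QRel x t c) :
    x.charpoly = X ^ 2 - C t * X + C c := by
  have h1 := cayley h2 x
  rw [hdet] at h1
  unfold QRel at h
  have h3 : (x.charpoly.coeff 1 + t) • x = 0 := by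
    linear_combination (norm := module) h1 - h
  have h4 : x.charpoly.coeff 1 = -t := by
    rcases smul_eq_zero.mp h3 with h5 | h5
    · linear_combination h5
    · exact absurd h5 hx
  rw [charpoly_eq h2 x, h4, hdet]
  simp [sub_eq_add_neg]

theorem det_of_nonscalar [FiniteDimensional k W] (h2 : Module.finrank k W = 2) (x : Module.End k W)
    (hx : ∀ a : k, x ≠ a • 1) {t c : k} (h : QRel x t c) : LinearMap.det x = c := by
  have hnt : Nontrivial W := Module.nontrivial_of_finrank_pos (R := k) (by omega)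
  have h1 := cayley h2 x
  unfold QRel at h
  have h3 : (x.charpoly.coeff 1 + t) • x + (LinearMap.det x - c) • (1 : Module.End k W) = 0 := by
    linear_combination (norm := module) h1 - h
  by_cases h4 : x.charpoly.coeff 1 + t = 0
  · rw [h4, zero_smul, zero_add] at h3
    rcases smul_eq_zero.mp h3 with h5 | h5
    · linear_combination h5
    · exact absurd h5 one_ne_zero
  · exfalso
    apply hx (-(x.charpoly.coeff 1 + t)⁻¹ * (LinearMap.det x - c))
    have h5 : x = (x.charpoly.coeff 1 + t)⁻¹ • ((x.charpoly.coeff 1 + t) • x) := by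
      rw [smul_smul, inv_mul_cancel₀ h4, one_smul]
    calc x = (x.charpoly.coeff 1 + t)⁻¹ • ((x.charpoly.coeff 1 + t) • x) := h5
      _ = _ := by
        rw [eq_neg_of_add_eq_zero_left h3, smul_neg, smul_smul, neg_mul, neg_smul]

theorem exists_nonscalar [FiniteDimensional k W] (h2 : Module.finrank k W = 2)
    (ρ : G →* Module.End k W) (hirr : Irr ρ) : ∃ g, ∀ a : k, ρ g ≠ a • 1 := by
  by_contra hcon
  push Not at hcon
  have hnt : Nontrivial W := hirr.1
  obtain ⟨v, hv⟩ := exists_ne (0 : W)
  rcases hirr.2 (Submodule.span k {v}) (fun g x hx => by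
    obtain ⟨a, ha⟩ := hcon g
    rw [ha]
    exact Submodule.smul_mem _ _ hx) with h | h
  · rw [Submodule.span_singleton_eq_bot] at h
    exact hv h
  · have := finrank_span_singleton (K := k) hv
    rw [h, finrank_top, h2] at this
    omega

theorem det_eq_chi [FiniteDimensional k W] (h2 : Module.finrank k W = 2)
    (ρ : G →* Module.End k W) (χ : G →* kˣ) (t : G → k) (h : ∀ g, QRel (ρ g) (t g) (χ g : k))
    (hirr : Irr ρ) (g : G) : LinearMap.det (ρ g) = χ g := by
  by_cases hg : ∀ a : k, ρ g ≠ a • 1
  · exact det_of_nonscalar h2 _ hg (h g)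
  · push Not at hg
    obtain ⟨a, ha⟩ := hg
    obtain ⟨g', hg'⟩ := exists_nonscalar h2 ρ hirr
    have ha0 : a ≠ 0 := by
      rintro rfl
      have h1 : ρ g * ρ g⁻¹ = 1 := by rw [← map_mul, mul_inv_cancel, map_one]
      rw [ha, zero_smul, zero_mul] at h1
      have hnt : Nontrivial W := hirr.1
      exact zero_ne_one h1
    have h1 : ∀ b : k, ρ (g * g') ≠ b • 1 := by
      intro b hb
      rw [map_mul, ha, smul_mul_assoc, one_mul] at hb
      apply hg' (a⁻¹ * b)
      rw [mul_smul, ← hb, smul_smul, inv_mul_cancel₀ ha0, one_smul]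
    have h3 := det_of_nonscalar h2 _ h1 (h (g * g'))
    have h4 := det_of_nonscalar h2 _ hg' (h g')
    rw [map_mul, map_mul, h4, map_mul, Units.val_mul] at h3
    exact mul_right_cancel₀ (χ g').ne_zero h3

theorem scalar_of_finrank_one [FiniteDimensional k W] (h1 : Module.finrank k W = 1)
    (x : Module.End k W) : x = LinearMap.det x • 1 := by
  obtain ⟨v, hv0, hv⟩ := finrank_eq_one_iff'.mp h1
  obtain ⟨c, hc⟩ := hv (x v)
  have hx : x = c • 1 := by
    ext w
    obtain ⟨d, rfl⟩ := hv w
    rw [map_smul, ← hc, LinearMap.smul_apply, Module.End.one_apply, smul_comm]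
  have : LinearMap.det x = c := by
    rw [hx, LinearMap.det_smul, h1, map_one]; simp
  rw [this]; exact hx

end Dim

section Sub

variable {k : Type*} [Field k] {G : Type*} [Group G] {V : Type*} [AddCommGroup V] [Module k V]

/-- restriction of a representation to an invariant subspace -/
def resRep (ρ : G →* Module.End k V) (W : Submodule k V) (hW : ∀ g, ∀ x ∈ W, ρ g x ∈ W) :
    G →* Module.End k W where
  toFun g := (ρ g).restrict (hW g)
  map_one' := by
    ext x
    simp
  map_mul' g₁ g₂ := by
    ext x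
    simp

@[simp] theorem coe_resRep_apply (ρ : G →* Module.End k V) (W : Submodule k V)
    (hW : ∀ g, ∀ x ∈ W, ρ g x ∈ W) (g : G) (x : W) : ((resRep ρ W hW g x : W) : V) = ρ g x := rfl

theorem QRel.resRep {ρ : G →* Module.End k V} {W : Submodule k V}
    {hW : ∀ g, ∀ x ∈ W, ρ g x ∈ W} {g : G} {t c : k} (h : QRel (ρ g) t c) :
    QRel (ExtractAux.resRep ρ W hW g) t c := by
  unfold QRel at h ⊢
  ext x
  have := congrArg (fun y : Module.End k V => y (x : V)) h
  simpa using this

theorem exists_irr [FiniteDimensional k V] [Nontrivial V] (ρ : G →* Module.End k V) :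
    ∃ (W : Submodule k V) (hW : ∀ g, ∀ x ∈ W, ρ g x ∈ W), Irr (resRep ρ W hW) := by
  classical
  let P : ℕ → Prop := fun n => ∃ W : Submodule k V, (∀ g, ∀ x ∈ W, ρ g x ∈ W) ∧ W ≠ ⊥ ∧
    Module.finrank k W = n
  have hP : ∃ n, P n := ⟨_, ⊤, fun _ _ _ => trivial, top_ne_bot, rfl⟩
  obtain ⟨W, hW, hne, hfin⟩ := Nat.find_spec hP
  refine ⟨W, hW, ?_, ?_⟩
  · exact (Submodule.nontrivial_iff_ne_bot).mpr hne
  · intro U hU
    by_cases hU0 : U = ⊥
    · exact Or.inl hU0
    · right
      have h1 : P (Module.finrank k (U.map W.subtype)) := by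
        refine ⟨U.map W.subtype, ?_, ?_, rfl⟩
        · rintro g _ ⟨x, hx, rfl⟩
          exact ⟨resRep ρ W hW g x, hU g x hx, rfl⟩
        · intro h
          apply hU0
          rw [Submodule.eq_bot_iff] at h ⊢
          intro x hx
          have := h _ ⟨x, hx, rfl⟩
          exact Subtype.ext this
      have h2 := Nat.find_min' hP h1
      rw [← hfin] at h2
      have h3 : Module.finrank k (U.map W.subtype) = Module.finrank k U :=
        LinearEquiv.finrank_eq (Submodule.equivMapOfInjective _ W.injective_subtype U).symm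
      rw [h3] at h2
      exact Submodule.eq_top_of_finrank_eq (le_antisymm (Submodule.finrank_le U) h2)

end Sub

end ExtractAux

open ExtractAux in
/-- **Extraction lemma.** -/
theorem extract {k : Type*} [Field k] [IsAlgClosed k] {G : Type*} [Group G] {V : Type*}
    [AddCommGroup V] [Module k V] [FiniteDimensional k V] [Nontrivial V]
    (ρ : G →* Module.End k V) (χ : G →* kˣ)
    (h : ∀ g, ∃ t : k, ρ g * ρ g - t • ρ g + (χ g : k) • (1 : Module.End k V) = 0) :
    ∃ ρ' : G →* Module.End k (Fin 2 → k),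
      (∀ g, LinearMap.det (ρ' g) = χ g) ∧
      (∀ g t, ρ g * ρ g - t • ρ g + (χ g : k) • (1 : Module.End k V) = 0 →
        (ρ' g).charpoly = X ^ 2 - C t * X + C (χ g : k)) ∧
      (∀ g, ρ g = 1 → χ g = 1 → ρ' g = 1) := by
  classical
  choose t ht using h
  obtain ⟨W, hW, hirr⟩ := exists_irr ρ
  set ρW := resRep ρ W hW with hρW
  have hrel : ∀ g, QRel (ρW g) (t g) (χ g : k) := fun g => QRel.resRep (ht g)
  have hle := finrank_le_two ρW χ t hrel hirr
  have hnt : Nontrivial W := hirr.1
  have hpos : 0 < Module.finrank k W := Module.finrank_pos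
  have hF2 : Module.finrank k (Fin 2 → k) = 2 := by simp
  have hunit : ∀ (ρ' : G →* Module.End k (Fin 2 → k)) (g : G), ρ' g ≠ 0 := by
    intro ρ' g h0
    have h1 : ρ' g * ρ' g⁻¹ = 1 := by rw [← map_mul, mul_inv_cancel, map_one]
    rw [h0, zero_mul] at h1
    exact zero_ne_one h1
  rcases (by omega : Module.finrank k W = 2 ∨ Module.finrank k W = 1) with h2 | h1
  · -- two-dimensional case
    let e : W ≃ₗ[k] (Fin 2 → k) := LinearEquiv.ofFinrankEq _ _ (by rw [h2, hF2])
    let ρ' : G →* Module.End k (Fin 2 → k) := (e.conjRingEquiv : _ →* _).comp ρW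
    have hρ' : ∀ g, ρ' g = e.conj (ρW g) := fun g => rfl
    have hdet : ∀ g, LinearMap.det (ρ' g) = χ g := by
      intro g
      rw [hρ', LinearEquiv.conj_apply, LinearMap.comp_assoc, LinearMap.det_conj]
      exact det_eq_chi h2 ρW χ t hrel hirr g
    refine ⟨ρ', hdet, ?_, ?_⟩
    · intro g s hs
      have h3 : QRel (ρW g) s (χ g : k) := QRel.resRep hs
      have h4 : ρW g ≠ 0 := by
        intro h0
        have h1 : ρW g * ρW g⁻¹ = 1 := by rw [← map_mul, mul_inv_cancel, map_one]
        rw [h0, zero_mul] at h1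
        exact zero_ne_one h1
      rw [hρ', LinearEquiv.charpoly_conj]
      exact charpoly_of_det h2 _ h4 (det_eq_chi h2 ρW χ t hrel hirr g) h3
    · intro g hg _
      have : ρW g = 1 := by
        ext x
        simp [hρW, hg]
      rw [hρ', this]
      exact map_one e.conjRingEquiv
  · -- one-dimensional case
    let ψ : G →* kˣ := (LinearMap.det.comp ρW).toHomUnits
    have hψ : ∀ g, ρW g = (ψ g : k) • 1 := fun g => scalar_of_finrank_one h1 (ρW g)
    let D : G →* Matrix (Fin 2) (Fin 2) k :=
      { toFun := fun g => Matrix.diagonal ![(ψ g : k), ((χ g * (ψ g)⁻¹ : kˣ) : k)]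
        map_one' := by
          ext i j
          fin_cases i <;> fin_cases j <;> simp
        map_mul' := fun g₁ g₂ => by
          rw [Matrix.diagonal_mul_diagonal]
          congr 1
          ext i
          fin_cases i
          · simp
          · simp only [map_mul, mul_inv_rev, Units.val_mul]
            simp
            ring }
    let ρ' : G →* Module.End k (Fin 2 → k) :=
      ((Matrix.toLinAlgEquiv' : Matrix (Fin 2) (Fin 2) k ≃ₐ[k] _) : _ →* _).comp D
    have hρ' : ∀ g, ρ' g = Matrix.toLin' (D g) := fun g => rfl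
    have hdet : ∀ g, LinearMap.det (ρ' g) = χ g := by
      intro g
      rw [hρ', LinearMap.det_toLin']
      have hψ0 : (ψ g : k) ≠ 0 := (ψ g).ne_zero
      simp [D]
      field_simp
    refine ⟨ρ', hdet, ?_, ?_⟩
    · intro g s hs
      have h3 : QRel (ρW g) s (χ g : k) := QRel.resRep hs
      unfold QRel at h3
      rw [hψ g] at h3
      have h4 : ((ψ g : k) * (ψ g : k) - s * (ψ g : k) + (χ g : k)) • (1 : Module.End k W) = 0 := by
        rw [← h3]
        simp only [mul_smul_comm, mul_one, smul_smul, add_smul, sub_smul]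
      have h5 : (ψ g : k) * (ψ g : k) - s * (ψ g : k) + (χ g : k) = 0 := by
        rcases smul_eq_zero.mp h4 with h | h
        · exact h
        · exact absurd h one_ne_zero
      refine charpoly_of_det hF2 _ (hunit ρ' g) (hdet g) ?_
      unfold QRel
      have h6 : D g * D g - s • D g + (χ g : k) • (1 : Matrix (Fin 2) (Fin 2) k) = 0 := by
        have hψ0 : (ψ g : k) ≠ 0 := (ψ g).ne_zero
        ext i j
        fin_cases i <;> fin_cases j
        · simpa [D, Matrix.mul_apply, Fin.sum_univ_two] using h5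
        · simp [D]
        · simp [D]
        · simp only [D]
          simp
          field_simp
          linear_combination (χ g : k) * h5
      have h7 := congrArg (Matrix.toLinAlgEquiv' : Matrix (Fin 2) (Fin 2) k ≃ₐ[k] _) h6
      simp only [map_add, map_sub, map_mul, map_smul, map_one, map_zero] at h7
      exact h7
    · intro g hg hχ
      have h3 : ρW g = 1 := by
        ext x
        simp [hρW, hg]
      have h4 : (ψ g : k) = 1 := by
        have := hψ g
        rw [h3] at this
        have h5 : ((ψ g : k) - 1) • (1 : Module.End k W) = 0 := by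
          rw [sub_smul (ψ g : k) 1 (1 : Module.End k W), ← this, one_smul, sub_self]
        rcases smul_eq_zero.mp h5 with h | h
        · linear_combination h
        · exact absurd h one_ne_zero
      have h5 : ψ g = 1 := Units.ext h4
      have h6 : D g = 1 := by
        ext i j
        fin_cases i <;> fin_cases j <;> simp [D, h5, hχ]
      rw [hρ', h6]
      exact Matrix.toLin'_one

end Fermat.Agent.ES
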