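import Mathlib

/-!
# ES / ROOT : `m`-th roots of holomorphic functions on the upper half plane

If `F` is holomorphic on `ℍ` and all its vanishing orders are divisible by `m`, then `F = a ^ m`
with `a` holomorphic on `ℍ`.
-/

set_option autoImplicit false

open Complex Metric Set Filter Topology

noncomputable section

namespace Fermat.Agent.ES.Root

/-- A nowhere vanishing holomorphic function on a disc is an exponential. -/
theorem exists_log_on_ball {c : ℂ} {r : ℝ} (hr : 0 < r) {g : ℂ → ℂ}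
    (hg : DifferentiableOn ℂ g (ball c r)) (h0 : ∀ z ∈ ball c r, g z ≠ 0) :
    ∃ L : ℂ → ℂ, DifferentiableOn ℂ L (ball c r) ∧ ∀ z ∈ ball c r, exp (L z) = g z := by
  have hopen : IsOpen (ball c r) := isOpen_ball
  have hg' : DifferentiableOn ℂ (deriv g) (ball c r) := hg.deriv hopen
  have hq : DifferentiableOn ℂ (fun z => deriv g z / g z) (ball c r) := hg'.div hg h0
  obtain ⟨L, hLc, hL⟩ := hq.isExactOn_ball.with_val_at c (log (g c))
  have hcb : c ∈ ball c r := mem_ball_self hr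
  refine ⟨L, fun z hz => (hL z hz).differentiableAt.differentiableWithinAt, ?_⟩
  -- `g * exp (-L)` is constant
  let φ : ℂ → ℂ := fun z => g z * exp (-L z)
  have hφ : ∀ z ∈ ball c r, HasDerivAt φ 0 z := by
    intro z hz
    have h1 : HasDerivAt g (deriv g z) z := (hg.differentiableAt (hopen.mem_nhds hz)).hasDerivAt
    have h2 : HasDerivAt (fun z => exp (-L z)) (exp (-L z) * -(deriv g z / g z)) z :=
      ((hL z hz).neg).cexp
    have h3 := h1.mul h2
    have e : deriv g z * exp (-L z) + g z * (exp (-L z) * -(deriv g z / g z)) = 0 := by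
      field_simp [h0 z hz]
      ring
    rw [e] at h3
    exact h3
  have hconst : ∀ z ∈ ball c r, φ z = φ c := by
    intro z hz
    have hd : DifferentiableOn ℂ φ (ball c r) :=
      fun w hw => (hφ w hw).differentiableAt.differentiableWithinAt
    exact (convex_ball c r).is_const_of_fderivWithin_eq_zero (𝕜 := ℂ) hd (fun w hw => by
      rw [fderivWithin_of_isOpen hopen hw]
      ext
      simp [(hφ w hw).hasFDerivAt.fderiv]) hz hcb
  intro z hz
  have h1 : φ c = 1 := by
    simp only [φ, hLc, exp_neg, exp_log (h0 c hcb)]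
    exact mul_inv_cancel₀ (h0 c hcb)
  have h2 := hconst z hz
  rw [h1] at h2
  simp only [φ, exp_neg] at h2
  have hne : exp (L z) ≠ 0 := exp_ne_zero _
  field_simp at h2
  exact h2.symm

/-- A nowhere vanishing holomorphic function on a disc has a holomorphic `m`-th root. -/
theorem exists_root_on_ball_of_ne_zero {c : ℂ} {r : ℝ} (hr : 0 < r) {g : ℂ → ℂ}
    (hg : DifferentiableOn ℂ g (ball c r)) (h0 : ∀ z ∈ ball c r, g z ≠ 0) (m : ℕ) (hm : m ≠ 0) :
    ∃ a : ℂ → ℂ, DifferentiableOn ℂ a (ball c r) ∧ ∀ z ∈ ball c r, a z ^ m = g z := by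
  obtain ⟨L, hL, hLg⟩ := exists_log_on_ball hr hg h0
  refine ⟨fun z => exp (L z / m), (hL.div_const _).cexp, fun z hz => ?_⟩
  rw [← exp_nat_mul, mul_div_cancel₀ _ (Nat.cast_ne_zero.mpr hm), hLg z hz]

theorem natCast_dvd_natCast_enat {m k : ℕ} (hm : m ≠ 0) (h : (m : ℕ∞) ∣ (k : ℕ∞)) : m ∣ k := by
  obtain ⟨c, hc⟩ := h
  induction c using ENat.recTopCoe with
  | top =>
    rw [ENat.mul_top (by exact_mod_cast hm)] at hc
    exact absurd hc (ENat.natCast_ne_top k)
  | coe n => exact ⟨n, by exact_mod_cast hc⟩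

/-- two analytic functions on an open set agreeing on a codiscrete subset agree everywhere -/
theorem eqOn_of_eventuallyEq_codiscreteWithin {U : Set ℂ} (hU : IsOpen U) {f g : ℂ → ℂ}
    (hf : AnalyticOnNhd ℂ f U) (hg : AnalyticOnNhd ℂ g U) (h : f =ᶠ[codiscreteWithin U] g) :
    EqOn f g U := by
  intro x hx
  have h1 := (mem_codiscreteWithin_iff_forall_mem_nhdsNE.mp h) x hx
  have h2 : U ∈ 𝓝[≠] x := mem_nhdsWithin_of_mem_nhds (hU.mem_nhds hx)
  have h3 : ∀ᶠ y in 𝓝[≠] x, f y = g y := by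
    filter_upwards [h1, h2] with y hy hyU
    rcases hy with hy | hy
    · exact hy
    · exact absurd hyU hy
  exact (((hf x hx).frequently_eq_iff_eventually_eq (hg x hx)).mp h3.frequently).self_of_nhds

/-- `m`-th root on a disc whose closure lies in the domain of analyticity. -/
theorem exists_root_on_ball {c : ℂ} {r : ℝ} (hr : 0 < r) {f : ℂ → ℂ}
    (hf : AnalyticOnNhd ℂ f (closedBall c r)) (hne : ∀ z ∈ ball c r, analyticOrderAt f z ≠ ⊤)
    (m : ℕ) (hm : m ≠ 0) (hord : ∀ z ∈ ball c r, (m : ℕ∞) ∣ analyticOrderAt f z) :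
    ∃ a : ℂ → ℂ, DifferentiableOn ℂ a (ball c r) ∧ ∀ z ∈ ball c r, a z ^ m = f z := by
  classical
  set U := ball c r with hU
  have hUo : IsOpen U := isOpen_ball
  have hfU : AnalyticOnNhd ℂ f U := hf.mono ball_subset_closedBall
  have hmer : MeromorphicOn f U := hfU.meromorphicOn
  have hfin : (MeromorphicOn.divisor f U).support.Finite :=
    MeromorphicOn.divisor_ball_support_finite hf.meromorphicOn
  have h2 : ∀ u : U, meromorphicOrderAt f u ≠ ⊤ := by
    intro u
    rw [(hfU u u.2).meromorphicOrderAt_eq]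
    intro h
    exact hne u u.2 (by simpa using h)
  obtain ⟨g, hg, hg0, hfg⟩ := hmer.extract_zeros_poles h2 hfin
  -- the exponents
  have hD : ∀ u : ℂ, ∃ n : ℕ, MeromorphicOn.divisor f U u = (m : ℤ) * n := by
    intro u
    by_cases hu : u ∈ U
    · obtain ⟨k, hk⟩ := ENat.ne_top_iff_exists.mp (hne u hu)
      have hdiv := hord u hu
      rw [← hk] at hdiv
      obtain ⟨n, hn⟩ : m ∣ k := natCast_dvd_natCast_enat hm hdiv
      refine ⟨n, ?_⟩
      rw [MeromorphicOn.AnalyticOnNhd.divisor_apply hfU hu, ← hk, hn]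
      simp
    · refine ⟨0, ?_⟩
      rw [MeromorphicOn.divisor_def, if_neg (fun h => hu h.2)]
      simp
  choose d hd using hD
  let P : ℂ → ℂ := fun z => ∏ u ∈ hfin.toFinset, (z - u) ^ d u
  have hP : Differentiable ℂ P := by
    apply Differentiable.fun_finsetProd
    intro u _
    fun_prop
  have hPm : (∏ᶠ u, (fun z : ℂ => z - u) ^ MeromorphicOn.divisor f U u) = fun z => P z ^ m := by
    rw [Function.FactorizedRational.finprod_eq_fun hfin]
    funext z
    rw [finprod_eq_prod_of_mulSupport_subset (s := hfin.toFinset)]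
    · simp only [P]
      rw [← Finset.prod_pow]
      refine Finset.prod_congr rfl fun u _ => ?_
      rw [hd u, ← pow_mul, mul_comm (d u) m]
      exact_mod_cast zpow_natCast (z - u) (m * d u)
    · intro u hu
      simp only [Function.mem_mulSupport] at hu
      simp only [Finite.coe_toFinset, Function.mem_support]
      intro h0
      exact hu (by rw [h0, zpow_zero])
  obtain ⟨g₁, hg₁, hg₁m⟩ := exists_root_on_ball_of_ne_zero hr hg.differentiableOn
    (fun z hz => hg0 ⟨z, hz⟩) m hm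
  refine ⟨fun z => P z * g₁ z, hP.differentiableOn.mul hg₁, fun z hz => ?_⟩
  rw [hPm] at hfg
  have hA : AnalyticOnNhd ℂ ((fun z => P z ^ m) • g) U := by
    have : DifferentiableOn ℂ ((fun z => P z ^ m) • g) U :=
      ((hP.pow m).differentiableOn).smul hg.differentiableOn
    exact this.analyticOnNhd hUo
  have := eqOn_of_eventuallyEq_codiscreteWithin hUo hfU hA hfg hz
  rw [this, mul_pow, hg₁m z hz]
  rfl

/-- two analytic `m`-th roots of the same function with the same nonzero value at `z₀` agree -/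
theorem root_unique {U : Set ℂ} (hUo : IsOpen U) (hUc : IsPreconnected U) {a b : ℂ → ℂ}
    (ha : DifferentiableOn ℂ a U) (hb : DifferentiableOn ℂ b U) (m : ℕ) (hm : m ≠ 0)
    (hab : ∀ z ∈ U, a z ^ m = b z ^ m) {z₀ : ℂ} (hz₀ : z₀ ∈ U) (h0 : a z₀ = b z₀)
    (hne : a z₀ ≠ 0) : EqOn a b U := by
  have hca : ContinuousAt a z₀ := (ha.differentiableAt (hUo.mem_nhds hz₀)).continuousAt
  have hcb : ContinuousAt b z₀ := (hb.differentiableAt (hUo.mem_nhds hz₀)).continuousAt
  let S : ℂ → ℂ := fun z => ∑ i ∈ Finset.range m, a z ^ i * b z ^ (m - 1 - i)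
  have hS : ContinuousAt S z₀ := by
    apply tendsto_finsetSum
    intro i _
    exact (hca.pow i).mul (hcb.pow _)
  have hS0 : S z₀ ≠ 0 := by
    simp only [S, ← h0, geom_sum₂_self]
    exact mul_ne_zero (Nat.cast_ne_zero.mpr hm) (pow_ne_zero _ hne)
  have hev : a =ᶠ[𝓝 z₀] b := by
    filter_upwards [hS.eventually_ne hS0, hUo.mem_nhds hz₀] with z hz hzU
    have h1 : S z * (a z - b z) = a z ^ m - b z ^ m := (Commute.all _ _).geom_sum₂_mul m
    rw [hab z hzU, sub_self] at h1
    exact sub_eq_zero.mp ((mul_eq_zero.mp h1).resolve_left hz)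
  exact (ha.analyticOnNhd hUo).eqOn_of_preconnected_of_eventuallyEq (hb.analyticOnNhd hUo) hUc hz₀ hev

/-- gluing roots along an increasing sequence of preconnected open sets -/
theorem exists_root_of_exhaustion (U : ℕ → Set ℂ) (hUo : ∀ n, IsOpen (U n))
    (hUc : ∀ n, IsPreconnected (U n)) (hmono : Monotone U) {f : ℂ → ℂ} (m : ℕ) (hm : m ≠ 0)
    (z₀ : ℂ) (hz₀ : z₀ ∈ U 0) (hfz₀ : f z₀ ≠ 0)
    (h : ∀ n, ∃ a : ℂ → ℂ, DifferentiableOn ℂ a (U n) ∧ ∀ z ∈ U n, a z ^ m = f z) :
    ∃ a : ℂ → ℂ, DifferentiableOn ℂ a (⋃ n, U n) ∧ ∀ z ∈ ⋃ n, U n, a z ^ m = f z := by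
  classical
  choose a ha ham using h
  have hz₀n : ∀ n, z₀ ∈ U n := fun n => hmono (Nat.zero_le n) hz₀
  have ha0 : ∀ n, a n z₀ ≠ 0 := by
    intro n h0
    have := ham n z₀ (hz₀n n)
    rw [h0, zero_pow hm] at this
    exact hfz₀ this.symm
  let b : ℕ → ℂ → ℂ := fun n z => (a 0 z₀ / a n z₀) * a n z
  have hb : ∀ n, DifferentiableOn ℂ (b n) (U n) := fun n => (ha n).const_mul _
  have hbm : ∀ n, ∀ z ∈ U n, b n z ^ m = f z := by
    intro n z hz
    simp only [b]
    rw [mul_pow, div_pow, ham 0 z₀ hz₀, ham n z₀ (hz₀n n), div_self hfz₀, one_mul, ham n z hz]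
  have hbz : ∀ n, b n z₀ = a 0 z₀ := fun n => div_mul_cancel₀ _ (ha0 n)
  have key : ∀ n k, n ≤ k → EqOn (b k) (b n) (U n) := by
    intro n k hnk
    refine root_unique (hUo n) (hUc n) ((hb k).mono (hmono hnk)) (hb n) m hm (fun z hz => ?_)
      (hz₀n n) (by rw [hbz, hbz]) (by rw [hbz]; exact ha0 0)
    rw [hbm n z hz, hbm k z (hmono hnk hz)]
  let A : ℂ → ℂ := fun z => if hz : ∃ n, z ∈ U n then b (Nat.find hz) z else 0
  have hA : ∀ n, EqOn A (b n) (U n) := by
    intro n z hz
    have hex : ∃ n, z ∈ U n := ⟨n, hz⟩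
    simp only [A, dif_pos hex]
    exact (key (Nat.find hex) n (Nat.find_min' hex hz) (Nat.find_spec hex)).symm
  refine ⟨A, fun z hz => ?_, fun z hz => ?_⟩
  · obtain ⟨n, hn⟩ := mem_iUnion.mp hz
    have h1 : DifferentiableAt ℂ (b n) z := (hb n).differentiableAt ((hUo n).mem_nhds hn)
    have h2 : A =ᶠ[𝓝 z] b n := by
      filter_upwards [(hUo n).mem_nhds hn] with w hw using hA n hw
    exact (h2.differentiableAt_iff.mpr h1).differentiableWithinAt
  · obtain ⟨n, hn⟩ := mem_iUnion.mp hz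
    rw [hA n hn, hbm n z hn]

/-! ### the exhaustion of the upper half plane by discs -/

/-- centre of the `n`-th disc -/
def cen (n : ℕ) : ℂ := ((n : ℝ) + 2 : ℝ) * I

/-- radius of the `n`-th disc -/
def rad (n : ℕ) : ℝ := ((n : ℝ) + 2) - 1 / ((n : ℝ) + 2)

lemma rad_pos (n : ℕ) : 0 < rad n := by
  have h : (0 : ℝ) < (n : ℝ) + 2 := by positivity
  have h1 : 1 / ((n : ℝ) + 2) < 1 := by
    rw [div_lt_one h]; linarith [(Nat.cast_nonneg n : (0 : ℝ) ≤ n)]
  unfold rad
  linarith [(Nat.cast_nonneg n : (0 : ℝ) ≤ n)]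

lemma closedBall_subset (n : ℕ) : closedBall (cen n) (rad n) ⊆ {z : ℂ | 0 < z.im} := by
  intro z hz
  have h : (0 : ℝ) < (n : ℝ) + 2 := by positivity
  have h1 : |(z - cen n).im| ≤ rad n :=
    (abs_im_le_norm _).trans (by simpa [dist_eq_norm] using hz)
  have h2 : (z - cen n).im = z.im - ((n : ℝ) + 2) := by
    simp [cen]
  rw [h2, abs_le] at h1
  have h3 : 0 < 1 / ((n : ℝ) + 2) := by positivity
  unfold rad at h1
  show 0 < z.im
  linarith [h1.1]

lemma ball_mono : Monotone fun n => ball (cen n) (rad n) := by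
  refine monotone_nat_of_le_succ fun n => ball_subset_ball' ?_
  have hd : dist (cen n) (cen (n + 1)) = 1 := by
    rw [dist_eq_norm]
    have : cen n - cen (n + 1) = -I := by
      simp only [cen]; push_cast; ring
    rw [this, norm_neg, norm_I]
  rw [hd]
  have h : (0 : ℝ) < (n : ℝ) + 2 := by positivity
  have h' : 1 / ((n : ℝ) + 1 + 2) ≤ 1 / ((n : ℝ) + 2) :=
    one_div_le_one_div_of_le h (by linarith)
  unfold rad
  push_cast
  linarith

lemma iUnion_ball : (⋃ n, ball (cen n) (rad n)) = {z : ℂ | 0 < z.im} := by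
  apply Subset.antisymm
  · exact iUnion_subset fun n => ball_subset_closedBall.trans (closedBall_subset n)
  · intro z hz
    have hy : 0 < z.im := hz
    obtain ⟨n, hn⟩ := exists_nat_ge ((z.re ^ 2 + z.im ^ 2 + 2) / (2 * z.im))
    refine mem_iUnion.mpr ⟨n, ?_⟩
    rw [mem_ball, dist_eq_norm]
    have h : (0 : ℝ) < (n : ℝ) + 2 := by positivity
    have hn' : z.re ^ 2 + z.im ^ 2 + 2 ≤ ((n : ℝ) + 2) * (2 * z.im) := by
      rw [div_le_iff₀ (by positivity)] at hn
      nlinarith
    refine (pow_lt_pow_iff_left₀ (norm_nonneg _) (rad_pos n).le two_ne_zero).mp ?_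
    rw [Complex.sq_norm, normSq_apply]
    have e1 : (z - cen n).re = z.re := by simp [cen]
    have e2 : (z - cen n).im = z.im - ((n : ℝ) + 2) := by simp [cen]
    rw [e1, e2]
    have e3 : rad n ^ 2 = ((n : ℝ) + 2) ^ 2 - 2 + (1 / ((n : ℝ) + 2)) ^ 2 := by
      unfold rad
      field_simp
      ring
    rw [e3]
    have : 0 < (1 / ((n : ℝ) + 2)) ^ 2 := by positivity
    nlinarith

/-- **ROOT**, complex plane version. -/
theorem exists_root_on_upperHalfPlaneSet (m : ℕ) (hm : m ≠ 0) {f : ℂ → ℂ}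
    (hf : DifferentiableOn ℂ f {z : ℂ | 0 < z.im})
    (hord : ∀ z : ℂ, 0 < z.im → (m : ℕ∞) ∣ analyticOrderAt f z) :
    ∃ a : ℂ → ℂ, DifferentiableOn ℂ a {z : ℂ | 0 < z.im} ∧ ∀ z : ℂ, 0 < z.im → a z ^ m = f z := by
  have hHo : IsOpen {z : ℂ | 0 < z.im} := UpperHalfPlane.isOpen_upperHalfPlaneSet
  have hHc : IsPreconnected {z : ℂ | 0 < z.im} := (convex_halfSpace_im_gt 0).isPreconnected
  have hfa : AnalyticOnNhd ℂ f {z : ℂ | 0 < z.im} := hf.analyticOnNhd hHo
  by_cases h0 : ∀ z : ℂ, 0 < z.im → f z = 0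
  · exact ⟨0, differentiableOn_const 0, fun z hz => by simp [h0 z hz, hm]⟩
  simp only [not_forall] at h0
  obtain ⟨z₀, hz₀, hfz₀⟩ := h0
  have hz₀' : z₀ ∈ ⋃ n, ball (cen n) (rad n) := by rw [iUnion_ball]; exact hz₀
  obtain ⟨n₀, hn₀⟩ := mem_iUnion.mp hz₀'
  have hne : ∀ z : ℂ, 0 < z.im → analyticOrderAt f z ≠ ⊤ := by
    intro z hz
    refine hfa.analyticOrderAt_ne_top_of_isPreconnected hHc hz₀ hz ?_
    rw [(hfa z₀ hz₀).analyticOrderAt_eq_zero.mpr hfz₀]
    exact ENat.zero_ne_top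
  obtain ⟨a, ha, ham⟩ := exists_root_of_exhaustion (fun n => ball (cen (n + n₀)) (rad (n + n₀)))
    (fun n => isOpen_ball) (fun n => (convex_ball _ _).isPreconnected)
    (fun i j hij => ball_mono (Nat.add_le_add_right hij n₀)) (f := f) m hm z₀
    (by simpa using hn₀) hfz₀ (fun n => exists_root_on_ball (rad_pos _)
      (hfa.mono (closedBall_subset _))
      (fun z hz => hne z (closedBall_subset _ (ball_subset_closedBall hz))) m hm
      (fun z hz => hord z (closedBall_subset _ (ball_subset_closedBall hz))))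
  have hU : (⋃ n, ball (cen (n + n₀)) (rad (n + n₀))) = {z : ℂ | 0 < z.im} := by
    apply Subset.antisymm
    · exact iUnion_subset fun n => ball_subset_closedBall.trans (closedBall_subset _)
    · rw [← iUnion_ball]
      exact iUnion_subset fun n => (ball_mono (Nat.le_add_right n n₀)).trans
        (subset_iUnion (fun n => ball (cen (n + n₀)) (rad (n + n₀))) n)
  rw [hU] at ha ham
  exact ⟨a, ha, ham⟩

end Fermat.Agent.ES.Root

namespace Fermat.Agent.ES

open UpperHalfPlane
open scoped Manifold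

/-- **ES/ROOT**.  A holomorphic function on `ℍ` all of whose vanishing orders are divisible by `m`
is the `m`-th power of a holomorphic function. -/
theorem exists_root (m : ℕ) (hm : m ≠ 0) (F : ℍ → ℂ) (hF : MDiff F)
    (hord : ∀ z : ℍ, (m : ℕ∞) ∣ analyticOrderAt (F ∘ ofComplex) z) :
    ∃ a : ℍ → ℂ, MDiff a ∧ a ^ m = F := by
  obtain ⟨a, ha, ham⟩ := Root.exists_root_on_upperHalfPlaneSet m hm
    (UpperHalfPlane.mdifferentiable_iff.mp hF) (fun z hz => hord ⟨z, hz⟩)
  refine ⟨fun z => a z, ?_, ?_⟩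
  · rw [UpperHalfPlane.mdifferentiable_iff]
    refine ha.congr fun z hz => ?_
    simp [Function.comp, ofComplex_apply_of_im_pos hz]
  · funext z
    have := ham z z.im_pos
    simpa [Function.comp] using this

/-- Two holomorphic functions on `ℍ` with the same `m`-th power differ by an `m`-th root of unity. -/
theorem eq_smul_of_pow_eq (m : ℕ) (hm : m ≠ 0) (a b : ℍ → ℂ) (ha : MDiff a) (hb : MDiff b)
    (h : a ^ m = b ^ m) : ∃ ζ : ℂ, ζ ^ m = 1 ∧ a = ζ • b := by
  have hpt : ∀ z, a z ^ m = b z ^ m := fun z => congrFun h z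
  by_cases hb0 : ∀ z, b z = 0
  · refine ⟨1, one_pow m, ?_⟩
    funext z
    have := hpt z
    rw [hb0 z, zero_pow hm] at this
    simp [hb0 z, pow_eq_zero_iff hm |>.mp this]
  simp only [not_forall] at hb0
  obtain ⟨z₀, hz₀⟩ := hb0
  have haz₀ : a z₀ ≠ 0 := by
    intro h0
    have := hpt z₀
    rw [h0, zero_pow hm] at this
    exact hz₀ (pow_eq_zero_iff hm |>.mp this.symm)
  refine ⟨a z₀ / b z₀, by rw [div_pow, hpt z₀, div_self (pow_ne_zero m hz₀)], ?_⟩
  have hHo : IsOpen {z : ℂ | 0 < z.im} := UpperHalfPlane.isOpen_upperHalfPlaneSet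
  have hHc : IsPreconnected {z : ℂ | 0 < z.im} := (convex_halfSpace_im_gt 0).isPreconnected
  have key := Root.root_unique hHo hHc (UpperHalfPlane.mdifferentiable_iff.mp ha)
    ((UpperHalfPlane.mdifferentiable_iff.mp hb).const_mul (a z₀ / b z₀)) m hm
    (fun z hz => by
      simp only [Function.comp]
      rw [mul_pow, div_pow, hpt z₀, div_self (pow_ne_zero m hz₀), one_mul, hpt])
    (z₀ := (z₀ : ℂ)) z₀.im_pos
    (by simp only [Function.comp, ofComplex_apply]; rw [div_mul_cancel₀ _ hz₀])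
    (by simpa [Function.comp] using haz₀)
  funext z
  have := key z.im_pos
  simpa [Function.comp] using this

end Fermat.Agent.ES
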