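import Fermat.Agent.S14.KD

/-!
# Density of the places splitting completely in a Galois extension of number fields
(any degree), and boundedness of the Dirichlet series over places of residue degree `≥ 2`.
-/

set_option autoImplicit false

namespace Fermat.Agent.ES

open IsDedekindDomain NumberField Filter Topology
open Fermat.Agent.S14 Fermat.Agent.S14.Dens Fermat.Agent.S14.KDaux

variable {K Z : Type*} [Field K] [NumberField K] [Field Z] [NumberField Z] [Algebra K Z]

/-- the number of places above `v` is at most the degree -/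
theorem ncard_fiber_le (v : Pl K) : {w : Pl Z | below w = v}.ncard ≤ Module.finrank K Z := by
  classical
  rw [ncard_fiber]
  have : Fintype (v.asIdeal.primesOver (𝓞 Z)) :=
    (Algebra.QuasiFinite.finite_primesOver v.asIdeal).fintype
  have h := Ideal.sum_ramification_inertia_eq_finrank v.asIdeal (𝓞 Z)
  rw [IsFractionRing.finrank_eq (𝓞 K) K (𝓞 Z) Z, ← h, ← Set.fintypeCard_eq_ncard,
    ← Finset.card_univ, Finset.card_eq_sum_ones]
  refine Finset.sum_le_sum fun q _ ↦ ?_
  have := q.2.1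
  exact Right.one_le_mul (Ideal.ramificationIdx_pos _ _) (Ideal.inertiaDeg_pos _ _)

/-- a sum over a fibre is at most `[Z:K]` times any bound for the terms -/
theorem tsum_fiber_le {φ : Pl Z → ℝ} (hφ0 : ∀ w, 0 ≤ φ w) (v : Pl K) (c : ℝ)
    (h : ∀ w : Pl Z, below w = v → φ w ≤ c) :
    ∑' w : (below (K := K) (Z := Z)) ⁻¹' {v}, φ w.1 ≤ (Module.finrank K Z : ℝ) * c := by
  have hfin : Finite ((below (K := K) (Z := Z)) ⁻¹' {v}) := (fiber_finite v).to_subtype
  have := Fintype.ofFinite ((below (K := K) (Z := Z)) ⁻¹' {v})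
  obtain ⟨w0, hw0⟩ := fiber_nonempty (Z := Z) v
  have hc0 : 0 ≤ c := (hφ0 w0).trans (h w0 hw0)
  rw [tsum_fintype]
  calc ∑ w : (below (K := K) (Z := Z)) ⁻¹' {v}, φ w.1
      ≤ ∑ _w : (below (K := K) (Z := Z)) ⁻¹' {v}, c := Finset.sum_le_sum fun w _ ↦ h w.1 w.2
    _ = ({w : Pl Z | below w = v}.ncard : ℝ) * c := by
        rw [Finset.sum_const, Finset.card_univ, nsmul_eq_mul, Fintype.card_eq_nat_card,
          Nat.card_coe_set_eq]
        rfl
    _ ≤ (Module.finrank K Z : ℝ) * c :=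
        mul_le_mul_of_nonneg_right (by exact_mod_cast ncard_fiber_le v) hc0

/-- comparison of a sum over the places of `Z` with a sum over the places of `K` -/
theorem tsum_le_of_fiber_bound {φ : Pl Z → ℝ} {c : Pl K → ℝ} (hφ0 : ∀ w, 0 ≤ φ w)
    (hφ : Summable φ) (hc : Summable c) (h : ∀ w, φ w ≤ c (below w)) :
    ∑' w, φ w ≤ (Module.finrank K Z : ℝ) * ∑' v, c v := by
  have h1 := hφ.hasSum.tsum_fiberwise (below (K := K) (Z := Z))
  have h2 : HasSum (fun v ↦ (Module.finrank K Z : ℝ) * c v)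
      ((Module.finrank K Z : ℝ) * ∑' v, c v) := hc.hasSum.mul_left _
  refine hasSum_le (fun v ↦ ?_) h1 h2
  exact tsum_fiber_le hφ0 v (c v) fun w hw ↦ hw ▸ h w

theorem resdeg_pos (w : Pl Z) : 0 < resdeg K w := Ideal.inertiaDeg_pos _ _

theorem wt_le_of_le_resdeg {s : ℝ} (hs : 1 < s) (w : Pl Z) (h : 2 ≤ resdeg K w) :
    wt s w ≤ wt 2 (below (K := K) w) := by
  have h2 : (2 : ℝ) ≤ (Ideal.absNorm (below (K := K) w).asIdeal : ℝ) := by
    exact_mod_cast Analytic.two_le_absNorm K _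
  have hf : (2 : ℝ) ≤ (resdeg K w : ℝ) := by exact_mod_cast h
  unfold wt
  rw [absNorm_eq_pow_resdeg (K := K) w, Nat.cast_pow, ← Real.rpow_natCast,
    ← Real.rpow_mul (Nat.cast_nonneg _)]
  refine Real.rpow_le_rpow_of_exponent_le (by linarith) ?_
  nlinarith

theorem wt_le_below {s : ℝ} (hs : 1 < s) (w : Pl Z) : wt s w ≤ wt s (below (K := K) w) := by
  have h2 : (2 : ℝ) ≤ (Ideal.absNorm (below (K := K) w).asIdeal : ℝ) := by
    exact_mod_cast Analytic.two_le_absNorm K _
  have hf : (1 : ℝ) ≤ (resdeg K w : ℝ) := by exact_mod_cast resdeg_pos w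
  unfold wt
  rw [absNorm_eq_pow_resdeg (K := K) w, Nat.cast_pow, ← Real.rpow_natCast,
    ← Real.rpow_mul (Nat.cast_nonneg _)]
  refine Real.rpow_le_rpow_of_exponent_le (by linarith) ?_
  nlinarith

/-- the places of residue degree `≥ 2` over `K` have a bounded Dirichlet series -/
theorem bdd_resdeg_ge_two (K : Type*) [Field K] [NumberField K] [Algebra K Z] :
    Bdd (DS {w : Pl Z | 2 ≤ resdeg K w}) := by
  refine bdd_of_bounds ((Module.finrank K Z : ℝ) * ∑' v : Pl K, wt 2 v) fun s hs ↦ ?_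
  rw [abs_of_nonneg (DS_nonneg _ s)]
  refine tsum_le_of_fiber_bound (fun w ↦ Set.indicator_nonneg (fun w _ ↦ wt_nonneg s w) w)
    (summable_ind hs _) (summable_wt (by norm_num)) fun w ↦ ?_
  by_cases hw : w ∈ {w : Pl Z | 2 ≤ resdeg K w}
  · rw [Set.indicator_of_mem hw]
    exact wt_le_of_le_resdeg hs w hw
  · rw [Set.indicator_of_notMem hw]
    exact wt_nonneg _ _

section Galois

variable [IsGalois K Z]

theorem efg_gal (w : Pl Z) :
    {w' : Pl Z | below w' = below (K := K) w}.ncard * (ram K w * resdeg K w)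
      = Module.finrank K Z := by
  have h := Ideal.ncard_primesOver_mul_ramificationIdxIn_mul_inertiaDegIn
    (below (K := K) w).asIdeal (𝓞 Z) (Z ≃ₐ[K] Z)
  rw [Ideal.ramificationIdxIn_eq_ramificationIdx _ w.asIdeal (Z ≃ₐ[K] Z),
    Ideal.inertiaDegIn_eq_inertiaDeg _ w.asIdeal (Z ≃ₐ[K] Z), ← ncard_fiber,
    IsGalois.card_aut_eq_finrank] at h
  exact h

theorem isSplit_iff (w : Pl Z) :
    IsSplit Z (below (K := K) w) ↔ ram K w * resdeg K w = 1 := by
  have h := efg_gal (K := K) w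
  have hd : 0 < Module.finrank K Z := Module.finrank_pos
  unfold IsSplit
  constructor
  · intro h1
    rw [h1] at h
    exact Nat.eq_of_mul_eq_mul_left hd (by rw [h, mul_one])
  · intro h1
    rw [h1, mul_one] at h
    exact h

theorem fib_split_gal (s : ℝ) {v : Pl K} (h : IsSplit Z v) :
    fib Z s v = (Module.finrank K Z : ℝ) * wt s v := by
  rw [fib_eq_of_const s v (wt s v), h]
  intro w hw
  subst hw
  have h1 := (isSplit_iff (K := K) w).mp h
  unfold wt
  rw [absNorm_eq_pow_resdeg (K := K) w, Nat.eq_one_of_mul_eq_one_left h1, pow_one]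

omit [IsGalois K Z] in
theorem fib_nonneg (s : ℝ) (v : Pl K) : 0 ≤ fib Z s v :=
  tsum_nonneg fun w ↦ wt_nonneg s w.1

theorem err_bounds_gal {s : ℝ} (hs : 1 < s) (v : Pl K) :
    0 ≤ fib Z s v - (Module.finrank K Z : ℝ) * {v : Pl K | IsSplit Z v}.indicator (wt s) v ∧
    fib Z s v - (Module.finrank K Z : ℝ) * {v : Pl K | IsSplit Z v}.indicator (wt s) v
      ≤ (Module.finrank K Z : ℝ) * (wt 2 v + {v : Pl K | ¬ IsUnram Z v}.indicator (wt s) v) := by
  have hd : (0 : ℝ) ≤ (Module.finrank K Z : ℝ) := Nat.cast_nonneg _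
  by_cases h : IsSplit Z v
  · rw [fib_split_gal s h, Set.indicator_of_mem (show v ∈ {v : Pl K | IsSplit Z v} from h),
      sub_self]
    exact ⟨le_rfl, mul_nonneg hd (add_nonneg (wt_nonneg 2 v)
      (Set.indicator_nonneg (fun v _ ↦ wt_nonneg s v) v))⟩
  · rw [Set.indicator_of_notMem (show v ∉ {v : Pl K | IsSplit Z v} from h), mul_zero, sub_zero]
    refine ⟨fib_nonneg s v, ?_⟩
    by_cases h' : IsUnram Z v
    · rw [Set.indicator_of_notMem (show v ∉ {v : Pl K | ¬ IsUnram Z v} from fun hh ↦ hh h'),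
        add_zero]
      refine tsum_fiber_le (fun w ↦ wt_nonneg s w) v _ fun w hw ↦ ?_
      subst hw
      refine wt_le_of_le_resdeg hs w ?_
      have h1 := (isSplit_iff (K := K) w).not.mp h
      rw [h' w rfl, one_mul] at h1
      have := resdeg_pos (K := K) w
      omega
    · rw [Set.indicator_of_mem (show v ∈ {v : Pl K | ¬ IsUnram Z v} from h')]
      refine tsum_fiber_le (fun w ↦ wt_nonneg s w) v _ fun w hw ↦ ?_
      subst hw
      exact (wt_le_below hs w).trans (le_add_of_nonneg_left (wt_nonneg 2 _))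

/-- `∑_{w} Nw^{-s} = [Z:K] ∑_{v split} Nv^{-s} + O(1)` -/
theorem bdd_split_gal :
    Bdd (fun s ↦ DS (Set.univ : Set (Pl Z)) s
      - (Module.finrank K Z : ℝ) * DS {v : Pl K | IsSplit Z v} s) := by
  have hram : {v : Pl K | ¬ IsUnram Z v}.Finite := finite_not_isUnram
  have hd : (0 : ℝ) ≤ (Module.finrank K Z : ℝ) := Nat.cast_nonneg _
  refine bdd_of_bounds ((Module.finrank K Z : ℝ) *
    (DS (Set.univ : Set (Pl K)) 2 + hram.toFinset.card)) fun s hs ↦ ?_
  have h1 := hasSum_fib (K := K) (Z := Z) hs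
  have h2 : HasSum (fun v : Pl K ↦
      (Module.finrank K Z : ℝ) * {v : Pl K | IsSplit Z v}.indicator (wt s) v)
      ((Module.finrank K Z : ℝ) * DS {v : Pl K | IsSplit Z v} s) :=
    (summable_ind hs _).hasSum.mul_left _
  have h3 := h1.sub h2
  have h4 : HasSum (fun v : Pl K ↦ (Module.finrank K Z : ℝ) *
      (wt 2 v + {v : Pl K | ¬ IsUnram Z v}.indicator (wt s) v))
      ((Module.finrank K Z : ℝ) *
        (DS (Set.univ : Set (Pl K)) 2 + DS {v : Pl K | ¬ IsUnram Z v} s)) := by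
    refine HasSum.mul_left _ (HasSum.add ?_ (summable_ind hs _).hasSum)
    rw [DS_univ]
    exact (summable_wt (K := K) (by norm_num : (1 : ℝ) < 2)).hasSum
  have h5 : 0 ≤ DS (Set.univ : Set (Pl Z)) s
      - (Module.finrank K Z : ℝ) * DS {v : Pl K | IsSplit Z v} s :=
    h3.nonneg fun v ↦ (err_bounds_gal hs v).1
  have h6 := hasSum_le (fun v ↦ (err_bounds_gal hs v).2) h3 h4
  rw [abs_of_nonneg h5]
  have h7 := DS_finite_le hs hram
  refine h6.trans (mul_le_mul_of_nonneg_left ?_ hd)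
  linarith

end Galois

/-- `log (1/(s-1))` -/
noncomputable def Lam (s : ℝ) : ℝ := Real.log (1 / (s - 1))

theorem bdd_DS_univ_sub_Lam (K : Type*) [Field K] [NumberField K] :
    Bdd (fun s ↦ DS (Set.univ : Set (Pl K)) s - Lam s) := by
  obtain ⟨C, hC⟩ := primeZeta_asymp K
  rw [bdd_iff]
  refine ⟨C, ?_⟩
  filter_upwards [hC] with s hs
  rw [DS_univ]; exact hs

theorem not_bdd_Lam : ¬ Bdd Lam := by
  intro h
  exact not_bdd_DS_univ (K := ℚ) (((bdd_DS_univ_sub_Lam ℚ).add h).congr' fun s _ ↦ by ring)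

/-- `[Z:K] ∑_{v split} Nv^{-s} = log (1/(s-1)) + O(1)` -/
theorem bdd_split_sub_Lam [IsGalois K Z] :
    Bdd (fun s ↦ (Module.finrank K Z : ℝ) * DS {v : Pl K | IsSplit Z v} s - Lam s) :=
  ((bdd_DS_univ_sub_Lam Z).sub (bdd_split_gal (K := K) (Z := Z))).congr' fun s _ ↦ by ring

end Fermat.Agent.ES
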