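import Mathlib
import Fermat.Agent.S20.Basic

/-!
# ES / TwEis : Eisenstein series twisted by a unitary character of `Γ₀(N)`

For a bounded weight function `w` on `ℤ²` we study `wEis k w z = ∑ w(c,d) (c z + d)^(-k)`
(holomorphy, slash action, boundedness, limit at `i∞`), and apply this to
`w(c,d) = χ(g)⁻¹`, `g ∈ Γ₀(N)` with bottom row `(c,d)`.
-/

set_option autoImplicit false

open UpperHalfPlane ModularForm EisensteinSeries CongruenceSubgroup Filter Topology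
open scoped MatrixGroups Manifold Matrix

noncomputable section

namespace Fermat.Agent.ES

/-- weighted Eisenstein series -/
def wEis (k : ℤ) (w : (Fin 2 → ℤ) → ℂ) (z : ℍ) : ℂ := ∑' v : Fin 2 → ℤ, w v * eisSummand k v z

variable {k : ℤ} {w : (Fin 2 → ℤ) → ℂ}

lemma norm_term_le (hw : ∀ v, ‖w v‖ ≤ 1) (v : Fin 2 → ℤ) (z : ℍ) :
    ‖w v * eisSummand k v z‖ ≤ ‖eisSummand k v z‖ := by
  rw [norm_mul]
  exact mul_le_of_le_one_left (norm_nonneg _) (hw v)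

lemma summable_norm_term (hk : 3 ≤ k) (hw : ∀ v, ‖w v‖ ≤ 1) (z : ℍ) :
    Summable fun v => ‖w v * eisSummand k v z‖ :=
  (summable_norm_eisSummand hk z).of_nonneg_of_le (fun _ => norm_nonneg _)
    (fun v => norm_term_le hw v z)

lemma summable_term (hk : 3 ≤ k) (hw : ∀ v, ‖w v‖ ≤ 1) (z : ℍ) :
    Summable fun v => w v * eisSummand k v z :=
  (summable_norm_term hk hw z).of_norm

/-- right multiplication by `γ` on row vectors -/
def vecMulEquiv (γ : SL(2, ℤ)) : (Fin 2 → ℤ) ≃ (Fin 2 → ℤ) where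
  toFun v := v ᵥ* (γ : Matrix (Fin 2) (Fin 2) ℤ)
  invFun v := v ᵥ* ((γ⁻¹ : SL(2, ℤ)) : Matrix (Fin 2) (Fin 2) ℤ)
  left_inv v := by
    simp_rw [Matrix.vecMul_vecMul, ← Matrix.SpecialLinearGroup.coe_mul, mul_inv_cancel,
      Matrix.SpecialLinearGroup.coe_one, Matrix.vecMul_one]
  right_inv v := by
    simp_rw [Matrix.vecMul_vecMul, ← Matrix.SpecialLinearGroup.coe_mul, inv_mul_cancel,
      Matrix.SpecialLinearGroup.coe_one, Matrix.vecMul_one]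

lemma wEis_slash (γ : SL(2, ℤ)) :
    wEis k w ∣[k] γ = wEis k (fun v => w (v ᵥ* ((γ⁻¹ : SL(2, ℤ)) : Matrix (Fin 2) (Fin 2) ℤ))) := by
  ext1 z
  simp_rw [SL_slash_apply, zpow_neg,
    mul_inv_eq_iff_eq_mul₀ (zpow_ne_zero _ <| denom_ne_zero _ z),
    wEis, eisSummand_SL2_apply]
  rw [← tsum_mul_right]
  rw [← (vecMulEquiv γ).tsum_eq (fun v => w (v ᵥ* ((γ⁻¹ : SL(2, ℤ)) : Matrix (Fin 2) (Fin 2) ℤ)) * eisSummand k v z * denom (γ : SL(2, ℤ)) z ^ k)]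
  refine tsum_congr fun v => ?_
  have : (vecMulEquiv γ v) ᵥ* ((γ⁻¹ : SL(2, ℤ)) : Matrix (Fin 2) (Fin 2) ℤ) = v := (vecMulEquiv γ).left_inv v
  rw [this]
  simp only [vecMulEquiv, Equiv.coe_fn_mk]
  ring

/-- the sum of the norms -/
def normSum (k : ℤ) (z : ℍ) : ℝ := ∑' v : Fin 2 → ℤ, ‖eisSummand k v z‖

lemma norm_wEis_le (hk : 3 ≤ k) (hw : ∀ v, ‖w v‖ ≤ 1) (z : ℍ) : ‖wEis k w z‖ ≤ normSum k z :=
  (norm_tsum_le_tsum_norm (summable_norm_term hk hw z)).trans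
    ((summable_norm_term hk hw z).tsum_le_tsum (fun v => norm_term_le hw v z)
      (summable_norm_eisSummand hk z))

lemma normSum_T_zpow (n : ℤ) (z : ℍ) : normSum k (ModularGroup.T ^ n • z) = normSum k z := by
  unfold normSum
  rw [← (vecMulEquiv (ModularGroup.T ^ n)).tsum_eq (fun v => ‖eisSummand k v z‖)]
  refine tsum_congr fun v => ?_
  rw [eisSummand_SL2_apply]
  have : denom ((ModularGroup.T ^ n : SL(2, ℤ))) z = 1 := by
    rw [ModularGroup.denom_apply, ModularGroup.coe_T_zpow]; simp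
  rw [this, one_zpow, one_mul]
  rfl

lemma exists_normSum_le (hk : 3 ≤ k) : ∃ C : ℝ, ∀ z : ℍ, 1 ≤ z.im → normSum k z ≤ C := by
  refine ⟨∑' (x : Fin 2 → ℤ), r ⟨⟨1, 1⟩, one_pos⟩ ^ (-k) * ‖x‖ ^ (-k), fun z hz => ?_⟩
  obtain ⟨n, hn⟩ := ModularGroup_T_zpow_mem_verticalStrip z (N := 1) one_pos
  rw [← normSum_T_zpow ((1 : ℕ) * n) z]
  have hk' : (2 : ℝ) < k := by norm_cast
  apply (summable_norm_eisSummand hk _).tsum_le_tsum _
  · exact_mod_cast (summable_one_div_norm_rpow hk').mul_left <| r ⟨⟨1, 1⟩, one_pos⟩ ^ (-k)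
  · intro x
    simp_rw [eisSummand, norm_zpow]
    have := summand_bound_of_mem_verticalStrip (lt_trans two_pos hk').le x one_pos
      (verticalStrip_anti_right (1 : ℕ) hz hn)
    exact_mod_cast this

lemma isBoundedAtImInfty_wEis (hk : 3 ≤ k) (hw : ∀ v, ‖w v‖ ≤ 1) :
    IsBoundedAtImInfty (wEis k w) := by
  obtain ⟨C, hC⟩ := exists_normSum_le hk
  rw [UpperHalfPlane.isBoundedAtImInfty_iff]
  exact ⟨C, 1, fun z hz => (norm_wEis_le hk hw z).trans (hC z hz)⟩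

lemma isBoundedAtImInfty_wEis_slash (hk : 3 ≤ k) (hw : ∀ v, ‖w v‖ ≤ 1) (γ : SL(2, ℤ)) :
    IsBoundedAtImInfty (wEis k w ∣[k] γ) := by
  rw [wEis_slash]
  exact isBoundedAtImInfty_wEis hk fun v => hw _

/-! ### holomorphy -/

theorem wEis_tendstoLocallyUniformly (hk : 3 ≤ k) (hw : ∀ v, ‖w v‖ ≤ 1) :
    TendstoLocallyUniformly (fun (s : Finset (Fin 2 → ℤ)) ↦ (∑ x ∈ s, w x * eisSummand k x ·))
      (wEis k w ·) Filter.atTop := by
  have hk' : (2 : ℝ) < k := by norm_cast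
  have p_sum : Summable fun x : Fin 2 → ℤ ↦ ‖x‖ ^ (-k) :=
    mod_cast (summable_one_div_norm_rpow hk')
  simp only [tendstoLocallyUniformly_iff_forall_isCompact, wEis]
  intro K hK
  obtain ⟨A, B, hB, HABK⟩ := subset_verticalStrip_of_isCompact hK
  refine (tendstoUniformlyOn_tsum (hu := p_sum.mul_left <| r ⟨⟨A, B⟩, hB⟩ ^ (-k : ℝ))
    (fun p z hz ↦ ?_)).mono HABK
  refine (norm_term_le hw p z).trans ?_
  simpa only [eisSummand, one_div, ← zpow_neg, norm_zpow, ← Real.rpow_intCast,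
    Int.cast_neg] using summand_bound_of_mem_verticalStrip (by positivity) p hB hz

lemma wEis_tendstoLocallyUniformlyOn (hk : 3 ≤ k) (hw : ∀ v, ‖w v‖ ≤ 1) :
    TendstoLocallyUniformlyOn (fun (s : Finset (Fin 2 → ℤ)) ↦
      ↑ₕ(fun (z : ℍ) ↦ ∑ x ∈ s, w x * eisSummand k x z)) (↑ₕ(wEis k w))
          Filter.atTop {z : ℂ | 0 < z.im} := by
  rw [← upperHalfPlaneSet, ← range_coe, ← Set.image_univ]
  apply TendstoLocallyUniformlyOn.comp (s := ⊤) _ _ _ (OpenPartialHomeomorph.continuousOn_symm _)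
  · simp only [Set.top_eq_univ, tendstoLocallyUniformlyOn_univ]
    apply wEis_tendstoLocallyUniformly hk hw
  · simp only [IsOpenEmbedding.toOpenPartialHomeomorph_target, Set.top_eq_univ,
      Set.mapsTo_range_iff, Set.mem_univ, forall_const]

lemma term_extension_differentiableOn (k : ℤ) (c : ℂ) (a : Fin 2 → ℤ) :
    DifferentiableOn ℂ (↑ₕ(fun z : ℍ => c * eisSummand k a z)) {z : ℂ | 0 < z.im} :=
  (eisSummand_extension_differentiableOn k a).const_mul c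

theorem mdifferentiable_wEis (hk : 3 ≤ k) (hw : ∀ v, ‖w v‖ ≤ 1) : MDiff (wEis k w) := by
  intro τ
  suffices DifferentiableAt ℂ (↑ₕ(wEis k w)) τ.1 by
    convert!
      MDifferentiableAt.comp τ (DifferentiableAt.mdifferentiableAt this) τ.mdifferentiable_coe
    exact funext fun z ↦ (comp_ofComplex (wEis k w) z).symm
  refine DifferentiableOn.differentiableAt ?_ (isOpen_upperHalfPlaneSet.mem_nhds τ.2)
  refine (wEis_tendstoLocallyUniformlyOn hk hw).differentiableOn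
    (Eventually.of_forall fun s ↦ ?_) isOpen_upperHalfPlaneSet
  have : (↑ₕ(fun (z : ℍ) ↦ ∑ x ∈ s, w x * eisSummand k x z)) =
      fun z => ∑ x ∈ s, (↑ₕ(fun z : ℍ => w x * eisSummand k x z)) z := by
    funext z; simp [Function.comp]
  rw [this]
  exact DifferentiableOn.fun_sum fun x _ ↦ term_extension_differentiableOn k (w x) x

/-! ### the limit at `i∞` -/

/-- the point `re z + i` -/
def flat (z : ℍ) : ℍ := ⟨⟨z.re, 1⟩, one_pos⟩

lemma flat_im (z : ℍ) : (flat z).im = 1 := rfl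

lemma norm_eisSummand_le_of_ne (hk : 1 ≤ k) (v : Fin 2 → ℤ) (hv : v 0 ≠ 0) (z : ℍ)
    (hz : 1 ≤ z.im) :
    ‖eisSummand k v z‖ ≤ z.im⁻¹ * ‖eisSummand (k - 1) v (flat z)‖ := by
  obtain ⟨m, rfl⟩ : ∃ m : ℕ, k = m + 1 := ⟨(k - 1).toNat, by omega⟩
  have hc : (1 : ℝ) ≤ (v 0 : ℝ) ^ 2 := by
    have : (1 : ℤ) ≤ (v 0) ^ 2 := by
      have := sq_nonneg (v 0)
      have h0 : (v 0) ^ 2 ≠ 0 := pow_ne_zero 2 hv
      omega
    exact_mod_cast this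
  set a := ‖(v 0 : ℂ) * (z : ℂ) + v 1‖ with ha
  set b := ‖(v 0 : ℂ) * (flat z : ℂ) + v 1‖ with hb
  have hb2 : b ^ 2 = ((v 0 : ℝ) * z.re + v 1) ^ 2 + (v 0 : ℝ) ^ 2 := by
    rw [hb, Complex.sq_norm, Complex.normSq_apply]
    simp [flat]
    ring
  have ha2 : a ^ 2 = ((v 0 : ℝ) * z.re + v 1) ^ 2 + ((v 0 : ℝ) * z.im) ^ 2 := by
    rw [ha, Complex.sq_norm, Complex.normSq_apply]
    simp
    ring
  have hy2 : (1 : ℝ) ≤ z.im ^ 2 := by nlinarith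
  have hba : b ≤ a := by
    refine (pow_le_pow_iff_left₀ (norm_nonneg _) (norm_nonneg _) two_ne_zero).mp ?_
    rw [hb2, ha2, mul_pow]
    nlinarith [sq_nonneg (v 0 : ℝ)]
  have hya : z.im ≤ a := by
    refine (pow_le_pow_iff_left₀ z.im_pos.le (norm_nonneg _) two_ne_zero).mp ?_
    rw [ha2, mul_pow]
    nlinarith [sq_nonneg ((v 0 : ℝ) * z.re + v 1), sq_nonneg z.im]
  have hbpos : 0 < b := by
    have h2 : 0 < b ^ 2 := by rw [hb2]; nlinarith [sq_nonneg ((v 0 : ℝ) * z.re + v 1)]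
    rcases (norm_nonneg ((v 0 : ℂ) * (flat z : ℂ) + v 1)).lt_or_eq with h | h
    · exact h
    · rw [← hb] at h; rw [← h] at h2; simp at h2
  have hapos : 0 < a := lt_of_lt_of_le hbpos hba
  have e1 : ‖eisSummand ((m : ℤ) + 1) v z‖ = a⁻¹ * (a ^ m)⁻¹ := by
    rw [eisSummand, norm_zpow, ← ha, zpow_neg]
    have : a ^ ((m : ℤ) + 1) = a ^ (m + 1) := by exact_mod_cast zpow_natCast a (m + 1)
    rw [this, pow_succ, mul_inv, mul_comm]
  have e2 : ‖eisSummand ((m : ℤ) + 1 - 1) v (flat z)‖ = (b ^ m)⁻¹ := by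
    rw [eisSummand, norm_zpow, ← hb, add_sub_cancel_right, zpow_neg, zpow_natCast]
  rw [e1, e2]
  have h1 : a⁻¹ ≤ z.im⁻¹ := inv_anti₀ z.im_pos hya
  have h2 : (a ^ m)⁻¹ ≤ (b ^ m)⁻¹ := inv_anti₀ (pow_pos hbpos m) (pow_le_pow_left₀ hbpos.le hba m)
  exact mul_le_mul h1 h2 (inv_nonneg.mpr (pow_pos hapos m).le) (inv_nonneg.mpr z.im_pos.le)

lemma eisSummand_of_zero (v : Fin 2 → ℤ) (hv : v 0 = 0) (z : ℍ) :
    eisSummand k v z = (v 1 : ℂ) ^ (-k) := by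
  simp [eisSummand, hv]

lemma norm_wEis_sub_le (hk : 4 ≤ k) (hw : ∀ v, ‖w v‖ ≤ 1) (s : Finset (Fin 2 → ℤ))
    (hs0 : ∀ v ∈ s, v 0 = 0) (hs : ∀ v, v 0 = 0 → v ∉ s → w v = 0) (z : ℍ) (hz : 1 ≤ z.im) :
    ‖wEis k w z - ∑ v ∈ s, w v * (v 1 : ℂ) ^ (-k)‖ ≤ z.im⁻¹ * normSum (k - 1) (flat z) := by
  have hsum := summable_term (by omega : 3 ≤ k) hw z
  have e : ∑ v ∈ s, w v * (v 1 : ℂ) ^ (-k) = ∑ v ∈ s, w v * eisSummand k v z :=
    Finset.sum_congr rfl fun v hv => by rw [eisSummand_of_zero v (hs0 v hv)]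
  rw [e, wEis, ← hsum.sum_add_tsum_subtype_compl s, add_sub_cancel_left]
  have hsn := summable_norm_term (by omega : 3 ≤ k) hw z
  have hS := (summable_norm_eisSummand (by omega : 3 ≤ k - 1) (flat z)).mul_left z.im⁻¹
  refine (norm_tsum_le_tsum_norm (hsn.subtype _)).trans ?_
  unfold normSum
  rw [← tsum_mul_left]
  refine ((hsn.subtype _).tsum_le_tsum (fun v => ?_) (hS.subtype _)).trans
    (hS.tsum_subtype_le _ _ (fun v => mul_nonneg (inv_nonneg.mpr z.im_pos.le) (norm_nonneg _)))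
  by_cases hv : (v : Fin 2 → ℤ) 0 = 0
  · have : w v = 0 := hs v hv (by simpa using v.2)
    simp only [Function.comp, this, zero_mul, norm_zero]
    exact mul_nonneg (inv_nonneg.mpr z.im_pos.le) (norm_nonneg _)
  · exact (norm_term_le hw v z).trans (norm_eisSummand_le_of_ne (by omega) v hv z hz)

lemma tendsto_wEis (hk : 4 ≤ k) (hw : ∀ v, ‖w v‖ ≤ 1) (s : Finset (Fin 2 → ℤ))
    (hs0 : ∀ v ∈ s, v 0 = 0) (hs : ∀ v, v 0 = 0 → v ∉ s → w v = 0) :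
    Tendsto (wEis k w) atImInfty (𝓝 (∑ v ∈ s, w v * (v 1 : ℂ) ^ (-k))) := by
  obtain ⟨C, hC⟩ := exists_normSum_le (by omega : 3 ≤ k - 1)
  rw [tendsto_iff_norm_sub_tendsto_zero]
  have hlim : Tendsto (fun z : ℍ => z.im⁻¹ * C) atImInfty (𝓝 0) := by
    have : Tendsto (fun z : ℍ => z.im) atImInfty atTop := tendsto_comap
    simpa using (tendsto_inv_atTop_zero.comp this).mul_const C
  refine squeeze_zero' (Eventually.of_forall fun z => norm_nonneg _) ?_ hlim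
  rw [Filter.Eventually, atImInfty_mem]
  refine ⟨1, fun z hz => ?_⟩
  exact (norm_wEis_sub_le hk hw s hs0 hs z hz).trans
    (mul_le_mul_of_nonneg_left (hC _ (flat_im z).ge) (inv_nonneg.mpr z.im_pos.le))

/-! ### the weight attached to a character of `Γ₀(N)` -/

/-- bottom row -/
def botRow (g : SL(2, ℤ)) : Fin 2 → ℤ := (g : Matrix (Fin 2) (Fin 2) ℤ) 1

lemma botRow_mul (g h : SL(2, ℤ)) :
    botRow (g * h) = botRow g ᵥ* (h : Matrix (Fin 2) (Fin 2) ℤ) := by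
  simp [botRow, Matrix.SpecialLinearGroup.coe_mul, Matrix.mul_apply_eq_vecMul]

variable {N : ℕ} {χ : Gamma0 N →* ℂˣ}

open Classical in
/-- `χ(g)⁻¹` if `v` is the bottom row of `g ∈ Γ₀(N)`, zero if there is no such `g`. -/
def chiW (χ : Gamma0 N →* ℂˣ) (v : Fin 2 → ℤ) : ℂ :=
  if h : ∃ g : Gamma0 N, botRow g = v then (((χ h.choose)⁻¹ : ℂˣ) : ℂ) else 0

lemma chi_eq_of_botRow_eq (hT : ∀ g : Gamma0 N, (g : SL(2, ℤ)) 1 0 = 0 → χ g = 1)
    (g g' : Gamma0 N) (h : botRow g = botRow g') : χ g = χ g' := by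
  have h0 : (g : SL(2, ℤ)) 1 0 = (g' : SL(2, ℤ)) 1 0 := congrFun h 0
  have h1 : (g : SL(2, ℤ)) 1 1 = (g' : SL(2, ℤ)) 1 1 := congrFun h 1
  have : χ (g * g'⁻¹) = 1 := by
    apply hT
    have e : ((g : SL(2, ℤ)) * (g' : SL(2, ℤ))⁻¹) 1 0 =
        (g : SL(2, ℤ)) 1 0 * (g' : SL(2, ℤ)) 1 1 - (g : SL(2, ℤ)) 1 1 * (g' : SL(2, ℤ)) 1 0 := by
      simp [Matrix.SpecialLinearGroup.coe_mul, Matrix.SpecialLinearGroup.coe_inv,
        Matrix.adjugate_fin_two, Matrix.mul_apply, Fin.sum_univ_two]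
      ring
    rw [Subgroup.coe_mul, Subgroup.coe_inv, e, h0, h1]
    ring
  rw [map_mul, map_inv, mul_inv_eq_one] at this
  exact this

lemma chiW_botRow (hT : ∀ g : Gamma0 N, (g : SL(2, ℤ)) 1 0 = 0 → χ g = 1) (g : Gamma0 N) :
    chiW χ (botRow g) = (((χ g)⁻¹ : ℂˣ) : ℂ) := by
  have h : ∃ g' : Gamma0 N, botRow g' = botRow g := ⟨g, rfl⟩
  rw [chiW, dif_pos h, chi_eq_of_botRow_eq hT _ _ h.choose_spec]

lemma chiW_of_not {v : Fin 2 → ℤ} (h : ¬ ∃ g : Gamma0 N, botRow g = v) : chiW χ v = 0 := by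
  rw [chiW, dif_neg h]

lemma chiW_vecMul (hT : ∀ g : Gamma0 N, (g : SL(2, ℤ)) 1 0 = 0 → χ g = 1) (γ : Gamma0 N)
    (v : Fin 2 → ℤ) :
    chiW χ (v ᵥ* ((γ : SL(2, ℤ)) : Matrix (Fin 2) (Fin 2) ℤ)) =
      chiW χ v * (((χ γ)⁻¹ : ℂˣ) : ℂ) := by
  by_cases h : ∃ g : Gamma0 N, botRow g = v
  · obtain ⟨g, rfl⟩ := h
    rw [← botRow_mul, ← Subgroup.coe_mul, chiW_botRow hT, chiW_botRow hT, map_mul, mul_inv,
      Units.val_mul]
  · rw [chiW_of_not h, zero_mul]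
    apply chiW_of_not
    rintro ⟨g', hg'⟩
    apply h
    refine ⟨g' * γ⁻¹, ?_⟩
    rw [Subgroup.coe_mul, botRow_mul, hg', Subgroup.coe_inv]
    exact (vecMulEquiv (γ : SL(2, ℤ))).left_inv v

lemma norm_chiW_le (hu : ∀ g, ‖(χ g : ℂ)‖ = 1) (v : Fin 2 → ℤ) : ‖chiW χ v‖ ≤ 1 := by
  unfold chiW
  split_ifs with h
  · rw [Units.val_inv_eq_inv_val, norm_inv, hu, inv_one]
  · simp

lemma chiW_zero_one (hT : ∀ g : Gamma0 N, (g : SL(2, ℤ)) 1 0 = 0 → χ g = 1) :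
    chiW χ ![0, 1] = 1 := by
  have : botRow ((1 : Gamma0 N) : SL(2, ℤ)) = ![0, 1] := by
    ext i; fin_cases i <;> simp [botRow]
  rw [← this, chiW_botRow hT, map_one]
  simp

lemma neg_one_mem_Gamma0 : (-1 : SL(2, ℤ)) ∈ Gamma0 N := by
  rw [Gamma0_mem]; simp

lemma chiW_zero_neg_one (hT : ∀ g : Gamma0 N, (g : SL(2, ℤ)) 1 0 = 0 → χ g = 1) :
    chiW χ ![0, -1] = 1 := by
  have : botRow ((⟨-1, neg_one_mem_Gamma0⟩ : Gamma0 N) : SL(2, ℤ)) = ![0, -1] := by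
    ext i; fin_cases i <;> simp [botRow]
  rw [← this, chiW_botRow hT, hT _ (by simp)]
  simp

lemma chiW_eq_zero_of (v : Fin 2 → ℤ) (hv : v 0 = 0)
    (hv' : v ∉ ({![0, 1], ![0, -1]} : Finset (Fin 2 → ℤ))) : chiW χ v = 0 := by
  apply chiW_of_not
  rintro ⟨g, rfl⟩
  apply hv'
  have hdet := Matrix.SpecialLinearGroup.det_coe (g : SL(2, ℤ))
  rw [Matrix.det_fin_two] at hdet
  have h10 : (g : SL(2, ℤ)) 1 0 = 0 := hv
  rw [h10, mul_zero, sub_zero] at hdet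
  have h11 : (g : SL(2, ℤ)) 1 1 = 1 ∨ (g : SL(2, ℤ)) 1 1 = -1 :=
    Int.isUnit_iff.mp (IsUnit.of_mul_eq_one _ (by rw [mul_comm]; exact hdet))
  simp only [Finset.mem_insert, Finset.mem_singleton]
  rcases h11 with h | h
  · left; ext i; fin_cases i
    · exact h10
    · exact h
  · right; ext i; fin_cases i
    · exact h10
    · exact h

/-- the Eisenstein series twisted by `χ` -/
def twEis (k : ℤ) (χ : Gamma0 N →* ℂˣ) : ℍ → ℂ := (2 : ℂ)⁻¹ • wEis k (chiW χ)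

theorem mdifferentiable_twEis (hk : 3 ≤ k) (hu : ∀ g, ‖(χ g : ℂ)‖ = 1) : MDiff (twEis k χ) :=
  (mdifferentiable_wEis hk (norm_chiW_le hu)).const_smul _

theorem twEis_slash (hT : ∀ g : Gamma0 N, (g : SL(2, ℤ)) 1 0 = 0 → χ g = 1) (g : Gamma0 N) :
    twEis k χ ∣[k] (g : SL(2, ℤ)) = (χ g : ℂ) • twEis k χ := by
  rw [twEis, SL_smul_slash, wEis_slash, smul_comm]
  congr 1
  ext z
  rw [Pi.smul_apply, smul_eq_mul, wEis, wEis, ← tsum_mul_left]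
  refine tsum_congr fun v => ?_
  have := chiW_vecMul hT g⁻¹ v
  rw [Subgroup.coe_inv] at this
  rw [this, map_inv, inv_inv]
  ring

theorem isBoundedAtImInfty_twEis_slash (hk : 3 ≤ k) (hu : ∀ g, ‖(χ g : ℂ)‖ = 1) (γ : SL(2, ℤ)) :
    IsBoundedAtImInfty (twEis k χ ∣[k] γ) := by
  rw [twEis, SL_smul_slash]
  exact (isBoundedAtImInfty_wEis_slash hk (norm_chiW_le hu) γ).const_smul_left _

theorem tendsto_twEis (hk : 3 ≤ k) (hk2 : Even k) (hu : ∀ g, ‖(χ g : ℂ)‖ = 1)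
    (hT : ∀ g : Gamma0 N, (g : SL(2, ℤ)) 1 0 = 0 → χ g = 1) :
    Tendsto (twEis k χ) atImInfty (𝓝 1) := by
  have hk4 : 4 ≤ k := by
    obtain ⟨m, rfl⟩ := hk2; omega
  have h := tendsto_wEis hk4 (norm_chiW_le hu) {![0, 1], ![0, -1]}
    (by intro v hv; simp only [Finset.mem_insert, Finset.mem_singleton] at hv
        rcases hv with rfl | rfl <;> rfl)
    (fun v hv hv' => chiW_eq_zero_of v hv hv')
  have hne : (![0, 1] : Fin 2 → ℤ) ≠ ![0, -1] := by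
    intro h; have := congrFun h 1; simp at this
  rw [Finset.sum_pair hne, chiW_zero_one hT, chiW_zero_neg_one hT] at h
  have e : (1 : ℂ) * (((![0, 1] : Fin 2 → ℤ) 1 : ℤ) : ℂ) ^ (-k) +
      1 * (((![0, -1] : Fin 2 → ℤ) 1 : ℤ) : ℂ) ^ (-k) = 2 := by
    have : ((-1 : ℂ)) ^ (-k) = 1 := (hk2.neg).neg_one_zpow
    simp [this]
    norm_num
  rw [e] at h
  have h2 : Tendsto (fun z => (2 : ℂ)⁻¹ * wEis k (chiW χ) z) atImInfty (𝓝 ((2 : ℂ)⁻¹ * 2)) :=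
    h.const_mul _
  rw [inv_mul_cancel₀ two_ne_zero] at h2
  exact h2

/-- **ES/TwEis**. -/
theorem exists_twEis (N : ℕ) {k : ℤ} (hk : 3 ≤ k) (hk2 : Even k) (χ : Gamma0 N →* ℂˣ)
    (hu : ∀ g, ‖(χ g : ℂ)‖ = 1) (hT : ∀ g : Gamma0 N, (g : SL(2, ℤ)) 1 0 = 0 → χ g = 1) :
    ∃ E : ℍ → ℂ, MDiff E ∧ (∀ g : Gamma0 N, E ∣[k] (g : SL(2, ℤ)) = (χ g : ℂ) • E) ∧
      (∀ γ : SL(2, ℤ), IsBoundedAtImInfty (E ∣[k] γ)) ∧ Tendsto E atImInfty (𝓝 1) :=
  ⟨twEis k χ, mdifferentiable_twEis hk hu, twEis_slash hT, isBoundedAtImInfty_twEis_slash hk hu,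
    tendsto_twEis hk hk2 hu hT⟩

/-! ### consequences -/

lemma pow_slash_SL2 (f : ℍ → ℂ) (k : ℤ) (n : ℕ) (γ : SL(2, ℤ)) :
    (f ^ n) ∣[(n : ℤ) * k] γ = (f ∣[k] γ) ^ n := by
  induction n with
  | zero => simpa using is_invariant_one γ
  | succ n ih =>
    rw [pow_succ, pow_succ, ← ih, ← mul_slash_SL2]
    congr 1; push_cast; ring

/-- `E_χ` is a modular form on the trivial group (holomorphic, all translates bounded). -/
theorem isMF_bot_twEis (hk : 3 ≤ k) (hu : ∀ g, ‖(χ g : ℂ)‖ = 1) : S20.IsMF ⊥ k (twEis k χ) :=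
  ⟨mdifferentiable_twEis hk hu, fun γ hγ => by
    rw [Subgroup.mem_bot.mp hγ]; exact SlashAction.slash_one _ _,
    isBoundedAtImInfty_twEis_slash hk hu⟩

/-- If `χ ^ p = 1` then `E_χ ^ p` is a modular form of weight `p k` on `Γ₀(N)`. -/
theorem isMF_twEis_pow (hk : 3 ≤ k) (hu : ∀ g, ‖(χ g : ℂ)‖ = 1)
    (hT : ∀ g : Gamma0 N, (g : SL(2, ℤ)) 1 0 = 0 → χ g = 1) (p : ℕ) (hp : ∀ g, χ g ^ p = 1) :
    S20.IsMF (Gamma0 N) ((p : ℤ) * k) (twEis k χ ^ p) := by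
  have h := (isMF_bot_twEis (χ := χ) hk hu).pow p
  refine ⟨h.holo, fun γ hγ => ?_, h.bdd⟩
  rw [pow_slash_SL2, twEis_slash hT ⟨γ, hγ⟩, smul_pow]
  have : ((χ ⟨γ, hγ⟩ : ℂˣ) : ℂ) ^ p = 1 := by
    rw [← Units.val_pow_eq_pow_val, hp]; rfl
  rw [this, one_smul]

theorem twEis_ne_zero (hk : 3 ≤ k) (hk2 : Even k) (hu : ∀ g, ‖(χ g : ℂ)‖ = 1)
    (hT : ∀ g : Gamma0 N, (g : SL(2, ℤ)) 1 0 = 0 → χ g = 1) : twEis k χ ≠ 0 := by
  intro h
  have h1 := tendsto_twEis hk hk2 hu hT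
  rw [h] at h1
  have h0 : Tendsto (0 : ℍ → ℂ) atImInfty (𝓝 0) := tendsto_const_nhds
  exact one_ne_zero (tendsto_nhds_unique h1 h0)

end Fermat.Agent.ES
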